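import Fermat.Agent.S20.CombFix

set_option autoImplicit false
open scoped MatrixGroups

namespace Fermat.Agent.S20Lib

open ModularCurve

/-- indicator of squarefree numbers as an arithmetic function -/
def sqfInd : ArithmeticFunction ℕ :=
  ⟨fun d => if Squarefree d then 1 else 0, by simp⟩

theorem sqfInd_apply (d : ℕ) : sqfInd d = if Squarefree d then 1 else 0 := rfl

theorem sqfInd_isMultiplicative : sqfInd.IsMultiplicative := by
  refine ⟨by simp [sqfInd_apply], ?_⟩
  intro m n h
  simp only [sqfInd_apply, Nat.squarefree_mul h]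
  by_cases h1 : Squarefree m <;> by_cases h2 : Squarefree n <;> simp [h1, h2]

theorem dedekindPsi_eq (N : ℕ) : dedekindPsi N = (sqfInd * ArithmeticFunction.id) N := by
  rw [ArithmeticFunction.mul_apply, dedekindPsi,
    Nat.sum_divisorsAntidiagonal (fun d e => sqfInd d * ArithmeticFunction.id e),
    Finset.sum_filter]
  refine Finset.sum_congr rfl fun d _ => ?_
  simp [sqfInd_apply]

theorem dedekindPsi_mul {m n : ℕ} (h : m.Coprime n) :
    dedekindPsi (m * n) = dedekindPsi m * dedekindPsi n := by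
  rw [dedekindPsi_eq, dedekindPsi_eq, dedekindPsi_eq]
  exact (sqfInd_isMultiplicative.mul ArithmeticFunction.isMultiplicative_id).map_mul_of_coprime h

theorem dedekindPsi_prime_pow {p : ℕ} (hp : p.Prime) (k : ℕ) :
    dedekindPsi (p ^ (k + 1)) = p ^ (k + 1) + p ^ k := by
  rw [dedekindPsi, Finset.sum_filter, Nat.sum_divisors_prime_pow hp, Finset.sum_range_succ',
    Finset.sum_range_succ']
  have h0 : ∀ i ∈ Finset.range k,
      (if Squarefree (p ^ (i + 1 + 1)) then p ^ (k + 1) / p ^ (i + 1 + 1) else 0) = 0 := by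
    intro i _
    rw [if_neg]
    rw [Nat.squarefree_pow_iff hp.ne_one (by omega)]
    omega
  rw [Finset.sum_eq_zero h0]
  have h1 : Squarefree (p ^ (0 + 1)) := by simpa using hp.prime.squarefree
  rw [if_pos h1, if_pos (by simp)]
  have : p ^ (k + 1) / p ^ (0 + 1) = p ^ k := by
    rw [zero_add, pow_one, pow_succ, Nat.mul_div_cancel _ hp.pos]
  rw [this]
  simp
  ring

theorem mk_eq_iff_dvd (N : ℕ) (g h : SL(2, ℤ)) :
    ((g : X0 N) = h) ↔ (N : ℤ) ∣ g 0 0 * h 1 0 - g 1 0 * h 0 0 := by
  rw [QuotientGroup.eq, CongruenceSubgroup.Gamma0_mem, p1_inv_mul_10,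
    ZMod.intCast_zmod_eq_zero_iff_dvd]

theorem card_X0_mul {m n : ℕ} [NeZero m] [NeZero n] (h : m.Coprime n) :
    Nat.card (X0 (m * n)) = Nat.card (X0 m) * Nat.card (X0 n) := by
  haveI : NeZero (m * n) := ⟨mul_ne_zero (NeZero.ne m) (NeZero.ne n)⟩
  rw [← Nat.card_prod]
  have hcop : IsCoprime (m : ℤ) (n : ℤ) := Nat.isCoprime_iff_coprime.mpr h
  let f : X0 (m * n) → X0 m × X0 n :=
    Quotient.lift (s := QuotientGroup.leftRel (CongruenceSubgroup.Gamma0 (m * n)))
      (fun g : SL(2, ℤ) => ((g : X0 m), (g : X0 n))) (by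
        intro a b hab
        have hab' : ((a : X0 (m * n)) = b) := Quotient.sound hab
        rw [mk_eq_iff_dvd] at hab'
        push_cast at hab'
        refine Prod.ext ?_ ?_
        · exact (mk_eq_iff_dvd m a b).mpr ((Dvd.intro _ rfl).trans hab')
        · exact (mk_eq_iff_dvd n a b).mpr ((Dvd.intro_left _ rfl).trans hab'))
  have hf : ∀ g : SL(2, ℤ), f (g : X0 (m * n)) = ((g : X0 m), (g : X0 n)) := fun g => rfl
  refine Nat.card_congr (Equiv.ofBijective f ⟨?_, ?_⟩)
  · intro x y hxy
    induction x using QuotientGroup.induction_on with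
    | H a =>
      induction y using QuotientGroup.induction_on with
      | H b =>
        rw [hf, hf, Prod.mk.injEq, mk_eq_iff_dvd, mk_eq_iff_dvd] at hxy
        rw [mk_eq_iff_dvd]
        push_cast
        exact hcop.mul_dvd hxy.1 hxy.2
  · rintro ⟨x, y⟩
    induction x using QuotientGroup.induction_on with
    | H g1 =>
      induction y using QuotientGroup.induction_on with
      | H g2 =>
        obtain ⟨x, y, hxy⟩ := hcop
        have d1 := p1_det g1
        have d2 := p1_det g2
        set a : ℤ := g1 0 0 * (y * n) + g2 0 0 * (x * m) with ha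
        set c : ℤ := g1 1 0 * (y * n) + g2 1 0 * (x * m) with hc
        have hmn0 : ((m : ZMod (m * n)) * (n : ZMod (m * n))) = 0 := by
          have := ZMod.natCast_self (m * n)
          push_cast at this
          exact this
        have hunim : IsCoprime (a : ZMod (m * n)) (c : ZMod (m * n)) := by
          refine ⟨((g1 1 1 * (y * n) + g2 1 1 * (x * m) : ℤ) : ZMod (m * n)),
            ((-(g1 0 1 * (y * n) + g2 0 1 * (x * m)) : ℤ) : ZMod (m * n)), ?_⟩
          have hid : (g1 1 1 * (y * n) + g2 1 1 * (x * m)) * a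
              + (-(g1 0 1 * (y * n) + g2 0 1 * (x * m))) * c
              = 1 + (m * n : ℤ) * (x * y * (g1 1 1 * g2 0 0 + g2 1 1 * g1 0 0
                  - g1 0 1 * g2 1 0 - g2 0 1 * g1 1 0 - 2)) := by
            rw [ha, hc]
            linear_combination (y * n) ^ 2 * d1 + (x * m) ^ 2 * d2 + (x * m + y * n + 1) * hxy
          have := congrArg (Int.cast : ℤ → ZMod (m * n)) hid
          push_cast at this ⊢
          rw [hmn0] at this
          simpa using this
        obtain ⟨g, hg0, hg1⟩ := p1_exists_SL (m * n) _ _ hunim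
        rw [ZMod.intCast_eq_intCast_iff_dvd_sub] at hg0 hg1
        obtain ⟨s, hs⟩ := hg0
        obtain ⟨t, ht⟩ := hg1
        push_cast at hs ht
        refine ⟨(g : X0 (m * n)), ?_⟩
        rw [hf, Prod.mk.injEq, mk_eq_iff_dvd, mk_eq_iff_dvd]
        constructor
        · refine ⟨x * (g2 0 0 * g1 1 0 - g2 1 0 * g1 0 0) - n * s * g1 1 0 + n * t * g1 0 0, ?_⟩
          have e0 : g 0 0 = a - m * n * s := by linear_combination -hs
          have e1 : g 1 0 = c - m * n * t := by linear_combination -ht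
          rw [e0, e1, ha, hc]
          ring
        · refine ⟨y * (g1 0 0 * g2 1 0 - g1 1 0 * g2 0 0) - m * s * g2 1 0 + m * t * g2 0 0, ?_⟩
          have e0 : g 0 0 = a - m * n * s := by linear_combination -hs
          have e1 : g 1 0 = c - m * n * t := by linear_combination -ht
          rw [e0, e1, ha, hc]
          ring

theorem isNilpotent_of_not_isUnit {p : ℕ} (hp : p.Prime) (k : ℕ) (a : ZMod (p ^ (k + 1)))
    (ha : ¬ IsUnit a) : a ^ (k + 1) = 0 := by
  haveI : NeZero (p ^ (k + 1)) := ⟨pow_ne_zero _ hp.ne_zero⟩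
  have h1 : ¬ (a.val).Coprime (p ^ (k + 1)) := by
    intro h
    apply ha
    have := (ZMod.isUnit_iff_coprime a.val (p ^ (k + 1))).mpr h
    rwa [ZMod.natCast_zmod_val] at this
  have h2 : p ∣ a.val := by
    by_contra h
    exact h1 (Nat.Coprime.pow_right _ ((Nat.Prime.coprime_iff_not_dvd hp).mpr h).symm)
  obtain ⟨t, ht⟩ := h2
  have h3 : a = (p : ZMod (p ^ (k + 1))) * t := by
    rw [← ZMod.natCast_zmod_val a, ht]
    push_cast
    rfl
  rw [h3, mul_pow]
  have := ZMod.natCast_self (p ^ (k + 1))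
  push_cast at this
  rw [this, zero_mul]

theorem isUnit_of_isCoprime_of_not_isUnit {p : ℕ} (hp : p.Prime) (k : ℕ)
    {a c : ZMod (p ^ (k + 1))} (h : IsCoprime a c) (ha : ¬ IsUnit a) : IsUnit c := by
  obtain ⟨u, v, huv⟩ := h
  have hn : IsNilpotent (u * a) :=
    ⟨k + 1, by rw [mul_pow, isNilpotent_of_not_isUnit hp k a ha, mul_zero]⟩
  have h1 : IsUnit (1 - u * a) := hn.isUnit_one_sub
  have h2 : v * c = 1 - u * a := by linear_combination huv
  rw [← h2] at h1
  exact isUnit_of_mul_isUnit_right h1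

theorem card_not_isUnit {p : ℕ} (hp : p.Prime) (k : ℕ) :
    Nat.card {a : ZMod (p ^ (k + 1)) // ¬ IsUnit a} = p ^ k := by
  classical
  haveI : NeZero (p ^ (k + 1)) := ⟨pow_ne_zero _ hp.ne_zero⟩
  rw [Nat.card_eq_fintype_card, Fintype.card_subtype_compl, ZMod.card]
  have h1 : Fintype.card {a : ZMod (p ^ (k + 1)) // IsUnit a} = (p ^ (k + 1)).totient := by
    rw [← ZMod.card_units_eq_totient]
    refine Fintype.card_congr ?_
    exact (Submonoid.unitsTypeEquivIsUnitSubmonoid (M := ZMod (p ^ (k + 1)))).toEquiv.symm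
  rw [h1, Nat.totient_prime_pow_succ hp]
  have : p ^ (k + 1) = p ^ k * (p - 1) + p ^ k := by
    obtain ⟨r, rfl⟩ : ∃ r, p = r + 1 := ⟨p - 1, (Nat.sub_add_cancel hp.one_le).symm⟩
    simp only [Nat.add_sub_cancel]
    ring
  omega

theorem card_X0_prime_pow {p : ℕ} (hp : p.Prime) (k : ℕ) :
    Nat.card (X0 (p ^ (k + 1))) = p ^ (k + 1) + p ^ k := by
  haveI : NeZero (p ^ (k + 1)) := ⟨pow_ne_zero _ hp.ne_zero⟩
  set q := p ^ (k + 1) with hq
  have hex1 : ∀ x : ZMod q, ∃ g : SL(2, ℤ), (g 0 0 : ZMod q) = 1 ∧ (g 1 0 : ZMod q) = x :=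
    fun x => p1_exists_SL q 1 x isCoprime_one_left
  have hex2 : ∀ x : ZMod q, ∃ g : SL(2, ℤ), (g 0 0 : ZMod q) = x ∧ (g 1 0 : ZMod q) = 1 :=
    fun x => p1_exists_SL q x 1 isCoprime_one_right
  choose G hG0 hG1 using hex1
  choose H hH0 hH1 using hex2
  have hcard : Nat.card (ZMod q ⊕ {a : ZMod q // ¬ IsUnit a}) = q + p ^ k := by
    rw [Nat.card_sum, card_not_isUnit hp k, Nat.card_zmod]
  rw [← hcard]
  symm
  refine Nat.card_congr (Equiv.ofBijective
    (fun x => Sum.elim (fun c => (G c : X0 q)) (fun a => (H a.1 : X0 q)) x) ⟨?_, ?_⟩)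
  · rintro (c | a) (c' | a') hxy
    · simp only [Sum.elim_inl] at hxy
      rw [p1_mk_eq_iff', hG0, hG1, hG0, hG1] at hxy
      congr 1
      linear_combination -hxy
    · exfalso
      simp only [Sum.elim_inl, Sum.elim_inr] at hxy
      rw [p1_mk_eq_iff', hG0, hG1, hH0, hH1] at hxy
      exact a'.2 (IsUnit.of_mul_eq_one c (by linear_combination -hxy))
    · exfalso
      simp only [Sum.elim_inl, Sum.elim_inr] at hxy
      rw [p1_mk_eq_iff', hG0, hG1, hH0, hH1] at hxy
      exact a.2 (IsUnit.of_mul_eq_one c' (by linear_combination hxy))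
    · simp only [Sum.elim_inr] at hxy
      rw [p1_mk_eq_iff', hH0, hH1, hH0, hH1] at hxy
      congr 1
      exact Subtype.ext (by linear_combination hxy)
  · intro y
    induction y using QuotientGroup.induction_on with
    | H g =>
      have hcop := p1_isCoprime q g
      by_cases ha : IsUnit (g 0 0 : ZMod q)
      · obtain ⟨u, hu⟩ := ha
        refine ⟨Sum.inl ((g 1 0 : ZMod q) * (u⁻¹ : (ZMod q)ˣ)), ?_⟩
        simp only [Sum.elim_inl]
        rw [p1_mk_eq_iff', hG0, hG1, ← hu]
        have := u.inv_mul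
        have h1 : ((u⁻¹ : (ZMod q)ˣ) : ZMod q) * (u : ZMod q) = 1 := by simp
        linear_combination (-(g 1 0 : ZMod q)) * h1
      · obtain ⟨u, hu⟩ := isUnit_of_isCoprime_of_not_isUnit hp k hcop ha
        have h1 : ((u⁻¹ : (ZMod q)ˣ) : ZMod q) * (u : ZMod q) = 1 := by simp
        refine ⟨Sum.inr ⟨(g 0 0 : ZMod q) * (u⁻¹ : (ZMod q)ˣ), ?_⟩, ?_⟩
        · intro h
          exact ha (isUnit_of_mul_isUnit_left h)
        · simp only [Sum.elim_inr]
          rw [p1_mk_eq_iff', hH0, hH1, ← hu]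
          linear_combination (g 0 0 : ZMod q) * h1

/-- [C1] -/
theorem card_X0 (N : ℕ) [NeZero N] : Nat.card (X0 N) = ModularCurve.dedekindPsi N := by
  have hN : 0 < N := Nat.pos_of_ne_zero (NeZero.ne N)
  clear ‹NeZero N›
  induction N using Nat.recOnPosPrimePosCoprime with
  | prime_pow p n hp hn =>
    obtain ⟨k, rfl⟩ : ∃ k, n = k + 1 := ⟨n - 1, by omega⟩
    rw [card_X0_prime_pow hp, dedekindPsi_prime_pow hp]
  | zero => omega
  | one =>
    rw [dedekindPsi_one]
    have : (CongruenceSubgroup.Gamma0 1) = ⊤ := by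
      ext g
      simp [CongruenceSubgroup.Gamma0_mem, Subsingleton.elim (α := ZMod 1) _ 0]
    have h2 : (CongruenceSubgroup.Gamma0 1).index = 1 := by rw [this]; exact Subgroup.index_top
    exact h2
  | coprime a b ha hb hab iha ihb =>
    haveI : NeZero a := ⟨by omega⟩
    haveI : NeZero b := ⟨by omega⟩
    rw [card_X0_mul hab, dedekindPsi_mul hab, iha (by omega), ihb (by omega)]

/-- [C4] -/
theorem two_mul_orbCount_S (N : ℕ) [NeZero N] :
    2 * orbCount N ModularGroup.S = ModularCurve.dedekindPsi N + ModularCurve.nuTwo N := by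
  rw [two_mul_orbCount_S', card_X0]

/-- [C5] -/
theorem three_mul_orbCount_ST (N : ℕ) [NeZero N] :
    3 * orbCount N (ModularGroup.S * ModularGroup.T) =
      ModularCurve.dedekindPsi N + 2 * ModularCurve.nuThree N := by
  rw [three_mul_orbCount_ST', card_X0]

end Fermat.Agent.S20Lib
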