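import Mathlib
import Fermat.Prelude.Def_ModularCurve_GenusNumerics

set_option autoImplicit false
open scoped MatrixGroups

namespace Fermat.Agent.S20Lib

/-- The coset space `SL(2, ℤ) ⧸ Γ₀(N)`. -/
abbrev X0 (N : ℕ) := SL(2, ℤ) ⧸ CongruenceSubgroup.Gamma0 N

/-- The number of orbits of the cyclic group generated by `σ` on `X0 N`. -/
noncomputable def orbCount (N : ℕ) (σ : SL(2, ℤ)) : ℕ :=
  Nat.card (MulAction.orbitRel.Quotient (Subgroup.zpowers σ) (X0 N))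

theorem p1_det (g : SL(2, ℤ)) : g 0 0 * g 1 1 - g 0 1 * g 1 0 = 1 := by
  have := g.det_coe
  rwa [Matrix.det_fin_two] at this

theorem p1_inv_mul_10 (g h : SL(2, ℤ)) : (g⁻¹ * h) 1 0 = g 0 0 * h 1 0 - g 1 0 * h 0 0 := by
  rw [Matrix.SpecialLinearGroup.coe_mul, Matrix.SpecialLinearGroup.SL2_inv_expl]
  rw [Matrix.mul_apply, Fin.sum_univ_two]
  simp
  ring

theorem p1_mk_eq_iff' (N : ℕ) (g h : SL(2, ℤ)) :
    ((g : X0 N) = h) ↔
      ((g 0 0 : ZMod N) * (h 1 0 : ZMod N) - (g 1 0 : ZMod N) * (h 0 0 : ZMod N) = 0) := by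
  rw [QuotientGroup.eq, CongruenceSubgroup.Gamma0_mem, p1_inv_mul_10]
  push_cast
  rfl

/-- Two elements of `SL(2, ℤ)` define the same coset of `Γ₀(N)` iff their first columns are
proportional modulo `N`. -/
theorem p1_mk_eq_iff (N : ℕ) (g h : SL(2, ℤ)) :
    ((g : X0 N) = h) ↔ ∃ u : (ZMod N)ˣ, (h 0 0 : ZMod N) = u * (g 0 0 : ZMod N) ∧
      (h 1 0 : ZMod N) = u * (g 1 0 : ZMod N) := by
  rw [p1_mk_eq_iff']
  have hg : (g 0 0 : ZMod N) * (g 1 1 : ZMod N) - (g 0 1 : ZMod N) * (g 1 0 : ZMod N) = 1 := by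
    exact_mod_cast congrArg (Int.cast : ℤ → ZMod N) (p1_det g)
  have hh : (h 0 0 : ZMod N) * (h 1 1 : ZMod N) - (h 0 1 : ZMod N) * (h 1 0 : ZMod N) = 1 := by
    exact_mod_cast congrArg (Int.cast : ℤ → ZMod N) (p1_det h)
  generalize (g 0 0 : ZMod N) = a at *
  generalize (g 0 1 : ZMod N) = b at *
  generalize (g 1 0 : ZMod N) = c at *
  generalize (g 1 1 : ZMod N) = d at *
  generalize (h 0 0 : ZMod N) = a' at *
  generalize (h 0 1 : ZMod N) = b' at *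
  generalize (h 1 0 : ZMod N) = c' at *
  generalize (h 1 1 : ZMod N) = d' at *
  constructor
  · intro H
    refine ⟨⟨d * a' - b * c', d' * a - b' * c, ?_, ?_⟩, ?_, ?_⟩
    · linear_combination (d * b' - b * d') * H + a' * d' * hg - b' * c' * hg + hh
    · linear_combination (d * b' - b * d') * H + a' * d' * hg - b' * c' * hg + hh
    · show a' = (d * a' - b * c') * a
      linear_combination (-a') * hg + b * H
    · show c' = (d * a' - b * c') * c
      linear_combination (-c') * hg + d * H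
  · rintro ⟨u, h1, h2⟩
    rw [h1, h2]
    ring

theorem p1_exists_add_mul_coprime (x n m : ℕ) (hm : m ≠ 0) (hx : Nat.gcd x (Nat.gcd n m) = 1) :
    ∃ k : ℕ, (x + k * n).Coprime m := by
  let ps : Finset ℕ := {p ∈ m.primeFactors | ¬p ∣ x}
  use ps.prod id
  apply Nat.coprime_of_dvd
  intro p pp hp hpn
  by_cases hpx : p ∣ x
  · have h := Nat.dvd_sub hp hpx
    rw [add_comm, Nat.add_sub_cancel] at h
    rcases pp.dvd_mul.mp h with h | h
    · have ⟨q, hq, hq'⟩ := (pp.prime.dvd_finsetProd_iff id).mp h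
      rw [Finset.mem_filter, Nat.mem_primeFactors,
        ← (Nat.prime_dvd_prime_iff_eq pp hq.1.1).mp hq'] at hq
      exact hq.2 hpx
    · have h1 : p ∣ Nat.gcd x (Nat.gcd n m) := Nat.dvd_gcd hpx (Nat.dvd_gcd h hpn)
      rw [hx] at h1
      exact pp.one_lt.ne' (Nat.dvd_one.1 h1)
  · have pps : p ∈ ps := Finset.mem_filter.mpr ⟨Nat.mem_primeFactors.mpr ⟨pp, hpn, hm⟩, hpx⟩
    have h := Nat.dvd_sub hp ((Finset.dvd_prod_of_mem id pps).mul_right n)
    rw [Nat.add_sub_cancel] at h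
    contradiction

/-- Every unimodular pair modulo `N` is the first column of an element of `SL(2, ℤ)`. -/
theorem p1_exists_SL (N : ℕ) [NeZero N] (a c : ZMod N) (h : IsCoprime a c) :
    ∃ g : SL(2, ℤ), (g 0 0 : ZMod N) = a ∧ (g 1 0 : ZMod N) = c := by
  have hN : N ≠ 0 := NeZero.ne N
  obtain ⟨x, y, hxy⟩ := h
  -- a nonzero lift of `c`
  obtain ⟨c0, hc0, hc0'⟩ : ∃ c0 : ℕ, c0 ≠ 0 ∧ (c0 : ZMod N) = c := by
    refine ⟨c.val + N, by omega, ?_⟩
    simp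
  have hgcd : Nat.gcd a.val (Nat.gcd N c0) = 1 := by
    set e := Nat.gcd a.val (Nat.gcd N c0) with he
    have h1 : e ∣ a.val := Nat.gcd_dvd_left _ _
    have h2 : e ∣ N := (Nat.gcd_dvd_right _ _).trans (Nat.gcd_dvd_left _ _)
    have h3 : e ∣ c0 := (Nat.gcd_dvd_right _ _).trans (Nat.gcd_dvd_right _ _)
    have h4 : ((x.val * a.val + y.val * c0 : ℕ) : ZMod N) = ((1 : ℕ) : ZMod N) := by
      push_cast
      rw [hc0']
      simpa using hxy
    rw [ZMod.natCast_eq_natCast_iff] at h4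
    have h5 := (h4.of_dvd h2)
    have h6 : (x.val * a.val + y.val * c0) ≡ 0 [MOD e] :=
      (Nat.modEq_zero_iff_dvd).2 (Dvd.dvd.add (h1.mul_left _) (h3.mul_left _))
    have h7 : 1 ≡ 0 [MOD e] := h5.symm.trans h6
    exact Nat.dvd_one.1 ((Nat.modEq_zero_iff_dvd).1 h7)
  obtain ⟨k, hk⟩ := p1_exists_add_mul_coprime a.val N c0 hc0 hgcd
  have hcop : IsCoprime ((a.val + k * N : ℕ) : ℤ) (c0 : ℤ) := Nat.isCoprime_iff_coprime.2 hk
  obtain ⟨g, hg0, hg1⟩ := hcop.exists_SL2_col 0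
  refine ⟨g, ?_, ?_⟩
  · rw [hg0]
    simp
  · rw [hg1]
    simpa using hc0'

/-- The first column of an element of `SL(2, ℤ)` is unimodular modulo `N`. -/
theorem p1_isCoprime (N : ℕ) (g : SL(2, ℤ)) : IsCoprime (g 0 0 : ZMod N) (g 1 0 : ZMod N) := by
  refine ⟨(g 1 1 : ZMod N), -(g 0 1 : ZMod N), ?_⟩
  have hg : (g 0 0 : ZMod N) * (g 1 1 : ZMod N) - (g 0 1 : ZMod N) * (g 1 0 : ZMod N) = 1 := by
    exact_mod_cast congrArg (Int.cast : ℤ → ZMod N) (p1_det g)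
  linear_combination hg

theorem p1_smul_mk (N : ℕ) (σ g : SL(2, ℤ)) : σ • (g : X0 N) = ((σ * g : SL(2, ℤ)) : X0 N) := rfl

theorem p1_S_mul (g : SL(2, ℤ)) :
    (ModularGroup.S * g) 0 0 = - g 1 0 ∧ (ModularGroup.S * g) 1 0 = g 0 0 := by
  constructor <;>
  · rw [Matrix.SpecialLinearGroup.coe_mul, Matrix.mul_apply, Fin.sum_univ_two]
    simp [ModularGroup.S]

theorem p1_T_mul (g : SL(2, ℤ)) :
    (ModularGroup.T * g) 0 0 = g 0 0 + g 1 0 ∧ (ModularGroup.T * g) 1 0 = g 1 0 := by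
  constructor <;>
  · rw [Matrix.SpecialLinearGroup.coe_mul, Matrix.mul_apply, Fin.sum_univ_two]
    simp [ModularGroup.T]

theorem p1_T_zpow_mul (n : ℤ) (g : SL(2, ℤ)) :
    (ModularGroup.T ^ n * g) 0 0 = g 0 0 + n * g 1 0 ∧ (ModularGroup.T ^ n * g) 1 0 = g 1 0 := by
  constructor <;>
  · rw [Matrix.SpecialLinearGroup.coe_mul, Matrix.mul_apply, Fin.sum_univ_two,
      ModularGroup.coe_T_zpow]
    simp

theorem p1_ST_mul (g : SL(2, ℤ)) :
    (ModularGroup.S * ModularGroup.T * g) 0 0 = - g 1 0 ∧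
      (ModularGroup.S * ModularGroup.T * g) 1 0 = g 0 0 + g 1 0 := by
  rw [mul_assoc]
  refine ⟨?_, ?_⟩
  · rw [(p1_S_mul _).1, (p1_T_mul _).2]
  · rw [(p1_S_mul _).2, (p1_T_mul _).1]

end Fermat.Agent.S20Lib
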