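import Mathlib
import Fermat.Agent.S20.CombP1

set_option autoImplicit false
open scoped MatrixGroups

namespace Fermat.Agent.S20Lib

theorem t_rev (d M G a c a2 c2 : ℤ) (hGd : G ∣ d) (hGM : G ∣ M) (x y : ℤ)
    (hG : G = d * x + M * y)
    (hc : IsCoprime c M) (hc2 : IsCoprime c2 M) (ha : IsCoprime a d) (ha2 : IsCoprime a2 d)
    (h : G ∣ a * c2 - a2 * c) :
    ∃ u n : ℤ, IsCoprime u (d * M) ∧ d * M ∣ d * c2 - u * (d * c) ∧
      d * M ∣ a2 - u * (a + n * (d * c)) := by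
  obtain ⟨s, s', hs⟩ := hc
  obtain ⟨t, t', ht⟩ := ha
  obtain ⟨w0, hw0⟩ := h
  obtain ⟨d1, hd1⟩ := hGd
  obtain ⟨M1, hM1⟩ := hGM
  obtain ⟨w, hw⟩ : ∃ w, a2 * t - c2 * s = G * w := by
    refine ⟨-t * s * w0 + a2 * t * s' * M1 - c2 * s * t' * d1, ?_⟩
    linear_combination (-(a2 * t)) * hs + (c2 * s) * ht - t * s * hw0 + a2 * t * s' * hM1
      - c2 * s * t' * hd1
  have hsM : IsCoprime s M := ⟨c, s', by linear_combination hs⟩
  have htd : IsCoprime t d := ⟨a, t', by linear_combination ht⟩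
  set u : ℤ := c2 * s + M * (y * w) with hu
  have hu2 : u = a2 * t + d * (-(x * w)) := by
    rw [hu]
    linear_combination (-1 : ℤ) * hw - w * hG
  have huM : IsCoprime u M := (hc2.mul_left hsM).add_mul_left_left _
  have hud : IsCoprime u d := by
    rw [hu2]
    exact (ha2.mul_left htd).add_mul_left_left _
  have hucM : IsCoprime (u * c) M := huM.mul_left ⟨s, s', hs⟩
  obtain ⟨v, v', hv⟩ := hucM
  refine ⟨u, (a2 * t' + x * w * a) * v, hud.mul_right huM, ?_, ?_⟩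
  · refine ⟨c2 * s' - y * w * c, ?_⟩
    rw [hu]
    linear_combination (-(d * c2)) * hs
  · refine ⟨(a2 * t' + x * w * a) * v', ?_⟩
    have h3 : a2 - u * a = d * (a2 * t' + x * w * a) := by
      rw [hu2]
      linear_combination (-a2) * ht
    linear_combination h3 - d * (a2 * t' + x * w * a) * hv

theorem t_fwd (d M G a c a2 c2 u n : ℤ) (hd : d ≠ 0) (hGd : G ∣ d) (hGM : G ∣ M)
    (h1 : d * M ∣ d * c2 - u * (d * c)) (h2 : d * M ∣ a2 - u * (a + n * (d * c))) :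
    G ∣ a * c2 - a2 * c := by
  obtain ⟨k, hk⟩ := h1
  obtain ⟨k2, hk2⟩ := h2
  obtain ⟨d1, hd1⟩ := hGd
  obtain ⟨M1, hM1⟩ := hGM
  have hk' : c2 - u * c = M * k := by
    apply mul_left_cancel₀ hd
    linear_combination hk
  refine ⟨a * M1 * k - u * n * d1 * c ^ 2 - d1 * M * k2 * c, ?_⟩
  linear_combination a * hk' - c * hk2 + (a * k) * hM1 - (u * n * c ^ 2 + M * k2 * c) * hd1

theorem t_gcd_eq (N c c2 u : ℤ) (hu : IsCoprime u N) (h : N ∣ c2 - u * c) :
    Int.gcd c2 N = Int.gcd c N := by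
  obtain ⟨k, hk⟩ := h
  obtain ⟨v, v', hv⟩ := hu
  apply Nat.dvd_antisymm
  · apply Int.dvd_gcd
    · have h1 : (Int.gcd c2 N : ℤ) ∣ c2 := Int.gcd_dvd_left _ _
      have h2 : (Int.gcd c2 N : ℤ) ∣ N := Int.gcd_dvd_right _ _
      have : c = v * c2 + N * (v' * c - v * k) := by
        linear_combination (-c) * hv - v * hk
      rw [this]
      exact (h1.mul_left _).add (h2.mul_right _)
    · exact Int.gcd_dvd_right _ _
  · apply Int.dvd_gcd
    · have h1 : (Int.gcd c N : ℤ) ∣ c := Int.gcd_dvd_left _ _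
      have h2 : (Int.gcd c N : ℤ) ∣ N := Int.gcd_dvd_right _ _
      have : c2 = u * c + N * k := by linear_combination hk
      rw [this]
      exact (h1.mul_left _).add (h2.mul_right _)
    · exact Int.gcd_dvd_right _ _

/-- The class of `g` in the set of `T`-orbits on `X0 N`. -/
def tcls (N : ℕ) (g : SL(2, ℤ)) :
    MulAction.orbitRel.Quotient (Subgroup.zpowers ModularGroup.T) (X0 N) :=
  Quotient.mk'' (g : X0 N)

theorem tcls_surjective (N : ℕ) : Function.Surjective (tcls N) := by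
  intro q
  induction q using Quotient.inductionOn' with
  | h x =>
    induction x using QuotientGroup.induction_on with
    | H g => exact ⟨g, rfl⟩

theorem tcls_eq_iff (N : ℕ) [NeZero N] (g h : SL(2, ℤ)) :
    tcls N g = tcls N h ↔ ∃ u n : ℤ, IsCoprime u (N : ℤ) ∧ (N : ℤ) ∣ h 1 0 - u * g 1 0 ∧
      (N : ℤ) ∣ h 0 0 - u * (g 0 0 + n * g 1 0) := by
  rw [eq_comm, tcls, tcls, Quotient.eq'', MulAction.orbitRel_apply, MulAction.mem_orbit_iff]
  constructor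
  · rintro ⟨⟨x, hx⟩, hxg⟩
    obtain ⟨n, rfl⟩ := Subgroup.mem_zpowers_iff.1 hx
    have h1 : (((ModularGroup.T ^ n * g : SL(2, ℤ)) : X0 N)) = (h : X0 N) := hxg
    rw [p1_mk_eq_iff] at h1
    obtain ⟨u, hu1, hu2⟩ := h1
    rw [(p1_T_zpow_mul n g).1] at hu1
    rw [(p1_T_zpow_mul n g).2] at hu2
    refine ⟨((u : ZMod N).val : ℤ), n, ?_, ?_, ?_⟩
    · exact Nat.isCoprime_iff_coprime.2 (ZMod.val_coe_unit_coprime u)
    · rw [← ZMod.intCast_zmod_eq_zero_iff_dvd]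
      push_cast
      rw [ZMod.natCast_zmod_val, hu2, sub_self]
    · rw [← ZMod.intCast_zmod_eq_zero_iff_dvd]
      push_cast
      rw [ZMod.natCast_zmod_val, hu1]
      push_cast
      ring
  · rintro ⟨u, n, hu, h1, h2⟩
    refine ⟨⟨ModularGroup.T ^ n, Subgroup.mem_zpowers_iff.2 ⟨n, rfl⟩⟩, ?_⟩
    show (((ModularGroup.T ^ n * g : SL(2, ℤ)) : X0 N)) = (h : X0 N)
    rw [p1_mk_eq_iff]
    refine ⟨ZMod.unitOfIsCoprime u hu, ?_, ?_⟩
    · rw [(p1_T_zpow_mul n g).1, ZMod.coe_unitOfIsCoprime]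
      rw [← ZMod.intCast_zmod_eq_zero_iff_dvd] at h2
      push_cast at h2 ⊢
      linear_combination h2
    · rw [(p1_T_zpow_mul n g).2, ZMod.coe_unitOfIsCoprime]
      rw [← ZMod.intCast_zmod_eq_zero_iff_dvd] at h1
      push_cast at h1
      linear_combination h1

theorem tcls_gcd_eq (N : ℕ) [NeZero N] (g h : SL(2, ℤ)) (H : tcls N g = tcls N h) :
    Int.gcd (g 1 0) N = Int.gcd (h 1 0) N := by
  obtain ⟨u, n, hu, h1, -⟩ := (tcls_eq_iff N g h).1 H
  exact (t_gcd_eq N _ _ u hu h1).symm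

theorem tcls_eq_iff_of (N : ℕ) [NeZero N] (g h : SL(2, ℤ)) (d M : ℕ) (hN : N = d * M)
    (c c2 : ℤ) (hg : g 1 0 = d * c) (hh : h 1 0 = d * c2) (hc : IsCoprime c (M : ℤ))
    (hc2 : IsCoprime c2 (M : ℤ)) :
    tcls N g = tcls N h ↔ ((Nat.gcd d M : ℕ) : ℤ) ∣ g 0 0 * c2 - h 0 0 * c := by
  have hN0 : N ≠ 0 := NeZero.ne N
  have hd0 : d ≠ 0 := by
    rintro rfl
    simp at hN
    exact hN0 hN
  have hGd : ((Nat.gcd d M : ℕ) : ℤ) ∣ (d : ℤ) := Int.natCast_dvd_natCast.2 (Nat.gcd_dvd_left _ _)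
  have hGM : ((Nat.gcd d M : ℕ) : ℤ) ∣ (M : ℤ) := Int.natCast_dvd_natCast.2 (Nat.gcd_dvd_right _ _)
  have hNZ : (N : ℤ) = d * M := by rw [hN]; push_cast; ring
  rw [tcls_eq_iff, hNZ, hg, hh]
  constructor
  · rintro ⟨u, n, -, h1, h2⟩
    exact t_fwd d M _ _ c _ c2 u n (by exact_mod_cast hd0) hGd hGM h1 h2
  · intro H
    have hga : IsCoprime (g 0 0) (d : ℤ) := by
      refine ⟨g 1 1, - g 0 1 * c, ?_⟩
      have := p1_det g
      rw [hg] at this
      linear_combination this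
    have hha : IsCoprime (h 0 0) (d : ℤ) := by
      refine ⟨h 1 1, - h 0 1 * c2, ?_⟩
      have := p1_det h
      rw [hh] at this
      linear_combination this
    exact t_rev d M _ _ c _ c2 hGd hGM _ _ (Nat.gcd_eq_gcd_ab d M) hc hc2 hga hha H

theorem t_decomp (N : ℕ) [NeZero N] (z : ℤ) :
    ∃ (M : ℕ) (c : ℤ), N = Int.gcd z N * M ∧ z = (Int.gcd z N : ℤ) * c ∧ IsCoprime c (M : ℤ) := by
  have hN0 : N ≠ 0 := NeZero.ne N
  have hpos : 0 < Int.gcd z N := Int.gcd_pos_of_ne_zero_right _ (by exact_mod_cast hN0)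
  obtain ⟨M, hM⟩ : Int.gcd z N ∣ N := Int.natCast_dvd_natCast.1 (Int.gcd_dvd_right z N)
  obtain ⟨c, hc⟩ : (Int.gcd z N : ℤ) ∣ z := Int.gcd_dvd_left z N
  refine ⟨M, c, hM, hc, ?_⟩
  have h1 := Int.gcd_eq_gcd_ab z N
  have hMZ : (N : ℤ) = (Int.gcd z N : ℤ) * M := by exact_mod_cast hM
  refine ⟨Int.gcdA z N, Int.gcdB z N, ?_⟩
  have hne : (Int.gcd z N : ℤ) ≠ 0 := by exact_mod_cast hpos.ne'
  apply mul_left_cancel₀ hne
  generalize Int.gcdA z N = A at *
  generalize Int.gcdB z N = B at *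
  generalize (Int.gcd z N : ℤ) = D at *
  generalize (N : ℤ) = N' at *
  subst hc hMZ
  linear_combination -h1

/-- The index set for the cusps of `Γ₀(N)`. -/
def tRep (N : ℕ) : Finset (Σ _ : ℕ, ℕ) :=
  N.divisors.sigma fun d =>
    (Finset.range (Nat.gcd d (N / d))).filter fun r => (Nat.gcd d (N / d)).Coprime r

theorem card_tRep (N : ℕ) : (tRep N).card = ModularCurve.cuspCount N := by
  rw [tRep, Finset.card_sigma, ModularCurve.cuspCount]
  exact Finset.sum_congr rfl fun d _ => (Nat.totient_eq_card_coprime _).symm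

theorem tRep_exists (N : ℕ) (x : Σ _ : ℕ, ℕ) (hx : x ∈ tRep N) :
    ∃ g : SL(2, ℤ), g 1 0 = (x.1 : ℤ) ∧
      ((Nat.gcd x.1 (N / x.1) : ℕ) : ℤ) ∣ g 0 0 - (x.2 : ℤ) := by
  obtain ⟨d, r⟩ := x
  rw [tRep, Finset.mem_sigma, Finset.mem_filter] at hx
  obtain ⟨hd, -, hr⟩ := hx
  simp only at hd hr ⊢
  have hd0 : d ≠ 0 := (Nat.pos_of_mem_divisors hd).ne'
  obtain ⟨k, hk⟩ := p1_exists_add_mul_coprime r (Nat.gcd d (N / d)) d hd0 (by
    have : Nat.gcd (Nat.gcd d (N / d)) d = Nat.gcd d (N / d) :=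
      Nat.gcd_eq_left (Nat.gcd_dvd_left _ _)
    rw [this]
    exact hr.symm)
  have hcop : IsCoprime ((r + k * Nat.gcd d (N / d) : ℕ) : ℤ) (d : ℤ) :=
    Nat.isCoprime_iff_coprime.2 hk
  obtain ⟨g, hg0, hg1⟩ := hcop.exists_SL2_col 0
  refine ⟨g, hg1, ?_⟩
  rw [hg0]
  refine ⟨k, ?_⟩
  push_cast
  ring

/-- [C6] The number of `T`-orbits on `X0 N` is the number of cusps. -/
theorem orbCount_T (N : ℕ) [NeZero N] : orbCount N ModularGroup.T = ModularCurve.cuspCount N := by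
  have hN0 : N ≠ 0 := NeZero.ne N
  choose! rep hrep1 hrep2 using tRep_exists N
  let f : tRep N → MulAction.orbitRel.Quotient (Subgroup.zpowers ModularGroup.T) (X0 N) :=
    fun x => tcls N (rep x.1)
  have hmem : ∀ x : Σ _ : ℕ, ℕ, x ∈ tRep N → x.1 ∣ N ∧ x.2 < Nat.gcd x.1 (N / x.1) ∧
      (Nat.gcd x.1 (N / x.1)).Coprime x.2 := by
    intro x hx
    rw [tRep, Finset.mem_sigma, Finset.mem_filter, Finset.mem_range] at hx
    exact ⟨Nat.dvd_of_mem_divisors hx.1, hx.2.1, hx.2.2⟩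
  have hf : Function.Bijective f := by
    constructor
    · rintro ⟨⟨d, r⟩, hx⟩ ⟨⟨d', r'⟩, hx'⟩ H
      have H' : tcls N (rep ⟨d, r⟩) = tcls N (rep ⟨d', r'⟩) := H
      obtain ⟨hd, hr, -⟩ := hmem _ hx
      obtain ⟨hd', hr', -⟩ := hmem _ hx'
      simp only at hd hr hd' hr'
      have h1 := tcls_gcd_eq N _ _ H'
      rw [hrep1 _ hx, hrep1 _ hx'] at h1
      simp only [Int.gcd_natCast_natCast] at h1
      rw [Nat.gcd_eq_left hd, Nat.gcd_eq_left hd'] at h1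
      subst h1
      have hNd : N = d * (N / d) := (Nat.mul_div_cancel' hd).symm
      have h2 := (tcls_eq_iff_of N _ _ d (N / d) hNd 1 1 (by rw [hrep1 _ hx]; simp)
        (by rw [hrep1 _ hx']; simp) isCoprime_one_left isCoprime_one_left).1 H'
      have h3 := hrep2 _ hx
      have h4 := hrep2 _ hx'
      simp only at h3 h4
      have h5 : ((Nat.gcd d (N / d) : ℕ) : ℤ) ∣ (r : ℤ) - (r' : ℤ) := by
        have : (r : ℤ) - (r' : ℤ) = (rep ⟨d, r⟩ 0 0 * 1 - rep ⟨d, r'⟩ 0 0 * 1)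
            - (rep ⟨d, r⟩ 0 0 - r) + (rep ⟨d, r'⟩ 0 0 - r') := by ring
        rw [this]
        exact (h2.sub h3).add h4
      have h6 : r = r' := by
        have h7 : (r' : ℤ) ≡ (r : ℤ) [ZMOD ((Nat.gcd d (N / d) : ℕ) : ℤ)] :=
          (Int.modEq_iff_dvd).2 h5
        have h8 : r' ≡ r [MOD Nat.gcd d (N / d)] := (Int.natCast_modEq_iff).1 h7
        exact (Nat.ModEq.eq_of_lt_of_lt h8 hr' hr).symm
      subst h6
      rfl
    · intro q
      obtain ⟨g, rfl⟩ := tcls_surjective N q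
      obtain ⟨M, c, hM, hc, hcM⟩ := t_decomp N (g 1 0)
      set d := Int.gcd (g 1 0) N with hd
      have hd0 : d ≠ 0 := by
        rintro h0
        rw [h0] at hM
        simp at hM
        exact hN0 hM
      have hMd : N / d = M := by
        rw [hM]
        exact Nat.mul_div_cancel_left _ (Nat.pos_of_ne_zero hd0)
      set G := Nat.gcd d M with hG
      have hG0 : 0 < G := Nat.gcd_pos_of_pos_left _ (Nat.pos_of_ne_zero hd0)
      have hGd : (G : ℤ) ∣ (d : ℤ) := Int.natCast_dvd_natCast.2 (Nat.gcd_dvd_left _ _)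
      have hGM : (G : ℤ) ∣ (M : ℤ) := Int.natCast_dvd_natCast.2 (Nat.gcd_dvd_right _ _)
      obtain ⟨s, s', hs⟩ := hcM
      -- the invariant
      have hrpos : 0 ≤ (g 0 0 * s) % (G : ℤ) := Int.emod_nonneg _ (by exact_mod_cast hG0.ne')
      have hrlt : (g 0 0 * s) % (G : ℤ) < G := Int.emod_lt_of_pos _ (by exact_mod_cast hG0)
      obtain ⟨r, hr⟩ := Int.eq_ofNat_of_zero_le hrpos
      have hrdvd : (G : ℤ) ∣ g 0 0 * s - r := by
        rw [← hr]
        exact Int.dvd_self_sub_emod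
      have hcop : IsCoprime (G : ℤ) (r : ℤ) := by
        obtain ⟨k, hk⟩ := hrdvd
        obtain ⟨d1, hd1⟩ := hGd
        obtain ⟨M1, hM1⟩ := hGM
        have hdet := p1_det g
        rw [hc] at hdet
        -- `(g00 * s) * (g11 * c) ≡ 1` modulo `G`
        refine ⟨g 1 1 * c * k + g 1 1 * g 0 0 * s' * M1 - g 0 1 * d1 * c, g 1 1 * c, ?_⟩
        have hr' : (r : ℤ) = g 0 0 * s - G * k := by linear_combination -hk
        rw [hr']
        linear_combination (g 0 0 * g 1 1) * hs + hdet - (g 1 1 * g 0 0 * s') * hM1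
          + (g 0 1 * c) * hd1
      have hx : (⟨d, r⟩ : Σ _ : ℕ, ℕ) ∈ tRep N := by
        rw [tRep, Finset.mem_sigma, Finset.mem_filter, Finset.mem_range]
        simp only
        rw [hMd]
        refine ⟨Nat.mem_divisors.2 ⟨⟨M, hM⟩, hN0⟩, ?_, ?_⟩
        · rw [hr] at hrlt
          exact_mod_cast hrlt
        · exact Nat.isCoprime_iff_coprime.1 hcop
      refine ⟨⟨⟨d, r⟩, hx⟩, ?_⟩
      show tcls N (rep ⟨d, r⟩) = tcls N g
      rw [eq_comm, tcls_eq_iff_of N g (rep ⟨d, r⟩) d M hM c 1 hc (by rw [hrep1 _ hx]; simp)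
        ⟨s, s', hs⟩ isCoprime_one_left]
      have h3 := hrep2 _ hx
      simp only at h3
      rw [hMd] at h3
      obtain ⟨k, hk⟩ := hrdvd
      obtain ⟨k3, hk3⟩ := h3
      obtain ⟨M1, hM1⟩ := hGM
      refine ⟨g 0 0 * s' * M1 + k * c - k3 * c, ?_⟩
      linear_combination (-(g 0 0)) * hs + c * hk - c * hk3 + (g 0 0 * s') * hM1
  rw [orbCount, ← Nat.card_congr (Equiv.ofBijective f hf), Nat.card_eq_fintype_card,
    Fintype.card_coe, card_tRep]

end Fermat.Agent.S20Lib
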