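import Fermat.Agent.S20.Dual

set_option autoImplicit false
open UpperHalfPlane hiding I
open ModularForm EisensteinSeries Complex Filter Topology CongruenceSubgroup
open scoped MatrixGroups Manifold

namespace Fermat.Agent.S20Lib

variable {N : ℕ} [NeZero N]
set_option linter.unusedSectionVars false

variable {F : X0 N → ℍ → X0 N → ℂ} {n : X0 N → ℤ}

theorem exists_preimage (hmax : IsMaxTup atImInfty (qN N) (WH N) F n)
    (h : ∀ i, ModularForm 𝒮ℒ (12 * (tI N (n i) : ℤ) + 2)) :
    ∃ f : CuspForm (Gamma0 N) 2, ∀ i τ, ∑ x, F i τ x * vec N 2 f τ x = vOf n h i τ := by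
  obtain ⟨G, hGholo, hG⟩ := exists_solve F (F_holo hmax) (vOf n h) (vOf_holo h) hmax.1.det_ne
    (solve_bdd h hmax)
  have hGc : ∀ x, Continuous (fun τ => G τ x) := fun x => (hGholo x).continuous
  -- equivariance
  have hkey : ∀ (γ : SL(2, ℤ)) (τ0 : ℍ) (z : X0 N),
      G τ0 z = (denom (γ : GL (Fin 2) ℝ) τ0) ^ (-2 : ℤ) * G (γ • τ0) (γ • z) := by
    intro γ τ0 z
    have hsm : Continuous (fun τ : ℍ => γ • τ) := continuous_const_smul (γ : GL (Fin 2) ℝ)
    have h1 : Tendsto (fun τ => G τ z) (lAt τ0) (𝓝 (G τ0 z)) :=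
      ((hGc z).tendsto τ0).mono_left nhdsWithin_le_nhds
    have hden : Continuous (fun τ : ℍ => denom (γ : GL (Fin 2) ℝ) τ) := by
      unfold denom
      fun_prop
    have h2 : Tendsto (fun τ : ℍ => (denom (γ : GL (Fin 2) ℝ) τ) ^ (-2 : ℤ) * G (γ • τ) (γ • z))
        (lAt τ0) (𝓝 ((denom (γ : GL (Fin 2) ℝ) τ0) ^ (-2 : ℤ) * G (γ • τ0) (γ • z))) := by
      have hc : ContinuousAt
          (fun τ : ℍ => (denom (γ : GL (Fin 2) ℝ) τ) ^ (-2 : ℤ) * G (γ • τ) (γ • z)) τ0 :=
        ((hden.continuousAt).zpow₀ _ (Or.inl (denom_ne_zero _ _))).mul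
          ((hGc (γ • z)).comp hsm).continuousAt
      exact hc.tendsto.mono_left nhdsWithin_le_nhds
    refine tendsto_nhds_unique h1 (h2.congr' ?_)
    filter_upwards [tdet_ev_ne_zero F (F_holo hmax) hmax.1.det_ne τ0] with τ hτ
    exact (solve_equiv hmax.1.mem (vOf n h) γ τ (fun i => vOf_smul h i γ τ) hτ (G τ) (G (γ • τ))
      (hG τ) (hG (γ • τ)) z).symm
  have heq : ∀ (γ : SL(2, ℤ)) (x : X0 N),
      (fun τ => G τ x) ∣[(2 : ℤ)] γ = fun τ => G τ (γ⁻¹ • x) := by
    intro γ x
    funext τ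
    rw [ModularForm.SL_slash_apply, hkey γ τ (γ⁻¹ • x), smul_inv_smul, mul_comm]
  -- vanishing at infinity
  choose A _ hA using hmax.1.ord
  have hlim := solve_tendsto hA (det_ne_zero_of_indep A (max_lead_indep hmax A hA))
    (fun i => vOf_lead_infty h i) (y := G) (Eventually.of_forall hG)
  have hz : ∀ x, Tendsto (fun τ => G τ x) atImInfty (𝓝 0) := by
    intro x
    have := tendsto_pi_nhds.mp hlim x
    have h0 : Matrix.mulVec (Matrix.of A)⁻¹ (fun _ => (0 : ℂ)) x = 0 := by
      have : (fun _ : X0 N => (0 : ℂ)) = 0 := rfl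
      rw [this, Matrix.mulVec_zero]
      rfl
    rwa [h0] at this
  obtain ⟨f, hf⟩ := cuspForm_of_vec N G hGholo heq hz
  exact ⟨f, fun i τ => by simp only [hf]; exact hG τ i⟩

/-- the trace map -/
noncomputable def PhiFun (hmax : IsMaxTup atImInfty (qN N) (WH N) F n)
    (f : CuspForm (Gamma0 N) 2) (i : X0 N) : ModularForm 𝒮ℒ (12 * (tI N (n i) : ℤ) + 2) :=
  Classical.choose (trace_form N f (hmax.1.mem i) (n i) (hmax.1.ord i).choose
    (hmax.1.ord i).choose_spec.2 (tI N (n i)) (tI_cond _))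

theorem PhiFun_apply (hmax : IsMaxTup atImInfty (qN N) (WH N) F n)
    (f : CuspForm (Gamma0 N) 2) (i : X0 N) (τ : ℍ) :
    PhiFun hmax f i τ = discriminant τ ^ (tI N (n i)) * ∑ x, vec N 2 f τ x * F i τ x :=
  Classical.choose_spec (trace_form N f (hmax.1.mem i) (n i) (hmax.1.ord i).choose
    (hmax.1.ord i).choose_spec.2 (tI N (n i)) (tI_cond _)) τ

noncomputable def Phi (hmax : IsMaxTup atImInfty (qN N) (WH N) F n) :
    CuspForm (Gamma0 N) 2 →ₗ[ℂ] (∀ i, ModularForm 𝒮ℒ (12 * (tI N (n i) : ℤ) + 2)) where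
  toFun f i := PhiFun hmax f i
  map_add' f g := by
    funext i
    ext τ
    simp only [Pi.add_apply, add_apply, PhiFun_apply, FunLike.coe_add, vec_add]
    simp only [add_mul, Finset.sum_add_distrib, mul_add]
  map_smul' c f := by
    funext i
    ext τ
    simp only [Pi.smul_apply, smul_apply, PhiFun_apply, RingHom.id_apply,
      FunLike.coe_smul, vec_smul, smul_eq_mul]
    rw [Finset.mul_sum, Finset.mul_sum, Finset.mul_sum]
    exact Finset.sum_congr rfl fun x _ => by ring

theorem Phi_injective (hmax : IsMaxTup atImInfty (qN N) (WH N) F n) :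
    Function.Injective (Phi hmax) := by
  rw [← LinearMap.ker_eq_bot, LinearMap.ker_eq_bot']
  intro f hf
  have h1 : ∀ i τ, ∑ x, F i τ x * vec N 2 f τ x = 0 := by
    intro i τ
    have := congrArg (fun g => g τ) (congrFun hf i)
    simp only [Phi, LinearMap.coe_mk, AddHom.coe_mk, PhiFun_apply, Pi.zero_apply,
      zero_apply] at this
    have h2 := (mul_eq_zero.mp this).resolve_left (pow_ne_zero _ (discriminant_ne_zero τ))
    rw [← h2]
    exact Finset.sum_congr rfl fun x _ => mul_comm _ _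
  ext τ0
  have hfc : Continuous f := (CuspFormClass.holo f).continuous
  have h2 : Tendsto f (lAt τ0) (𝓝 (f τ0)) := (hfc.tendsto τ0).mono_left nhdsWithin_le_nhds
  have h3 : Tendsto f (lAt τ0) (𝓝 0) := by
    refine tendsto_const_nhds.congr' ?_
    filter_upwards [tdet_ev_ne_zero F (F_holo hmax) hmax.1.det_ne τ0] with τ hτ
    have := solve_unique hτ (y := vec N 2 f τ) (y' := 0) (fun i => by simp [h1 i τ])
    rw [← vec_base N f τ, this]
    rfl
  simpa using tendsto_nhds_unique h2 h3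

theorem Phi_surjective (hmax : IsMaxTup atImInfty (qN N) (WH N) F n) :
    Function.Surjective (Phi hmax) := by
  intro h
  obtain ⟨f, hf⟩ := exists_preimage hmax h
  refine ⟨f, ?_⟩
  funext i
  ext τ
  simp only [Phi, LinearMap.coe_mk, AddHom.coe_mk, PhiFun_apply]
  have h1 : ∑ x, vec N 2 f τ x * F i τ x = vOf n h i τ := by
    rw [← hf i τ]
    exact Finset.sum_congr rfl fun x _ => mul_comm _ _
  rw [h1, vOf]
  field_simp [discriminant_ne_zero τ]

theorem finrank_cusp (hmax : IsMaxTup atImInfty (qN N) (WH N) F n) :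
    Module.finrank ℂ (CuspForm (Gamma0 N) 2) = ∑ i, tI N (n i) := by
  have e := LinearEquiv.ofBijective (Phi hmax) ⟨Phi_injective hmax, Phi_surjective hmax⟩
  rw [e.finrank_eq, Module.finrank_pi_fintype]
  exact Finset.sum_congr rfl fun i _ => finrank_levelOne _

/-- **Main analytic theorem**. -/
theorem main_formula (N : ℕ) [NeZero N] :
    2 * (Module.finrank ℂ (CuspForm (Gamma0 N) 2) : ℤ) + orbCount N ModularGroup.S
      + orbCount N (ModularGroup.S * ModularGroup.T) + orbCount N ModularGroup.T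
      = 2 + Nat.card (X0 N) := by
  obtain ⟨F, n, hmax⟩ := exists_maxTup N
  rw [finrank_cusp hmax]
  exact sum_tI hmax

end Fermat.Agent.S20Lib
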