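import Mathlib

/-!
# [E1] eigenvalue count for a permutation operator of finite order (helper for S20)
-/

set_option autoImplicit false

namespace Fermat.Agent.S20Lib

open Polynomial

/-- Characteristic polynomial of an operator with an eigenbasis. -/
theorem charpoly_of_eigenbasis {ι V : Type} [Fintype ι] [AddCommGroup V] [Module ℂ V]
    [Module.Finite ℂ V] (b : Module.Basis ι ℂ V) (P : V →ₗ[ℂ] V) (μ : ι → ℂ) (h : ∀ i, P (b i) = μ i • b i) :
    P.charpoly = ∏ i, (X - C (μ i)) := by
  classical
  rw [← LinearMap.charpoly_toMatrix P b]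
  have : LinearMap.toMatrix b b P = Matrix.diagonal μ := by
    ext i j
    rw [LinearMap.toMatrix_apply, h, map_smul, Module.Basis.repr_self, Finsupp.smul_apply,
      Finsupp.single_apply, Matrix.diagonal_apply]
    by_cases hij : i = j
    · subst hij; simp
    · rw [if_neg hij, if_neg (Ne.symm hij)]; simp
  rw [this, Matrix.charpoly_diagonal]

theorem map_eq_of_prod_X_sub_C_eq {ι : Type} [Fintype ι] (μ ν : ι → ℂ)
    (h : ∏ i, (X - C (μ i)) = ∏ i, (X - C (ν i))) :
    (Finset.univ : Finset ι).val.map μ = (Finset.univ : Finset ι).val.map ν := by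
  have e : ∀ κ : ι → ℂ, (∏ i, (X - C (κ i))).roots = (Finset.univ : Finset ι).val.map κ := by
    intro κ
    have : ∏ i, (X - C (κ i)) = (((Finset.univ : Finset ι).val.map κ).map fun a => X - C a).prod := by
      rw [Multiset.map_map]; rfl
    rw [this, roots_multiset_prod_X_sub_C]
  rw [← e μ, ← e ν, h]

theorem emod_add_neg_emod (n : ℤ) (e : ℤ) (he : 0 < e) :
    n % e + (-n) % e = if e ∣ n then 0 else e := by
  split_ifs with hd
  · rw [Int.emod_eq_zero_of_dvd hd, Int.emod_eq_zero_of_dvd ((dvd_neg).mpr hd)]; rfl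
  · have h0 : 0 ≤ n % e := Int.emod_nonneg _ he.ne'
    have h1 : n % e < e := Int.emod_lt_of_pos _ he
    have h2 : n % e ≠ 0 := fun h => hd (Int.dvd_of_emod_eq_zero h)
    have h3 : (-n) % e = (e - n % e) % e := by
      rw [Int.emod_eq_emod_iff_emod_sub_eq_zero]
      apply Int.emod_eq_zero_of_dvd
      exact ⟨-(n / e) - 1, by have := Int.emod_add_mul_ediv n e; linarith⟩
    have h4 : (e - n % e) % e = e - n % e := Int.emod_eq_of_lt (by omega) (by omega)
    rw [h3, h4]
    ring

/-- Dimension of the fixed space of an operator with an eigenbasis. -/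
theorem finrank_eqLocus_of_eigenbasis {ι V : Type} [Fintype ι] [AddCommGroup V] [Module ℂ V]
    (b : Module.Basis ι ℂ V) (P : V →ₗ[ℂ] V) (μ : ι → ℂ) (h : ∀ i, P (b i) = μ i • b i) :
    Module.finrank ℂ (LinearMap.eqLocus P LinearMap.id) = Nat.card {i // μ i = 1} := by
  classical
  have hrepr : ∀ (v : V) (i : ι), b.repr (P v) i = μ i * b.repr v i := by
    intro v i
    have : (Finsupp.lapply i) ∘ₗ (b.repr : V →ₗ[ℂ] ι →₀ ℂ) ∘ₗ P
        = (μ i) • ((Finsupp.lapply i) ∘ₗ (b.repr : V →ₗ[ℂ] ι →₀ ℂ)) := by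
      apply b.ext
      intro j
      simp only [LinearMap.comp_apply, LinearMap.smul_apply, Finsupp.lapply_apply,
        LinearEquiv.coe_coe, h, map_smul, Module.Basis.repr_self,
        Finsupp.single_apply, smul_eq_mul]
      by_cases hij : j = i
      · subst hij; simp
      · simp [hij]
    exact LinearMap.congr_fun this v
  have hspan : LinearMap.eqLocus P LinearMap.id
      = Submodule.span ℂ (Set.range fun i : {i // μ i = 1} => b i) := by
    apply le_antisymm
    · intro v hv
      have hv' : P v = v := hv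
      have hc : ∀ i, μ i ≠ 1 → b.repr v i = 0 := by
        intro i hi
        have h1 := hrepr v i
        rw [hv'] at h1
        have h2 : (μ i - 1) * b.repr v i = 0 := by linear_combination -h1
        exact (mul_eq_zero.mp h2).resolve_left (sub_ne_zero.mpr hi)
      rw [← b.sum_repr v]
      apply Submodule.sum_mem
      intro i _
      by_cases hi : μ i = 1
      · exact Submodule.smul_mem _ _ (Submodule.subset_span ⟨⟨i, hi⟩, rfl⟩)
      · rw [hc i hi, zero_smul]; exact Submodule.zero_mem _
    · rw [Submodule.span_le]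
      rintro _ ⟨⟨i, hi⟩, rfl⟩
      show P (b i) = b i
      rw [h, hi, one_smul]
  have hli : LinearIndependent ℂ (fun i : {i // μ i = 1} => b i) :=
    b.linearIndependent.comp (fun i : {i // μ i = 1} => (i : ι)) Subtype.val_injective
  rw [hspan, finrank_span_eq_card hli, Nat.card_eq_fintype_card]

section perm

variable {G X : Type} [Group G] [MulAction G X]

/-- The operator `v ↦ v ∘ (g • ·)`. -/
noncomputable def permOp (g : G) : (X → ℂ) →ₗ[ℂ] (X → ℂ) := LinearMap.funLeft ℂ ℂ (fun x => g • x)

theorem permOp_apply (g : G) (v : X → ℂ) (x : X) : permOp g v x = v (g • x) := rfl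

theorem charpoly_permOp_inv [Fintype X] (g : G) :
    (permOp (X := X) g⁻¹).charpoly = (permOp (X := X) g).charpoly := by
  classical
  have hT : LinearMap.toMatrix (Pi.basisFun ℂ X) (Pi.basisFun ℂ X) (permOp (X := X) g⁻¹)
      = (LinearMap.toMatrix (Pi.basisFun ℂ X) (Pi.basisFun ℂ X) (permOp (X := X) g)).transpose := by
    ext x y
    simp only [LinearMap.toMatrix_apply, Matrix.transpose_apply, Pi.basisFun_apply,
      Pi.basisFun_repr, permOp_apply, Pi.single_apply]
    by_cases hxy : g⁻¹ • x = y
    · rw [if_pos hxy, if_pos (by rw [← hxy, smul_inv_smul])]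
    · rw [if_neg hxy, if_neg (fun h => hxy (by rw [← h, inv_smul_smul]))]
  rw [← LinearMap.charpoly_toMatrix (permOp (X := X) g⁻¹) (Pi.basisFun ℂ X), hT,
    Matrix.charpoly_transpose, LinearMap.charpoly_toMatrix]

theorem finrank_invariants [Finite X] (g : G) :
    Module.finrank ℂ (LinearMap.eqLocus (permOp (X := X) g) LinearMap.id)
      = Nat.card (MulAction.orbitRel.Quotient (Subgroup.zpowers g) X) := by
  classical
  have : Fintype (MulAction.orbitRel.Quotient (Subgroup.zpowers g) X) := Fintype.ofFinite _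
  let mk : X → MulAction.orbitRel.Quotient (Subgroup.zpowers g) X := Quotient.mk _
  have hmk : Function.Surjective mk := Quotient.mk_surjective
  let Φ : (MulAction.orbitRel.Quotient (Subgroup.zpowers g) X → ℂ) →ₗ[ℂ] (X → ℂ) :=
    LinearMap.funLeft ℂ ℂ mk
  have hΦ : Function.Injective Φ := LinearMap.funLeft_injective_of_surjective ℂ ℂ mk hmk
  have hrange : LinearMap.range Φ = LinearMap.eqLocus (permOp (X := X) g) LinearMap.id := by
    apply le_antisymm
    · rintro _ ⟨f, rfl⟩
      show permOp g (Φ f) = Φ f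
      funext x
      show f (mk (g • x)) = f (mk x)
      congr 1
      apply Quotient.sound
      exact ⟨⟨g, Subgroup.mem_zpowers g⟩, rfl⟩
    · intro v hv
      have hv' : ∀ x, v (g • x) = v x := fun x => congrFun (show permOp g v = v from hv) x
      let H : Subgroup G :=
        { carrier := {h | ∀ x, v (h • x) = v x}
          mul_mem' := by
            intro a c ha hc x
            rw [mul_smul, ha, hc]
          one_mem' := by intro x; rw [one_smul]
          inv_mem' := by
            intro a ha x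
            have := ha (a⁻¹ • x)
            rw [smul_inv_smul] at this
            exact this.symm }
      have hH : Subgroup.zpowers g ≤ H := by
        rw [Subgroup.zpowers_le]; exact hv'
      refine ⟨Quotient.lift v ?_, ?_⟩
      · rintro a c ⟨⟨h, hh⟩, rfl⟩
        exact hH hh c
      · funext x
        rfl
  rw [← hrange, LinearMap.finrank_range_of_inj hΦ, Module.finrank_fintype_fun_eq_card,
    Nat.card_eq_fintype_card]

/-- [E1] eigenvalue count for a permutation operator of finite order, given an eigenbasis. -/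
theorem eigen_count {G X ι : Type} [Group G] [MulAction G X] [Fintype X] [Fintype ι]
    (g : G) (b : Module.Basis ι ℂ (X → ℂ)) (n : ι → ℤ) (e : ℕ) (he : 0 < e) (ζ : ℂ)
    (hζ : IsPrimitiveRoot ζ e) (hb : ∀ i x, b i (g • x) = ζ ^ (n i) * b i x) :
    2 * ∑ i, (n i % (e : ℤ)) + (e : ℤ) * Nat.card (MulAction.orbitRel.Quotient (Subgroup.zpowers g) X)
      = (e : ℤ) * Fintype.card X := by
  classical
  have he' : (0 : ℤ) < (e : ℤ) := by exact_mod_cast he
  have hζ0 : ζ ≠ 0 := hζ.ne_zero he.ne'
  have hP : ∀ i, permOp g (b i) = (ζ ^ (n i)) • b i := by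
    intro i; funext x
    rw [permOp_apply, hb]; rfl
  have hQ : ∀ i, permOp g⁻¹ (b i) = (ζ ^ (-n i)) • b i := by
    intro i; funext x
    rw [permOp_apply]
    have := hb i (g⁻¹ • x)
    rw [smul_inv_smul] at this
    show b i (g⁻¹ • x) = ζ ^ (-n i) * b i x
    rw [this, ← mul_assoc, ← zpow_add₀ hζ0]
    simp
  -- symmetry of the multiset of eigenvalues
  have hms : (Finset.univ : Finset ι).val.map (fun i => ζ ^ (n i))
      = (Finset.univ : Finset ι).val.map (fun i => ζ ^ (-n i)) := by
    apply map_eq_of_prod_X_sub_C_eq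
    rw [← charpoly_of_eigenbasis b _ _ hP, ← charpoly_of_eigenbasis b _ _ hQ, charpoly_permOp_inv]
  -- a discrete logarithm
  obtain ⟨φ, hφ⟩ : ∃ φ : ℂ → ℤ, ∀ m : ℤ, φ (ζ ^ m) = m % (e : ℤ) := by
    refine ⟨fun z => if h : ∃ m : ℤ, ζ ^ m = z then h.choose % (e : ℤ) else 0, fun m => ?_⟩
    have hex : ∃ m' : ℤ, ζ ^ m' = ζ ^ m := ⟨m, rfl⟩
    simp only [dif_pos hex]
    have h1 := hex.choose_spec
    have h2 : ζ ^ (hex.choose - m) = 1 := by
      rw [zpow_sub₀ hζ0, h1, div_self (zpow_ne_zero _ hζ0)]
    have h3 := (hζ.zpow_eq_one_iff_dvd _).mp h2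
    exact (Int.emod_eq_emod_iff_emod_sub_eq_zero).mpr (Int.emod_eq_zero_of_dvd h3)
  have hsum : ∑ i, (n i % (e : ℤ)) = ∑ i, ((-n i) % (e : ℤ)) := by
    have := congrArg (fun s => (s.map φ).sum) hms
    simp only [Multiset.map_map, Function.comp_def, hφ] at this
    exact this
  have h2 : 2 * ∑ i, (n i % (e : ℤ)) = ∑ i, (if (e : ℤ) ∣ n i then 0 else (e : ℤ)) := by
    rw [two_mul]
    nth_rewrite 2 [hsum]
    rw [← Finset.sum_add_distrib]
    exact Finset.sum_congr rfl fun i _ => emod_add_neg_emod _ _ he'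
  have h3 : ∑ i, (if (e : ℤ) ∣ n i then 0 else (e : ℤ))
      = (e : ℤ) * Fintype.card ι - (e : ℤ) * Nat.card {i // ζ ^ (n i) = 1} := by
    have hi : ∀ i, (if (e : ℤ) ∣ n i then 0 else (e : ℤ))
        = (e : ℤ) - (if ζ ^ (n i) = 1 then (e : ℤ) else 0) := by
      intro i
      by_cases h : (e : ℤ) ∣ n i
      · rw [if_pos h, if_pos ((hζ.zpow_eq_one_iff_dvd _).mpr h), sub_self]
      · rw [if_neg h, if_neg (mt (hζ.zpow_eq_one_iff_dvd _).mp h), sub_zero]
    rw [Finset.sum_congr rfl (fun i _ => hi i), Finset.sum_sub_distrib, Finset.sum_const,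
      Finset.card_univ, ← Finset.sum_filter, Finset.sum_const, Nat.card_eq_fintype_card,
      Fintype.card_subtype]
    simp [mul_comm]
  have h4 : Nat.card {i // ζ ^ (n i) = 1}
      = Nat.card (MulAction.orbitRel.Quotient (Subgroup.zpowers g) X) := by
    rw [← finrank_eqLocus_of_eigenbasis b _ _ hP, finrank_invariants]
  have h5 : Fintype.card ι = Fintype.card X := by
    rw [← Module.finrank_eq_card_basis b, Module.finrank_fintype_fun_eq_card]
  rw [h2, h3, h4, h5]
  ring

end perm

end Fermat.Agent.S20Lib
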