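import Fermat.Agent.S20.JBasic

set_option autoImplicit false
open UpperHalfPlane hiding I
open ModularForm EisensteinSeries Complex Filter Topology CongruenceSubgroup
open scoped MatrixGroups Manifold

namespace Fermat.Agent.S20Lib

theorem basic_mem_SL (γ : SL(2, ℤ)) : (γ : GL (Fin 2) ℝ) ∈ 𝒮ℒ := ⟨γ, rfl⟩

theorem disc_smul (γ : SL(2, ℤ)) (τ : ℍ) :
    discriminant (γ • τ) = (denom (γ : GL (Fin 2) ℝ) τ) ^ (12 : ℤ) * discriminant τ :=
  SlashInvariantForm.slash_action_eqn'' CuspForm.discriminant (basic_mem_SL γ) τ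

theorem E4_smul (γ : SL(2, ℤ)) (τ : ℍ) :
    E₄ (γ • τ) = (denom (γ : GL (Fin 2) ℝ) τ) ^ (4 : ℤ) * E₄ τ :=
  SlashInvariantForm.slash_action_eqn'' E₄ (basic_mem_SL γ) τ

theorem jF_smul (γ : SL(2, ℤ)) (τ : ℍ) : jF (γ • τ) = jF τ := by
  unfold jF
  rw [disc_smul, E4_smul]
  have h1 : denom (γ : GL (Fin 2) ℝ) τ ≠ 0 := denom_ne_zero _ _
  have h2 := discriminant_ne_zero τ
  field_simp

theorem disc_holo : MDiff discriminant := CuspForm.discriminant.holo'

theorem disc_bdd : IsBoundedAtImInfty discriminant :=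
  discriminant_isZeroAtImInfty.isBoundedAtImInfty

theorem disc_pow_bdd (t : ℕ) : IsBoundedAtImInfty (fun τ => discriminant τ ^ t) := by
  induction t with
  | zero =>
    simp only [pow_zero]
    exact const_boundedAtFilter atImInfty (1 : ℂ)
  | succ t ih =>
    simp only [pow_succ]
    exact ih.mul disc_bdd

theorem E4_bdd : IsBoundedAtImInfty E₄ := ModularFormClass.bdd_at_infty E₄

theorem IsWH.zero (N : ℕ) : IsWH N 0 where
  holo _ := mdifferentiable_const
  equiv _ _ _ := rfl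
  mero := ⟨0, fun _ => by
    simp only [pow_zero, Pi.zero_apply, mul_zero]
    exact const_boundedAtFilter atImInfty (0 : ℂ)⟩

theorem IsWH.add {N : ℕ} {F G : ℍ → X0 N → ℂ} (hF : IsWH N F) (hG : IsWH N G) :
    IsWH N (F + G) where
  holo x := (hF.holo x).add (hG.holo x)
  equiv γ τ x := by
    simp only [Pi.add_apply]
    rw [hF.equiv, hG.equiv]
  mero := by
    obtain ⟨t1, h1⟩ := hF.mero
    obtain ⟨t2, h2⟩ := hG.mero
    refine ⟨t1 + t2, fun x => ?_⟩
    have := ((disc_pow_bdd t2).mul (h1 x)).add ((disc_pow_bdd t1).mul (h2 x))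
    refine this.congr' (Eventually.of_forall fun τ => ?_) (Eventually.of_forall fun _ => rfl)
    simp only [Pi.add_apply, Pi.mul_apply]
    ring

theorem IsWH.smul {N : ℕ} {F : ℍ → X0 N → ℂ} (c : ℂ) (hF : IsWH N F) : IsWH N (c • F) where
  holo x := (hF.holo x).const_smul c
  equiv γ τ x := by
    simp only [Pi.smul_apply]
    rw [hF.equiv]
  mero := by
    obtain ⟨t1, h1⟩ := hF.mero
    refine ⟨t1, fun x => ?_⟩
    have := (const_boundedAtFilter atImInfty c).mul (h1 x)
    refine this.congr' (Eventually.of_forall fun τ => ?_) (Eventually.of_forall fun _ => rfl)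
    simp only [Pi.smul_apply, Pi.mul_apply, smul_eq_mul, Function.const_apply]
    ring

theorem IsWH.jmul {N : ℕ} {F : ℍ → X0 N → ℂ} (hF : IsWH N F) :
    IsWH N (fun τ => jF τ • F τ) where
  holo x := jF_holo.mul (hF.holo x)
  equiv γ τ x := by
    simp only [Pi.smul_apply]
    rw [hF.equiv, jF_smul]
  mero := by
    obtain ⟨t1, h1⟩ := hF.mero
    refine ⟨t1 + 1, fun x => ?_⟩
    have := ((E4_bdd.mul E4_bdd).mul E4_bdd).mul (h1 x)
    refine this.congr' (Eventually.of_forall fun τ => ?_) (Eventually.of_forall fun _ => rfl)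
    simp only [Pi.smul_apply, Pi.mul_apply, smul_eq_mul, jF]
    have h2 := discriminant_ne_zero τ
    field_simp
    ring

theorem IsWH.one (N : ℕ) : IsWH N (fun _ _ => 1) where
  holo _ := mdifferentiable_const
  equiv _ _ _ := rfl
  mero := ⟨0, fun _ => by
    simp only [pow_zero, mul_one]
    exact const_boundedAtFilter atImInfty (1 : ℂ)⟩

theorem levelOne_const (f : ℍ → ℂ) (hf : MDiff f)
    (hinv : ∀ (γ : SL(2, ℤ)) (τ : ℍ), f (γ • τ) = f τ)
    (hb : IsBoundedAtImInfty f) : ∃ c, ∀ τ, f τ = c := by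
  have hsl : ∀ γ : SL(2, ℤ), f ∣[(0 : ℤ)] γ = f := by
    intro γ
    ext τ
    rw [SL_slash_apply, hinv]
    simp
  let F : ModularForm 𝒮ℒ 0 :=
    { toFun := f
      slash_action_eq' := by
        rintro _ ⟨γ, rfl⟩
        exact hsl γ
      holo' := hf
      bdd_at_cusps' := by
        intro c hc
        rw [Subgroup.IsArithmetic.isCusp_iff_isCusp_SL2Z] at hc
        rw [OnePoint.isBoundedAt_iff_forall_SL2Z hc]
        intro γ _
        rw [hsl γ]
        exact hb }
  obtain ⟨c, hc⟩ := ModularFormClass.levelOne_weight_zero_const F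
  exact ⟨c, fun τ => congrFun hc τ⟩

theorem tdet_holo (N : ℕ) [NeZero N] {F : X0 N → ℍ → X0 N → ℂ}
    (hF : ∀ i x, MDiff (fun τ => F i τ x)) : MDiff (tdet F) := by
  have h : tdet F = ∑ σ : Equiv.Perm (X0 N),
      ((Equiv.Perm.sign σ : ℤ) : ℂ) • ∏ i, fun τ => F (σ i) τ i := by
    ext τ
    simp only [tdet, Matrix.det_apply, Finset.sum_apply, Pi.smul_apply, Finset.prod_apply,
      Matrix.of_apply]
    refine Finset.sum_congr rfl fun σ _ => ?_
    rw [Units.smul_def, zsmul_eq_mul, smul_eq_mul]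
  rw [h]
  exact MDifferentiable.sum fun σ _ => (MDifferentiable.prod fun i _ => hF _ _).const_smul _

theorem tdet_sq_inv (N : ℕ) [NeZero N] {F : X0 N → ℍ → X0 N → ℂ} (hF : ∀ i, IsWH N (F i))
    (γ : SL(2, ℤ)) (τ : ℍ) : tdet F (γ • τ) ^ 2 = tdet F τ ^ 2 := by
  have h : (Matrix.of fun i x => F i (γ • τ) x)
      = (Matrix.of fun i x => F i τ x).submatrix id (MulAction.toPerm γ⁻¹) := by
    ext i x
    simp only [Matrix.of_apply, Matrix.submatrix_apply, id, MulAction.toPerm_apply]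
    exact (hF i).equiv γ τ x
  unfold tdet
  rw [h, Matrix.det_permute', mul_pow]
  have : (((Equiv.Perm.sign (MulAction.toPerm γ⁻¹ : Equiv.Perm (X0 N)) : ℤˣ) : ℤ) : ℂ) ^ 2 = 1 := by
    rcases Int.units_eq_one_or (Equiv.Perm.sign (MulAction.toPerm γ⁻¹ : Equiv.Perm (X0 N))) with h | h <;>
      simp [h]
  rw [this, one_mul]

end Fermat.Agent.S20Lib
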