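import Fermat.Agent.S20.Defs

set_option autoImplicit false
open UpperHalfPlane hiding I
open ModularForm EisensteinSeries Complex Filter Topology CongruenceSubgroup
open scoped MatrixGroups Manifold

namespace Fermat.Agent.S20Lib

theorem jF_holo : MDiff jF :=
  ((ModularFormClass.holo E₄).pow 3).div CuspForm.discriminant.holo' discriminant_ne_zero

theorem levelOne_apply_smul {k : ℤ} (f : ModularForm 𝒮ℒ k) (γ : SL(2, ℤ)) (τ : ℍ) :
    f (γ • τ) = (denom (γ : GL (Fin 2) ℝ) τ) ^ k * f τ :=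
  SlashInvariantForm.slash_action_eqn'' f (⟨γ, rfl⟩ : (γ : GL (Fin 2) ℝ) ∈ 𝒮ℒ) τ

theorem disc_apply_smul (γ : SL(2, ℤ)) (τ : ℍ) :
    discriminant (γ • τ) = (denom (γ : GL (Fin 2) ℝ) τ) ^ (12 : ℤ) * discriminant τ :=
  SlashInvariantForm.slash_action_eqn'' CuspForm.discriminant
    (⟨γ, rfl⟩ : (γ : GL (Fin 2) ℝ) ∈ 𝒮ℒ) τ

theorem jF_inv (γ : SL(2, ℤ)) (τ : ℍ) : jF (γ • τ) = jF τ := by
  unfold jF
  rw [levelOne_apply_smul E₄ γ τ, disc_apply_smul γ τ]
  have hd : denom (γ : GL (Fin 2) ℝ) τ ≠ 0 := denom_ne_zero _ _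
  have hΔ := discriminant_ne_zero τ
  rw [mul_pow, ← zpow_natCast, ← zpow_mul]
  norm_num
  rw [mul_div_mul_left _ _ (pow_ne_zero _ hd)]

theorem jF_continuous : Continuous jF := jF_holo.continuous

theorem jF_sub_eq (τ : ℍ) : jF τ - 1728 = E₆ τ ^ 2 / discriminant τ := by
  unfold jF
  have hΔ := discriminant_ne_zero τ
  have := discriminant_eq_E₄_cube_sub_E₆_sq τ
  field_simp
  rw [this]
  ring

end Fermat.Agent.S20Lib
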