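import Fermat.Agent.S20.Defs

set_option autoImplicit false
open UpperHalfPlane hiding I
open ModularForm EisensteinSeries Complex Filter Topology CongruenceSubgroup
open scoped MatrixGroups Manifold

namespace Fermat.Agent.S20Lib

theorem qN_pow_self (N : ℕ) [NeZero N] (τ : ℍ) :
    qN N τ ^ N = Function.Periodic.qParam 1 τ := by
  have hN : (N : ℂ) ≠ 0 := by exact_mod_cast NeZero.ne N
  unfold qN Function.Periodic.qParam
  rw [← Complex.exp_nat_mul]
  congr 1
  push_cast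
  field_simp

theorem periodic_of_vadd (h : ℝ) (f : ℍ → ℂ) (hf : ∀ τ : ℍ, f (h +ᵥ τ) = f τ) :
    Function.Periodic (f ∘ ofComplex) (h : ℂ) := by
  intro w
  by_cases hw : 0 < im w
  · have : 0 < im (w + h) := by simp [hw]
    simp only [Function.comp_apply, ofComplex_apply_of_im_pos this, ofComplex_apply_of_im_pos hw]
    rw [← hf ⟨w, hw⟩]
    congr 1
    ext
    simp [add_comm]
  · have hw' : im w ≤ 0 := not_lt.mp hw
    have : im (w + h) ≤ 0 := by simpa using hw'
    simp [ofComplex_apply_of_im_nonpos this, ofComplex_apply_of_im_nonpos hw']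

theorem disc_lead_infty (N : ℕ) [NeZero N] :
    Lead atImInfty (qN N) (fun τ => discriminant τ) (N : ℤ) 1 := by
  unfold Lead
  refine tendsto_atImInfty_tprod_one_sub_eta_q_pow.congr fun τ => ?_
  show _ = qN N τ ^ (-(N : ℤ)) • discriminant τ
  rw [discriminant_eq_q_prod, ← qN_pow_self N, smul_eq_mul, ← mul_assoc, zpow_neg, zpow_natCast,
    inv_mul_cancel₀ (pow_ne_zero _ (qN_ne_zero N τ)), one_mul]

theorem E4_tendsto : Tendsto (fun τ : ℍ => E₄ τ) atImInfty (𝓝 1) := by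
  have hper : (1 : ℝ) ∈ (𝒮ℒ : Subgroup (GL (Fin 2) ℝ)).strictPeriods := by simp
  have han := ModularFormClass.analyticAt_cuspFunction_zero E₄ one_pos hper
  have h0 : cuspFunction 1 E₄ 0 = 1 := by
    have := E_qExpansion_coeff_zero (k := 4) (by norm_num) (by decide)
    rw [qExpansion_coeff] at this
    simpa using this
  have h1 := han.continuousAt.tendsto.comp (qParam_tendsto_atImInfty one_pos)
  rw [h0] at h1
  refine h1.congr fun τ => ?_
  exact SlashInvariantFormClass.eq_cuspFunction E₄ τ hper one_ne_zero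

theorem jF_lead_infty (N : ℕ) [NeZero N] : Lead atImInfty (qN N) jF (-(N : ℤ)) 1 := by
  have h1 : Lead atImInfty (qN N) (fun τ : ℍ => E₄ τ ^ 3) 0 1 := by
    have := (Lead.of_tendsto (u := qN N) E4_tendsto).pow (qN_ev_ne_zero N) 3
    simpa using this
  have h2 := (disc_lead_infty N).inv one_ne_zero
  have h3 := h1.mul (qN_ev_ne_zero N) h2
  simp only [zero_add, inv_one, mul_one] at h3
  exact h3

/-- finitely many holomorphic, `N`-periodic functions, bounded at infinity: either they all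
vanish near infinity or they have a leading term. -/
theorem exists_lead_of_bdd (N : ℕ) [NeZero N] {X : Type} [Fintype X] (f : ℍ → X → ℂ)
    (hhol : ∀ x, MDiff (fun τ => f τ x)) (hper : ∀ x τ, f ((N : ℝ) +ᵥ τ) x = f τ x)
    (hbdd : ∀ x, IsBoundedAtImInfty (fun τ => f τ x)) :
    (∀ᶠ τ in atImInfty, f τ = 0) ∨
      ∃ (m : ℕ) (A : X → ℂ), A ≠ 0 ∧ Lead atImInfty (qN N) f m A := by
  have hN : (0 : ℝ) < N := by exact_mod_cast Nat.pos_of_ne_zero (NeZero.ne N)
  have hp : ∀ x, Function.Periodic ((fun τ => f τ x) ∘ ofComplex) ((N : ℝ) : ℂ) :=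
    fun x => periodic_of_vadd N _ (hper x)
  let G : ℂ → X → ℂ := fun q x => cuspFunction N (fun τ => f τ x) q
  have hG : AnalyticAt ℂ G 0 :=
    AnalyticAt.pi fun x => analyticAt_cuspFunction_zero hN (hp x) (hhol x) (hbdd x)
  have hfG : ∀ τ, G (qN N τ) = f τ := by
    intro τ
    funext x
    exact eq_cuspFunction τ hN.ne' (hp x)
  by_cases h : ∀ᶠ z in 𝓝 0, G z = 0
  · left
    filter_upwards [(qN_tendsto N).eventually h] with τ hτ
    rw [← hfG, hτ]
  · right
    obtain ⟨n, g, hg, hg0, hgG⟩ := hG.exists_eventuallyEq_pow_smul_nonzero_iff.mpr h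
    refine ⟨n, g 0, hg0, ?_⟩
    unfold Lead
    refine (hg.continuousAt.tendsto.comp (qN_tendsto N)).congr' ?_
    filter_upwards [(qN_tendsto N).eventually hgG] with τ hτ
    rw [← hfG, hτ, sub_zero, smul_smul, zpow_neg, zpow_natCast,
      inv_mul_cancel₀ (pow_ne_zero _ (qN_ne_zero N τ)), one_smul]
    rfl

theorem eq_zero_of_eventually_atImInfty (f : ℍ → ℂ) (hf : MDiff f)
    (h : ∀ᶠ τ in atImInfty, f τ = 0) (τ : ℍ) : f τ = 0 := by
  obtain ⟨A, hA⟩ := (atImInfty_mem _).mp h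
  have hd : DifferentiableOn ℂ (f ∘ ofComplex) upperHalfPlaneSet :=
    UpperHalfPlane.mdifferentiable_iff.mp hf
  have han := hd.analyticOnNhd isOpen_upperHalfPlaneSet
  have hpre : IsPreconnected upperHalfPlaneSet := (convex_halfSpace_im_gt 0).isPreconnected
  set z₀ : ℂ := (|A| + 1) * Complex.I with hz₀
  have hz₀im : z₀.im = |A| + 1 := by simp [hz₀]
  have hz₀mem : z₀ ∈ upperHalfPlaneSet := by
    show 0 < z₀.im
    rw [hz₀im]; positivity
  have hev : (f ∘ ofComplex) =ᶠ[𝓝 z₀] 0 := by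
    have hopen : IsOpen {z : ℂ | |A| < z.im} := isOpen_lt continuous_const Complex.continuous_im
    filter_upwards [hopen.mem_nhds (show |A| < z₀.im by rw [hz₀im]; linarith)] with z hz
    have hz' : |A| < z.im := hz
    have hzpos : 0 < z.im := lt_of_le_of_lt (abs_nonneg A) hz'
    simp only [Function.comp_apply, ofComplex_apply_of_im_pos hzpos, Pi.zero_apply]
    exact hA ⟨z, hzpos⟩ ((le_abs_self A).trans hz'.le)
  have := han.eqOn_zero_of_preconnected_of_eventuallyEq_zero hpre hz₀mem hev τ.2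
  simpa using this

theorem T_zpow_N_smul (N : ℕ) (x : X0 N) : (ModularGroup.T ^ (N : ℤ)) • x = x := by
  induction x using QuotientGroup.induction_on with
  | H g =>
    rw [p1_smul_mk, p1_mk_eq_iff', (p1_T_zpow_mul _ g).1, (p1_T_zpow_mul _ g).2]
    push_cast
    have : (N : ZMod N) = 0 := ZMod.natCast_self N
    rw [this]
    ring

theorem T_zpow_N_inv_smul (N : ℕ) (x : X0 N) : (ModularGroup.T ^ (N : ℤ))⁻¹ • x = x := by
  rw [inv_smul_eq_iff, T_zpow_N_smul]

theorem IsWH.periodic {N : ℕ} {F : ℍ → X0 N → ℂ} (hF : IsWH N F) (τ : ℍ) :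
    F ((N : ℝ) +ᵥ τ) = F τ := by
  funext x
  have := hF.equiv (ModularGroup.T ^ (N : ℤ)) τ x
  rw [T_zpow_N_inv_smul, modular_T_zpow_smul] at this
  simpa using this

theorem disc_periodic (N : ℕ) (τ : ℍ) : discriminant ((N : ℝ) +ᵥ τ) = discriminant τ := by
  have h1 : (1 : ℝ) ∈ (𝒮ℒ : Subgroup (GL (Fin 2) ℝ)).strictPeriods := by simp
  have hN : (N : ℝ) ∈ (𝒮ℒ : Subgroup (GL (Fin 2) ℝ)).strictPeriods := by
    simpa using AddSubgroup.nsmul_mem _ h1 N
  exact SlashInvariantForm.vAdd_apply_of_mem_strictPeriods CuspForm.discriminant τ hN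

theorem disc_mdiff : MDiff (fun τ : ℍ => discriminant τ) := CuspForm.discriminant.holo'

theorem exists_ord_infty (N : ℕ) [NeZero N] {F : ℍ → X0 N → ℂ} (hF : IsWH N F) (h0 : F ≠ 0) :
    ∃ m, HasOrd atImInfty (qN N) F m := by
  obtain ⟨t, ht⟩ := hF.mero
  have hhol : ∀ x, MDiff (fun τ => discriminant τ ^ t * F τ x) :=
    fun x => (disc_mdiff.pow t).mul (hF.holo x)
  rcases exists_lead_of_bdd N (fun τ x => discriminant τ ^ t * F τ x) hhol
    (fun x τ => by rw [disc_periodic, hF.periodic]) ht with h | ⟨m, A, hA, hl⟩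
  · exfalso
    apply h0
    funext τ x
    have h1 : ∀ᶠ τ in atImInfty, discriminant τ ^ t * F τ x = 0 := by
      filter_upwards [h] with τ hτ
      exact congrFun hτ x
    have h2 := eq_zero_of_eventually_atImInfty _ (hhol x) h1 τ
    exact (mul_eq_zero.mp h2).resolve_left (pow_ne_zero _ (discriminant_ne_zero τ))
  · have h1 := (((disc_lead_infty N).pow (qN_ev_ne_zero N) t).inv (by simp)).smul'
      (qN_ev_ne_zero N) hl
    refine ⟨_, _, ?_, h1.congr' (Eventually.of_forall fun τ => ?_)⟩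
    · simpa using hA
    · funext x
      simp only [Pi.smul_apply, smul_eq_mul]
      rw [← mul_assoc, inv_mul_cancel₀ (pow_ne_zero _ (discriminant_ne_zero τ)), one_mul]

theorem tendsto_T_smul : Tendsto (fun τ : ℍ => ModularGroup.T • τ) atImInfty atImInfty := by
  unfold atImInfty
  rw [tendsto_comap_iff]
  have : (UpperHalfPlane.im ∘ fun τ : ℍ => ModularGroup.T • τ) = UpperHalfPlane.im := by
    funext τ
    rw [Function.comp_apply, modular_T_smul]
    simp
  rw [this]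
  exact tendsto_comap

theorem qN_T_smul (N : ℕ) [NeZero N] (τ : ℍ) :
    qN N (ModularGroup.T • τ) = Complex.exp (2 * Real.pi * Complex.I / N) * qN N τ := by
  unfold qN Function.Periodic.qParam
  rw [← Complex.exp_add, modular_T_smul]
  congr 1
  rw [UpperHalfPlane.coe_vadd]
  push_cast
  ring

theorem lead_infty_eigen (N : ℕ) [NeZero N] {F : ℍ → X0 N → ℂ} (hF : IsWH N F) {n : ℤ}
    {A : X0 N → ℂ} (hl : Lead atImInfty (qN N) F n A) (x : X0 N) :
    A (ModularGroup.T⁻¹ • x) = (Complex.exp (2 * Real.pi * Complex.I / N)) ^ n * A x := by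
  set ζ := Complex.exp (2 * Real.pi * Complex.I / N) with hζ
  have hζ0 : ζ ≠ 0 := Complex.exp_ne_zero _
  have h1 : Tendsto (fun τ => qN N (ModularGroup.T • τ) ^ (-n) • F (ModularGroup.T • τ) x)
      atImInfty (𝓝 (A x)) := (hl.apply x).comp tendsto_T_smul
  have h2 : Tendsto (fun τ => ζ ^ (-n) * (qN N τ ^ (-n) • F τ (ModularGroup.T⁻¹ • x)))
      atImInfty (𝓝 (ζ ^ (-n) * A (ModularGroup.T⁻¹ • x))) :=
    (hl.apply (ModularGroup.T⁻¹ • x)).const_mul _
  have h3 : A x = ζ ^ (-n) * A (ModularGroup.T⁻¹ • x) := by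
    refine tendsto_nhds_unique h1 (h2.congr fun τ => ?_)
    rw [qN_T_smul, hF.equiv, mul_zpow, smul_eq_mul, smul_eq_mul, mul_assoc]
  rw [h3, ← mul_assoc, ← zpow_add₀ hζ0]
  simp

/-- a holomorphic `N`-periodic vector valued function tending to `0` is `O(q_N)` -/
theorem exists_lead_one_of_zero (N : ℕ) [NeZero N] {X : Type} [Fintype X] (f : ℍ → X → ℂ)
    (hhol : ∀ x, MDiff (fun τ => f τ x)) (hper : ∀ x τ, f ((N : ℝ) +ᵥ τ) x = f τ x)
    (hzero : ∀ x, IsZeroAtImInfty (fun τ => f τ x)) :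
    ∃ B, Lead atImInfty (qN N) f 1 B := by
  rcases exists_lead_of_bdd N f hhol hper (fun x => (hzero x).boundedAtFilter) with
    h | ⟨m, A, hA, hl⟩
  · refine ⟨0, Lead.zero.congr' ?_⟩
    filter_upwards [h] with τ hτ
    rw [hτ]; rfl
  · have h0 : Tendsto f atImInfty (𝓝 0) := tendsto_pi_nhds.mpr hzero
    have hm : m ≠ 0 := by
      rintro rfl
      have := hl.tendsto_of_zero
      exact hA (tendsto_nhds_unique this h0)
    rcases Nat.lt_or_ge 1 m with h1 | h1
    · exact ⟨0, hl.of_lt (qN_ev_ne_zero N) (qN_tendsto N) (by exact_mod_cast h1)⟩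
    · have : m = 1 := by omega
      subst this
      exact ⟨A, by simpa using hl⟩

theorem conj_T_zpow_mem (N : ℕ) (γ : SL(2, ℤ)) :
    γ * ModularGroup.T ^ (N : ℤ) * γ⁻¹ ∈ Gamma0 N := by
  have h := T_zpow_N_inv_smul N ((γ⁻¹ : SL(2, ℤ)) : X0 N)
  rw [p1_smul_mk, QuotientGroup.eq] at h
  simpa [mul_assoc] using h

theorem slash_periodic (N : ℕ) (f : CuspForm (Gamma0 N) 2) (γ : SL(2, ℤ)) (τ : ℍ) :
    ((⇑f : ℍ → ℂ) ∣[(2 : ℤ)] γ) ((N : ℝ) +ᵥ τ) = ((⇑f : ℍ → ℂ) ∣[(2 : ℤ)] γ) τ := by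
  have h1 : (⇑f : ℍ → ℂ) ∣[(2 : ℤ)] (γ * ModularGroup.T ^ (N : ℤ) * γ⁻¹) = ⇑f :=
    SlashInvariantFormClass.slash_action_eq f _
      (Subgroup.mem_map_of_mem (Matrix.SpecialLinearGroup.mapGL ℝ) (conj_T_zpow_mem N γ))
  have h2 : ((⇑f : ℍ → ℂ) ∣[(2 : ℤ)] γ) ∣[(2 : ℤ)] (ModularGroup.T ^ (N : ℤ))
      = (⇑f : ℍ → ℂ) ∣[(2 : ℤ)] γ := by
    conv_rhs => rw [← h1]
    rw [← SlashAction.slash_mul, ← SlashAction.slash_mul]
    congr 1
    try group
  have h3 := congrFun h2 τ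
  rw [SL_slash_apply, modular_T_zpow_smul] at h3
  have hden : denom (ModularGroup.T ^ (N : ℤ) : SL(2, ℤ)) τ = 1 := by
    rw [ModularGroup.denom_apply, ModularGroup.coe_T_zpow]
    simp
  rw [hden] at h3
  simpa using h3

theorem vec_cusp_lead (N : ℕ) [NeZero N] (f : CuspForm (Gamma0 N) 2) :
    ∃ B, Lead atImInfty (qN N) (vec N 2 f) 1 B := by
  refine exists_lead_one_of_zero N (vec N 2 f) (fun x => ?_) (fun x τ => ?_) (fun x => ?_)
  · exact (CuspFormClass.holo f).slash _ _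
  · exact slash_periodic N f _ τ
  · exact CuspFormClass.zero_at_infty_slash f _

theorem bdd_of_lead_gt (N : ℕ) [NeZero N] (h : ℍ → ℂ) (hh : MDiff h)
    (hper : ∀ τ : ℍ, h ((1 : ℝ) +ᵥ τ) = h τ) (m : ℤ) (b : ℂ) (hm : -(N : ℤ) < m)
    (hl : Lead atImInfty (qN N) h m b) : IsBoundedAtImInfty h := by
  -- `f = q * h`
  have hq1 : ∀ τ : ℍ, qN 1 τ = qN N τ ^ N := by
    intro τ
    rw [qN_pow_self]
    simp [qN]
  have hqlead : Lead atImInfty (qN N) (fun τ => qN 1 τ) (N : ℤ) 1 := by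
    have := Lead.self_zpow (qN_ev_ne_zero N) (N : ℤ)
    refine this.congr' (Eventually.of_forall fun τ => ?_)
    show qN N τ ^ (N : ℤ) = qN 1 τ
    rw [hq1, zpow_natCast]
  have hfl := hqlead.mul (qN_ev_ne_zero N) hl
  have hf0 : Tendsto (fun τ => qN 1 τ * h τ) atImInfty (𝓝 0) :=
    hfl.tendsto_zero (qN_ev_ne_zero N) (qN_tendsto N) (by omega)
  have hqhol : MDiff (fun τ : ℍ => qN 1 τ) := by
    rw [UpperHalfPlane.mdifferentiable_iff]
    have : DifferentiableOn ℂ (fun z : ℂ => Function.Periodic.qParam 1 z) upperHalfPlaneSet := by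
      unfold Function.Periodic.qParam
      fun_prop
    refine this.congr fun z hz => ?_
    simp [qN, ofComplex_apply_of_im_pos hz]
  have hqper : ∀ τ : ℍ, qN 1 ((1 : ℝ) +ᵥ τ) = qN 1 τ := by
    intro τ
    have := qN_T_smul 1 τ
    rw [modular_T_smul] at this
    rw [this]
    simp [Complex.exp_two_pi_mul_I]
  obtain ⟨B, hB⟩ := exists_lead_one_of_zero 1 (X := Unit) (fun τ _ => qN 1 τ * h τ)
    (fun _ => hqhol.mul hh)
    (fun _ τ => by
      have e : (((1 : ℕ) : ℝ) +ᵥ τ) = ((1 : ℝ) +ᵥ τ) := by simp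
      rw [e, hqper, hper]) (fun _ => hf0)
  have hB' := hB.apply ()
  have h2 : Tendsto h atImInfty (𝓝 (B ())) := by
    unfold Lead at hB'
    refine hB'.congr fun τ => ?_
    rw [smul_eq_mul, ← mul_assoc, zpow_neg, zpow_one, inv_mul_cancel₀ (qN_ne_zero 1 τ), one_mul]
  exact h2.isBigO_one ℝ

end Fermat.Agent.S20Lib
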