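import Mathlib

/-!
# The Rankin–Cohen bracket `2 E₄ E₆' - 3 E₆ E₄'` is a nonzero multiple of `Δ` ([J2] of S20)
-/

set_option autoImplicit false
open UpperHalfPlane hiding I
open ModularForm EisensteinSeries Complex ModularFormClass
open Filter Topology Real
open scoped MatrixGroups Manifold

namespace Fermat.Agent.S20Lib

local notation "𝕢" => Function.Periodic.qParam

theorem hasDerivAt_qParam_one (z : ℂ) : HasDerivAt (𝕢 1) (2 * π * I * 𝕢 1 z) z := by
  have h1 : HasDerivAt (fun z : ℂ => 2 * π * I * z / (1 : ℝ)) (2 * π * I) z := by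
    have := (hasDerivAt_id z).const_mul (2 * π * I)
    simpa using this
  have h2 : HasDerivAt (𝕢 1) (cexp (2 * π * I * z / (1 : ℝ)) * (2 * π * I)) z := h1.cexp
  rw [mul_comm] at h2
  exact h2

/-- chain rule for `f = cuspFunction ∘ q`. -/
theorem deriv_comp_ofComplex {k : ℤ} (f : ModularForm 𝒮ℒ k) (τ : ℍ) :
    deriv (⇑f ∘ ofComplex) τ = deriv (cuspFunction 1 f) (𝕢 1 τ) * (2 * π * I * 𝕢 1 τ) := by
  have hev : (⇑f ∘ ofComplex) =ᶠ[𝓝 (τ : ℂ)] (cuspFunction 1 f) ∘ (𝕢 1) := by
    filter_upwards [isOpen_upperHalfPlaneSet.mem_nhds τ.im_pos] with z hz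
    have := SlashInvariantFormClass.eq_cuspFunction f ⟨z, hz⟩ one_mem_strictPeriods_SL one_ne_zero
    simp only [Function.comp_apply, ofComplex_apply_of_im_pos hz, ← this]
  rw [hev.deriv_eq]
  have hd : DifferentiableAt ℂ (cuspFunction 1 f) (𝕢 1 τ) :=
    ModularFormClass.differentiableAt_cuspFunction f one_pos one_mem_strictPeriods_SL
      (Function.Periodic.norm_qParam_lt_one one_pos τ.im_pos)
  exact (hd.hasDerivAt.comp (τ : ℂ) (hasDerivAt_qParam_one τ)).deriv

theorem tendsto_deriv_cuspFunction {k : ℤ} (f : ModularForm 𝒮ℒ k) :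
    Tendsto (fun τ : ℍ => deriv (cuspFunction 1 f) (𝕢 1 τ)) atImInfty
      (𝓝 ((qExpansion 1 f).coeff 1)) := by
  have han : AnalyticAt ℂ (cuspFunction 1 f) 0 :=
    ModularFormClass.analyticAt_cuspFunction_zero f one_pos one_mem_strictPeriods_SL
  have hc : ContinuousAt (deriv (cuspFunction 1 f)) 0 := han.deriv.continuousAt
  have h1 : (qExpansion 1 f).coeff 1 = deriv (cuspFunction 1 f) 0 := by
    rw [qExpansion_coeff]; simp
  rw [h1]
  exact hc.tendsto.comp (qParam_tendsto_atImInfty one_pos)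

theorem tendsto_modularForm {k : ℤ} (f : ModularForm 𝒮ℒ k) :
    Tendsto (fun τ : ℍ => f τ) atImInfty (𝓝 ((qExpansion 1 f).coeff 0)) := by
  have han : AnalyticAt ℂ (cuspFunction 1 f) 0 :=
    ModularFormClass.analyticAt_cuspFunction_zero f one_pos one_mem_strictPeriods_SL
  have h1 : (qExpansion 1 f).coeff 0 = cuspFunction 1 f 0 := by
    rw [qExpansion_coeff]; simp
  rw [h1]
  have := han.continuousAt.tendsto.comp (qParam_tendsto_atImInfty one_pos)
  refine this.congr fun τ => ?_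
  exact SlashInvariantFormClass.eq_cuspFunction f τ one_mem_strictPeriods_SL one_ne_zero

open Derivative in
/-- the bracket as a function on `ℍ` (normalised derivative). -/
noncomputable def brk (τ : ℍ) : ℂ :=
  2 * E₄ τ * normalizedDerivOfComplex E₆ τ - 3 * E₆ τ * normalizedDerivOfComplex E₄ τ

open Derivative in
theorem brk_eq : brk = (2 : ℂ) • (⇑E₄ * serreDerivative 6 E₆) - (3 : ℂ) • (⇑E₆ * serreDerivative 4 E₄) := by
  ext τ
  simp only [brk, serreDerivative_eq, Pi.sub_apply, Pi.smul_apply, Pi.mul_apply, smul_eq_mul]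
  ring

open Derivative in
theorem brk_slash (γ : SL(2, ℤ)) : brk ∣[(12 : ℤ)] γ = brk := by
  have hγ : (γ : GL (Fin 2) ℝ) ∈ 𝒮ℒ := ⟨γ, rfl⟩
  have e4 : (⇑E₄ : ℍ → ℂ) ∣[(4 : ℤ)] γ = E₄ := by
    rw [SL_slash]; exact SlashInvariantFormClass.slash_action_eq E₄ _ hγ
  have e6 : (⇑E₆ : ℍ → ℂ) ∣[(6 : ℤ)] γ = E₆ := by
    rw [SL_slash]; exact SlashInvariantFormClass.slash_action_eq E₆ _ hγ
  have s4 : serreDerivative 4 E₄ ∣[(6 : ℤ)] γ = serreDerivative 4 E₄ := by
    have := serreDerivative_slash_invariant (k := 4) E₄.holo' e4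
    simpa using this
  have s6 : serreDerivative 6 E₆ ∣[(8 : ℤ)] γ = serreDerivative 6 E₆ := by
    have := serreDerivative_slash_invariant (k := 6) E₆.holo' e6
    simpa using this
  rw [brk_eq, sub_eq_add_neg, SlashAction.add_slash, SlashAction.neg_slash, SL_smul_slash, SL_smul_slash]
  rw [show (12 : ℤ) = 4 + 8 by norm_num, mul_slash_SL2, e4, s6]
  rw [show (4 + 8 : ℤ) = 6 + 6 by norm_num, mul_slash_SL2, e6, s4]

open Derivative in
theorem brk_mdiff : MDiff brk := by
  rw [brk_eq]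
  exact ((E₄.holo'.mul (serreDerivative_mdifferentiable 6 E₆.holo')).const_smul (2 : ℂ)).sub
    ((E₆.holo'.mul (serreDerivative_mdifferentiable 4 E₄.holo')).const_smul (3 : ℂ))

/-- the reduced bracket `brk / q`. -/
noncomputable def brkRed (τ : ℍ) : ℂ :=
  2 * E₄ τ * deriv (cuspFunction 1 E₆) (𝕢 1 τ) - 3 * E₆ τ * deriv (cuspFunction 1 E₄) (𝕢 1 τ)

theorem brk_eq_q_mul (τ : ℍ) : brk τ = 𝕢 1 τ * brkRed τ := by
  have hpi : (2 * π * I : ℂ) ≠ 0 := by
    simp [Real.pi_ne_zero]
  simp only [brk, brkRed, Derivative.normalizedDerivOfComplex, deriv_comp_ofComplex]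
  field_simp

theorem tendsto_brkRed : Tendsto brkRed atImInfty (𝓝 (-1728)) := by
  have h4 := tendsto_modularForm E₄
  have h6 := tendsto_modularForm E₆
  have d4 := tendsto_deriv_cuspFunction E₄
  have d6 := tendsto_deriv_cuspFunction E₆
  rw [E_qExpansion_coeff_zero _ (by decide)] at h4 h6
  rw [E₄_qExpansion_coeff_one] at d4
  rw [E₆_qExpansion_coeff_one] at d6
  have := ((h4.const_mul 2).mul d6).sub ((h6.const_mul 3).mul d4)
  have e : (-1728 : ℂ) = 2 * 1 * -504 - 3 * 1 * 240 := by norm_num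
  rw [e]
  exact this

theorem brk_isZeroAtImInfty : IsZeroAtImInfty brk := by
  have := (qParam_tendsto_atImInfty one_pos).mul tendsto_brkRed
  rw [zero_mul] at this
  exact this.congr fun τ => (brk_eq_q_mul τ).symm

/-- the bracket as a cusp form of weight 12. -/
noncomputable def brkForm : CuspForm 𝒮ℒ 12 where
  toFun := brk
  slash_action_eq' A hA := by
    obtain ⟨A, rfl⟩ := hA
    exact brk_slash A
  holo' := brk_mdiff
  zero_at_cusps' hc := by
    rw [Subgroup.IsArithmetic.isCusp_iff_isCusp_SL2Z] at hc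
    rw [OnePoint.isZeroAt_iff_forall_SL2Z hc]
    intro γ _
    rw [brk_slash]
    exact brk_isZeroAtImInfty

/-- [J2] the first Rankin–Cohen bracket of `E₄`, `E₆` is a nonzero multiple of `Δ`. -/
theorem bracket_E4_E6 : ∃ c : ℂ, c ≠ 0 ∧ ∀ τ : ℍ,
    2 * E₄ τ * deriv (⇑E₆ ∘ ofComplex) τ - 3 * E₆ τ * deriv (⇑E₄ ∘ ofComplex) τ
      = c * discriminant τ := by
  have hpi : (2 * π * I : ℂ) ≠ 0 := by
    simp [Real.pi_ne_zero]
  obtain ⟨c, hc⟩ := CuspForm.exists_smul_discriminant_of_weight_eq_twelve brkForm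
  have hc' : ∀ τ : ℍ, c * discriminant τ = brk τ := fun τ => congrArg (fun f => f τ) hc
  refine ⟨2 * π * I * c, ?_, fun τ => ?_⟩
  · apply mul_ne_zero hpi
    rintro rfl
    have h0 : ∀ τ : ℍ, brkRed τ = 0 := by
      intro τ
      have := hc' τ
      rw [zero_mul, brk_eq_q_mul] at this
      exact (mul_eq_zero.mp this.symm).resolve_left (Function.Periodic.qParam_ne_zero _)
    have h1 : Tendsto brkRed atImInfty (𝓝 0) := by
      have : brkRed = fun _ => 0 := funext h0
      rw [this]; exact tendsto_const_nhds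
    have := tendsto_nhds_unique tendsto_brkRed h1
    norm_num at this
  · rw [mul_assoc (2 * π * I : ℂ) c, hc' τ]
    simp only [brk, Derivative.normalizedDerivOfComplex]
    field_simp

end Fermat.Agent.S20Lib
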