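import Mathlib

/-!
# The `j`-invariant separates `SL₂(ℤ)`-orbits (sub-lemma [J1] of S20)

Proof: equality of `j` gives `λ ≠ 0` with `E₄ τ' = λ⁴ E₄ τ`, `E₆ τ' = λ⁶ E₆ τ`; then every level
one modular form is homogeneous, in particular all lattice Eisenstein sums of `ℤτ' + ℤ` and
`λ⁻¹(ℤτ + ℤ)` agree, hence the two Weierstrass `℘`-functions agree and so do their sets of poles.
-/

set_option autoImplicit false
set_option linter.unusedSimpArgs false

open UpperHalfPlane hiding I
open ModularForm EisensteinSeries Complex ModularFormClass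
open Filter Topology
open scoped MatrixGroups Manifold

namespace Fermat.Agent.S20Lib

theorem weierstrassPExcept_eventuallyEq (L₁ L₂ : PeriodPair)
    (h : ∀ k, 3 ≤ k → L₁.G k = L₂.G k) :
    L₁.weierstrassPExcept 0 =ᶠ[𝓝 0] L₂.weierstrassPExcept 0 := by
  have h1 := L₁.hasFPowerSeriesAt_weierstrassPExcept 0
  have h2 := L₂.hasFPowerSeriesAt_weierstrassPExcept 0
  have e : (fun i : ℕ ↦ if i = 0 then L₁.weierstrassPExcept 0 0
        else (i + 1) * L₁.sumInvPow 0 (i + 2)) =
      (fun i : ℕ ↦ if i = 0 then L₂.weierstrassPExcept 0 0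
        else (i + 1) * L₂.sumInvPow 0 (i + 2)) := by
    funext i
    by_cases hi : i = 0
    · simp [hi]
    · simp only [hi, if_false, PeriodPair.sumInvPow_zero]
      rw [h (i + 2) (by omega)]
  rw [e] at h1
  have h1' := h1.eventually_hasSum
  have h2' := h2.eventually_hasSum
  have : ∀ᶠ y in 𝓝 (0 : ℂ), L₁.weierstrassPExcept 0 (0 + y) = L₂.weierstrassPExcept 0 (0 + y) := by
    filter_upwards [h1', h2'] with y hy1 hy2
    exact hy1.unique hy2
  simp only [zero_add] at this
  exact this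

theorem weierstrassP_eventuallyEq (L₁ L₂ : PeriodPair)
    (h : ∀ k, 3 ≤ k → L₁.G k = L₂.G k) :
    L₁.weierstrassP =ᶠ[𝓝 0] L₂.weierstrassP := by
  filter_upwards [weierstrassPExcept_eventuallyEq L₁ L₂ h] with z hz
  have e1 := L₁.weierstrassPExcept_add 0 z
  have e2 := L₂.weierstrassPExcept_add 0 z
  simp only [ZeroMemClass.coe_zero] at e1 e2
  rw [← e1, ← e2, hz]

theorem countable_lattice (L : PeriodPair) : (L.lattice : Set ℂ).Countable := by
  have : Countable L.lattice := L.latticeEquivProd.toEquiv.countable_iff.mpr inferInstance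
  exact Set.countable_coe_iff.mp this

theorem weierstrassP_eqOn (L₁ L₂ : PeriodPair)
    (h : ∀ k, 3 ≤ k → L₁.G k = L₂.G k) :
    Set.EqOn L₁.weierstrassP L₂.weierstrassP ((L₁.lattice : Set ℂ) ∪ L₂.lattice)ᶜ := by
  have hconn : IsPreconnected ((L₁.lattice : Set ℂ) ∪ L₂.lattice)ᶜ :=
    (Set.Countable.isPathConnected_compl_of_one_lt_rank
      (by rw [Complex.rank_real_complex]; norm_num)
      ((countable_lattice L₁).union (countable_lattice L₂))).isConnected.isPreconnected
  have hev := (weierstrassP_eventuallyEq L₁ L₂ h).eventually_nhds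
  have h1 := L₁.compl_lattice_sdiff_singleton_mem_nhds 0
  have h2 := L₂.compl_lattice_sdiff_singleton_mem_nhds 0
  have hne : ∀ᶠ z in 𝓝[≠] (0 : ℂ), z ∈ ((L₁.lattice : Set ℂ) ∪ L₂.lattice)ᶜ ∧
      L₁.weierstrassP =ᶠ[𝓝 z] L₂.weierstrassP := by
    have : ∀ᶠ z in 𝓝 (0 : ℂ), z ≠ 0 → (z ∈ ((L₁.lattice : Set ℂ) ∪ L₂.lattice)ᶜ ∧
      L₁.weierstrassP =ᶠ[𝓝 z] L₂.weierstrassP) := by
      filter_upwards [hev, h1, h2] with z hz hz1 hz2 hz0
      refine ⟨?_, hz⟩
      simp only [Set.mem_compl_iff, Set.mem_sdiff, Set.mem_singleton_iff, not_and, not_not,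
        Set.mem_union, not_or] at hz1 hz2 ⊢
      exact ⟨fun hh => hz0 (hz1 hh), fun hh => hz0 (hz2 hh)⟩
    exact eventually_nhdsWithin_iff.mpr this
  obtain ⟨z₀, hz₀U, hz₀⟩ := hne.exists
  refine AnalyticOnNhd.eqOn_of_preconnected_of_eventuallyEq
    (L₁.analyticOnNhd_weierstrassP.mono ?_) (L₂.analyticOnNhd_weierstrassP.mono ?_) hconn hz₀U hz₀
  · exact Set.compl_subset_compl.mpr Set.subset_union_left
  · exact Set.compl_subset_compl.mpr Set.subset_union_right

theorem lattice_le_of_G_eq (L₁ L₂ : PeriodPair)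
    (h : ∀ k, 3 ≤ k → L₁.G k = L₂.G k) : L₁.lattice ≤ L₂.lattice := by
  intro l hl
  by_contra hl2
  have hEq := weierstrassP_eqOn L₁ L₂ h
  have h1 := L₁.compl_lattice_sdiff_singleton_mem_nhds l
  have h2 : ((L₂.lattice : Set ℂ))ᶜ ∈ 𝓝 l := L₂.isClosed_lattice.isOpen_compl.mem_nhds hl2
  have hcongr : L₁.weierstrassP =ᶠ[𝓝[≠] l] L₂.weierstrassP := by
    apply eventually_nhdsWithin_iff.mpr
    filter_upwards [h1, h2] with z hz1 hz2 hz0
    apply hEq
    simp only [Set.mem_compl_iff, Set.mem_sdiff, Set.mem_singleton_iff, not_and, not_not,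
        Set.mem_union, not_or] at hz1 hz2 ⊢
    exact ⟨fun hh => hz0 (hz1 hh), hz2⟩
  have ho := meromorphicOrderAt_congr hcongr
  rw [L₁.order_weierstrassP l hl] at ho
  have := (L₂.analyticOnNhd_weierstrassP l hl2).meromorphicOrderAt_nonneg
  rw [← ho] at this
  exact absurd this (by decide)

theorem lattice_eq_of_G_eq (L₁ L₂ : PeriodPair)
    (h : ∀ k, 3 ≤ k → L₁.G k = L₂.G k) : L₁.lattice = L₂.lattice :=
  le_antisymm (lattice_le_of_G_eq L₁ L₂ h) (lattice_le_of_G_eq L₂ L₁ fun k hk => (h k hk).symm)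

theorem homog_aux (τ τ' : ℍ) (lam : ℂ) (hlam : lam ≠ 0)
    (h4 : E₄ τ' = lam ^ 4 * E₄ τ) (h6 : E₆ τ' = lam ^ 6 * E₆ τ) (n : ℕ) :
    ∀ (K : ℤ), K ≤ n → ∀ A : ModularForm 𝒮ℒ K, A τ' = lam ^ K * A τ := by
  have hΔ : discriminant τ' = lam ^ 12 * discriminant τ := by
    rw [discriminant_eq_E₄_cube_sub_E₆_sq, discriminant_eq_E₄_cube_sub_E₆_sq, h4, h6]
    ring
  induction n with
  | zero =>
    intro K hK A
    rcases lt_or_eq_of_le hK with hK | hK
    · have : A = 0 :=
        rank_zero_iff_forall_zero.mp (levelOne_neg_weight_rank_zero (by simpa using hK)) A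
      rw [this]; simp
    · simp only [CharP.cast_eq_zero] at hK
      subst hK
      obtain ⟨c, hc⟩ := ModularFormClass.levelOne_weight_zero_const A
      rw [hc]; simp
  | succ n ih =>
    intro K hK A
    rcases lt_or_ge K 3 with hK3 | hK3
    · rcases lt_or_ge K 1 with hK1 | hK1
      · exact ih K (by omega) A
      · have : A = 0 := by
          rcases (by omega : K = 1 ∨ K = 2) with rfl | rfl
          · exact levelOne_odd_weight_eq_zero (by decide) A
          · exact rank_zero_iff_forall_zero.mp levelOne_weight_two_rank_zero A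
        rw [this]; simp
    · rcases Int.even_or_odd K with he | ho
      swap
      · rw [levelOne_odd_weight_eq_zero ho A]; simp
      obtain ⟨m, rfl⟩ := Int.eq_ofNat_of_zero_le (by omega : 0 ≤ K)
      have hm : 3 ≤ m := by exact_mod_cast hK3
      have hme : Even m := by exact_mod_cast he
      -- a form of weight `m` with constant term 1, homogeneous
      obtain ⟨g, hg0, hg⟩ : ∃ g : ModularForm 𝒮ℒ m, (qExpansion 1 g).coeff 0 = 1 ∧
          g τ' = lam ^ (m : ℤ) * g τ := by
        rcases (by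
          obtain ⟨r, hr⟩ := hme
          omega : m = 4 ∨ m = 6 ∨ 8 ≤ m) with rfl | rfl | hm8
        · exact ⟨E₄, E_qExpansion_coeff_zero _ (by decide), by simpa using h4⟩
        · exact ⟨E₆, E_qExpansion_coeff_zero _ (by decide), by simpa using h6⟩
        · have hm' : 3 ≤ m - 4 := by omega
          have hme' : Even (m - 4) := by
            obtain ⟨r, hr⟩ := hme
            exact ⟨r - 2, by omega⟩
          refine ⟨ModularForm.mcast (by push_cast [Nat.cast_sub (by omega : 4 ≤ m)]; ring)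
            (E₄.mul (E hm')), ?_, ?_⟩
          · have : (⇑(ModularForm.mcast (Γ' := 𝒮ℒ) (b := (m : ℤ))
                (by push_cast [Nat.cast_sub (by omega : 4 ≤ m)]; ring)
                (E₄.mul (E hm'))) : ℍ → ℂ) = ⇑(E₄.mul (E hm')) := rfl
            rw [this, ModularForm.qExpansion_mul one_pos one_mem_strictPeriods_SL,
              PowerSeries.coeff_mul]
            simp [E_qExpansion_coeff_zero _ hme', E_qExpansion_coeff_zero (k := 4) (by norm_num) (by decide)]
          · have h1 := ih ((m - 4 : ℕ) : ℤ) (by push_cast at hK; omega) (E hm')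
            change E₄ τ' * E hm' τ' = lam ^ (m : ℤ) * (E₄ τ * E hm' τ)
            rw [h1, h4, zpow_natCast, zpow_natCast]
            have : lam ^ m = lam ^ 4 * lam ^ (m - 4) := by
              rw [← pow_add]; congr 1; omega
            rw [this]; ring
      set a₀ := (qExpansion 1 A).coeff 0 with ha₀
      set A₁ : ModularForm 𝒮ℒ m := A - a₀ • g with hA₁
      have hcusp : (qExpansion 1 A₁).coeff 0 = 0 :=
        (isCuspForm_iff_coeffZero_eq_zero _).mp (sub_smul_isCuspForm A g hg0)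
      set B := CuspForm.discriminantEquiv (toCuspForm A₁ hcusp) with hB
      have hBz : ∀ z : ℍ, A z = a₀ * g z + discriminant z * B z := by
        intro z
        rw [hB, discriminant_mul_discriminantEquiv_apply, toCuspForm_apply, hA₁]
        simp
      have h2 := ih ((m : ℤ) - 12) (by push_cast at hK; omega) B
      rw [hBz, hBz, hg, h2, hΔ, zpow_sub₀ hlam]
      have : lam ^ (12 : ℤ) = lam ^ 12 := by norm_cast
      rw [this]
      field_simp

/-- the period pair `(cτ, c)`. -/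
noncomputable def pps (c : ℂ) (hc : c ≠ 0) (τ : ℍ) : PeriodPair where
  ω₁ := c * τ
  ω₂ := c
  indep := by
    rw [LinearIndependent.pair_iff]
    intro s t h
    have h' : c * ((s : ℂ) * τ + t) = 0 := by
      simp only [real_smul] at h
      linear_combination h
    have h'' : (s : ℂ) * τ + t = 0 := (mul_eq_zero.mp h').resolve_left hc
    have him := congrArg Complex.im h''
    simp only [add_im, mul_im, ofReal_re, ofReal_im, zero_mul, add_zero, zero_im, coe_im] at him
    have hs : s = 0 := (mul_eq_zero.mp him).resolve_right τ.im_pos.ne'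
    subst hs
    simp only [ofReal_zero, zero_mul, zero_add, ofReal_eq_zero] at h''
    exact ⟨rfl, h''⟩

theorem G_pps (c : ℂ) (hc : c ≠ 0) (τ : ℍ) {k : ℕ} (hk : 3 ≤ k) :
    (pps c hc τ).G k = (c ^ k)⁻¹ * (riemannZeta k * (2 * E hk τ)) := by
  have hE : (2 : ℂ) * E hk τ = eisensteinSeries (N := 1) 0 k τ := by
    rw [show E hk τ = (1 / 2 : ℂ) • eisensteinSeriesSIF (N := 1) 0 k τ from rfl,
      eisensteinSeriesSIF_apply 0 k τ]
    simp
  rw [hE, ← tsum_eisSummand_eq_riemannZeta_mul_eisensteinSeries hk τ, PeriodPair.G,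
    ← tsum_mul_left]
  rw [← ((pps c hc τ).latticeEquivProd.symm.toEquiv).tsum_eq,
    ← (finTwoArrowEquiv ℤ).symm.tsum_eq (fun v : Fin 2 → ℤ => (c ^ k)⁻¹ * eisSummand k v τ)]
  refine tsum_congr fun x => ?_
  have hx : (((pps c hc τ).latticeEquivProd.symm.toEquiv x : (pps c hc τ).lattice) : ℂ) =
      x.1 * (c * τ) + x.2 * c := (pps c hc τ).latticeEquiv_symm_apply x
  rw [hx]
  simp only [eisSummand, finTwoArrowEquiv_symm_apply, Matrix.cons_val_zero, Matrix.cons_val_one,
    zpow_neg, zpow_natCast]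
  rw [← mul_inv, ← mul_pow]
  congr 2
  ring

theorem int_lin_eq_zero (τ : ℍ) (m n : ℤ) (h : (m : ℂ) * τ + n = 0) : m = 0 ∧ n = 0 := by
  have him := congrArg Complex.im h
  simp only [add_im, mul_im, intCast_re, intCast_im, zero_mul, add_zero, zero_im, coe_im] at him
  have hm : (m : ℝ) = 0 := (mul_eq_zero.mp him).resolve_right τ.im_pos.ne'
  have hm' : m = 0 := by exact_mod_cast hm
  subst hm'
  simp only [Int.cast_zero, zero_mul, zero_add] at h
  exact ⟨rfl, by exact_mod_cast h⟩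

theorem exists_SL2_of_rel (c : ℂ) (hc : c ≠ 0) (τ τ' : ℍ) (a b g d a' b' g' d' : ℤ)
    (h1 : (a : ℂ) * (c * τ) + b * c = τ') (h2 : (g : ℂ) * (c * τ) + d * c = 1)
    (h3 : (a' : ℂ) * τ' + b' = c * τ) (h4 : (g' : ℂ) * τ' + d' = c) :
    ∃ γ : SL(2, ℤ), γ • τ = τ' := by
  -- matrix relations
  have e1 : ((a * a' + b * g' - 1 : ℤ) : ℂ) * τ' + ((a * b' + b * d' : ℤ) : ℂ) = 0 := by
    push_cast
    rw [← h3, ← h4] at h1
    linear_combination h1
  have e2 : ((g * a' + d * g' : ℤ) : ℂ) * τ' + ((g * b' + d * d' - 1 : ℤ) : ℂ) = 0 := by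
    push_cast
    rw [← h3, ← h4] at h2
    linear_combination h2
  obtain ⟨r1, r2⟩ := int_lin_eq_zero τ' _ _ e1
  obtain ⟨r3, r4⟩ := int_lin_eq_zero τ' _ _ e2
  have hdet : (a * d - b * g) * (a' * d' - b' * g') = 1 := by
    linear_combination (g * b' + d * d') * r1 - (g * a' + d * g') * r2 - 0 * r3 + r4
  have hrel : (τ' : ℂ) * (g * τ + d) = a * τ + b := by
    have : c * ((τ' : ℂ) * (g * τ + d)) = c * (a * τ + b) := by
      linear_combination (τ' : ℂ) * h2 - h1
    exact mul_left_cancel₀ hc this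
  have hre := congrArg Complex.re hrel
  have him := congrArg Complex.im hrel
  simp only [add_im, mul_im, add_re, mul_re, intCast_re, intCast_im, zero_mul, add_zero, sub_zero,
    coe_im, coe_re] at hre him
  have hkey : τ'.im * ((g * τ.re + d) ^ 2 + (g * τ.im) ^ 2) = ((a * d - b * g : ℤ) : ℝ) * τ.im := by
    push_cast
    linear_combination (g * τ.re + d) * him - (g * τ.im) * hre
  have hdet1 : a * d - b * g = 1 := by
    rcases Int.isUnit_iff.mp (IsUnit.of_mul_eq_one _ hdet) with h | h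
    · exact h
    · exfalso
      rw [h] at hkey
      have h1 := τ.im_pos
      have h2 := τ'.im_pos
      have : 0 ≤ τ'.im * ((g * τ.re + d) ^ 2 + (g * τ.im) ^ 2) := by positivity
      rw [hkey] at this
      push_cast at this
      linarith
  refine ⟨⟨!![a, b; g, d], by rw [Matrix.det_fin_two_of]; exact hdet1⟩, ?_⟩
  apply UpperHalfPlane.ext
  rw [coe_specialLinearGroup_apply]
  simp only [Matrix.SpecialLinearGroup.coe_mk, Matrix.of_apply, Matrix.cons_val', Matrix.cons_val_zero,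
    Matrix.cons_val_one, Matrix.cons_val_fin_one, algebraMap_int_eq, Int.coe_castRingHom, ofReal_intCast]
  have hne : (g : ℂ) * τ + d ≠ 0 := by
    intro h0
    apply one_ne_zero (α := ℂ)
    rw [← h2]
    linear_combination c * h0
  rw [div_eq_iff hne, hrel]

theorem exists_lam (a b a' b' : ℂ) (hD : a ^ 3 - b ^ 2 ≠ 0) (hD' : a' ^ 3 - b' ^ 2 ≠ 0)
    (h : a ^ 3 * b' ^ 2 = a' ^ 3 * b ^ 2) :
    ∃ lam : ℂ, lam ≠ 0 ∧ a' = lam ^ 4 * a ∧ b' = lam ^ 6 * b := by
  by_cases ha : a = 0
  · subst ha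
    have hb : b ≠ 0 := by
      rintro rfl; simp at hD
    have ha' : a' = 0 := by
      have : a' ^ 3 * b ^ 2 = 0 := by rw [← h]; simp
      have := (mul_eq_zero.mp this).resolve_right (pow_ne_zero 2 hb)
      exact pow_eq_zero_iff (by norm_num) |>.mp this
    subst ha'
    have hb' : b' ≠ 0 := by
      rintro rfl; simp at hD'
    obtain ⟨z, hz⟩ := IsAlgClosed.exists_pow_nat_eq (b' / b) (n := 6) (by norm_num)
    refine ⟨z, ?_, by simp, ?_⟩
    · rintro rfl
      simp only [ne_eq, OfNat.ofNat_ne_zero, not_false_eq_true, zero_pow] at hz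
      exact (div_ne_zero hb' hb) hz.symm
    · rw [hz]; field_simp
  by_cases hb : b = 0
  · subst hb
    have hb' : b' = 0 := by
      have : a ^ 3 * b' ^ 2 = 0 := by rw [h]; simp
      have := (mul_eq_zero.mp this).resolve_left (pow_ne_zero 3 ha)
      exact pow_eq_zero_iff (by norm_num) |>.mp this
    subst hb'
    have ha' : a' ≠ 0 := by
      rintro rfl; simp at hD'
    obtain ⟨z, hz⟩ := IsAlgClosed.exists_pow_nat_eq (a' / a) (n := 4) (by norm_num)
    refine ⟨z, ?_, ?_, by simp⟩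
    · rintro rfl
      simp only [ne_eq, OfNat.ofNat_ne_zero, not_false_eq_true, zero_pow] at hz
      exact (div_ne_zero ha' ha) hz.symm
    · rw [hz]; field_simp
  have ha' : a' ≠ 0 := by
    rintro rfl
    have : a ^ 3 * b' ^ 2 = 0 := by rw [h]; simp
    have := (mul_eq_zero.mp this).resolve_left (pow_ne_zero 3 ha)
    have hb' : b' = 0 := pow_eq_zero_iff (by norm_num) |>.mp this
    subst hb'
    simp at hD'
  have hb' : b' ≠ 0 := by
    rintro rfl
    have : a' ^ 3 * b ^ 2 = 0 := by rw [← h]; simp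
    have := (mul_eq_zero.mp this).resolve_right (pow_ne_zero 2 hb)
    exact ha' (pow_eq_zero_iff (by norm_num) |>.mp this)
  obtain ⟨z, hz⟩ := IsAlgClosed.exists_pow_nat_eq ((b' * a) / (b * a')) (n := 2) (by norm_num)
  have h4 : z ^ 4 = a' / a := by
    have : z ^ 4 = (z ^ 2) ^ 2 := by ring
    rw [this, hz]
    field_simp
    linear_combination h
  refine ⟨z, ?_, ?_, ?_⟩
  · rintro rfl
    simp only [ne_eq, OfNat.ofNat_ne_zero, not_false_eq_true, zero_pow] at hz
    exact (div_ne_zero (mul_ne_zero hb' ha) (mul_ne_zero hb ha')) hz.symm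
  · rw [h4]; field_simp
  · have : z ^ 6 = z ^ 4 * z ^ 2 := by ring
    rw [this, h4, hz]; field_simp

/-- [J1] the `j`-invariant separates `SL₂(ℤ)`-orbits. -/
theorem j_sep (τ τ' : ℍ)
    (h : E₄ τ ^ 3 * discriminant τ' = E₄ τ' ^ 3 * discriminant τ) :
    ∃ γ : SL(2, ℤ), γ • τ = τ' := by
  have hD := discriminant_ne_zero τ
  have hD' := discriminant_ne_zero τ'
  rw [discriminant_eq_E₄_cube_sub_E₆_sq] at h hD hD'
  rw [discriminant_eq_E₄_cube_sub_E₆_sq] at h
  obtain ⟨lam, hlam, h4, h6⟩ := exists_lam (E₄ τ) (E₆ τ) (E₄ τ') (E₆ τ')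
    (fun h0 => hD (by rw [h0]; simp)) (fun h0 => hD' (by rw [h0]; simp))
    (by linear_combination (-1728 : ℂ) * h)
  have hinv : lam⁻¹ ≠ 0 := inv_ne_zero hlam
  have hG : ∀ k, 3 ≤ k → (pps 1 one_ne_zero τ').G k = (pps lam⁻¹ hinv τ).G k := by
    intro k hk
    rw [G_pps _ _ _ hk, G_pps _ _ _ hk,
      homog_aux τ τ' lam hlam h4 h6 k k le_rfl (E hk), zpow_natCast]
    simp only [one_pow, inv_one, one_mul, inv_pow, inv_inv]
    ring
  have hL := lattice_eq_of_G_eq _ _ hG
  obtain ⟨a, b, h1⟩ := PeriodPair.mem_lattice.mp (hL ▸ (pps 1 one_ne_zero τ').ω₁_mem_lattice)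
  obtain ⟨g, d, h2⟩ := PeriodPair.mem_lattice.mp (hL ▸ (pps 1 one_ne_zero τ').ω₂_mem_lattice)
  obtain ⟨a', b', h3⟩ := PeriodPair.mem_lattice.mp (hL ▸ (pps lam⁻¹ hinv τ).ω₁_mem_lattice)
  obtain ⟨g', d', h4'⟩ := PeriodPair.mem_lattice.mp (hL ▸ (pps lam⁻¹ hinv τ).ω₂_mem_lattice)
  simp only [pps, one_mul, mul_one] at h1 h2 h3 h4'
  exact exists_SL2_of_rel lam⁻¹ hinv τ τ' a b g d a' b' g' d' h1 h2 h3 h4'

end Fermat.Agent.S20Lib
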