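import Fermat.Agent.S20.Defs
import Fermat.Agent.S20.JSep
import Fermat.Agent.S20.Bracket

/-!
# Elliptic points: local behaviour of `j` ([G-F3] of S20)
-/

set_option autoImplicit false
open UpperHalfPlane hiding I
open ModularForm EisensteinSeries Complex Filter Topology CongruenceSubgroup
open scoped MatrixGroups Manifold

namespace Fermat.Agent.S20Lib

theorem mf_smul {k : ℤ} (f : ModularForm 𝒮ℒ k) (γ : SL(2, ℤ)) (z : ℍ) :
    f (γ • z) = (denom (γ : GL (Fin 2) ℝ) z) ^ k * f z :=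
  SlashInvariantForm.slash_action_eqn'' f (⟨γ, rfl⟩ : (γ : GL (Fin 2) ℝ) ∈ 𝒮ℒ) z

theorem tendsto_coe_lAt (τ0 : ℍ) : Tendsto (fun τ : ℍ => (τ : ℂ)) (lAt τ0) (𝓝[≠] (τ0 : ℂ)) := by
  rw [tendsto_nhdsWithin_iff]
  refine ⟨(continuous_coe.tendsto τ0).mono_left nhdsWithin_le_nhds, ?_⟩
  filter_upwards [self_mem_nhdsWithin] with τ hτ
  intro h
  apply hτ
  simp only [Set.mem_singleton_iff] at h ⊢
  exact UpperHalfPlane.ext h

theorem lead_of_hasDerivAt (f : ℍ → ℂ) (τ0 : ℍ) (c : ℂ) (h : HasDerivAt (f ∘ ofComplex) c τ0) :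
    Lead (lAt τ0) (uAt τ0) (fun τ => f τ - f τ0) 1 c := by
  unfold Lead
  have h1 := (hasDerivAt_iff_tendsto_slope.mp h).comp (tendsto_coe_lAt τ0)
  refine h1.congr fun τ => ?_
  simp only [Function.comp_apply, slope, uAt, ofComplex_apply, vsub_eq_sub, zpow_neg, zpow_one]

theorem mf_hasDerivAt {k : ℤ} (f : ModularForm 𝒮ℒ k) (τ0 : ℍ) :
    HasDerivAt (⇑f ∘ ofComplex) (deriv (⇑f ∘ ofComplex) τ0) τ0 :=
  (UpperHalfPlane.mdifferentiableAt_iff.mp (f.holo' τ0)).hasDerivAt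

theorem mf_tendsto_lAt {k : ℤ} (f : ModularForm 𝒮ℒ k) (τ0 : ℍ) :
    Tendsto (fun τ => f τ) (lAt τ0) (𝓝 (f τ0)) :=
  ((f.holo'.continuous).tendsto τ0).mono_left nhdsWithin_le_nhds

theorem disc_tendsto_lAt (τ0 : ℍ) :
    Tendsto (fun τ => discriminant τ) (lAt τ0) (𝓝 (discriminant τ0)) :=
  ((CuspForm.discriminant.holo'.continuous).tendsto τ0).mono_left nhdsWithin_le_nhds

theorem jF_sub (τ τ0 : ℍ) : jF τ - jF τ0 =
    (E₄ τ0 ^ 3 * E₆ τ ^ 2 - E₆ τ0 ^ 2 * E₄ τ ^ 3) *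
      (1728 * discriminant τ * discriminant τ0)⁻¹ := by
  have h1 := discriminant_ne_zero τ
  have h2 := discriminant_ne_zero τ0
  have e1 := discriminant_eq_E₄_cube_sub_E₆_sq τ
  have e2 := discriminant_eq_E₄_cube_sub_E₆_sq τ0
  unfold jF
  field_simp
  rw [e1, e2]
  ring

theorem jF_lead_of (τ0 : ℍ) (e : ℤ) (c : ℂ)
    (h : Lead (lAt τ0) (uAt τ0) (fun τ => E₄ τ0 ^ 3 * E₆ τ ^ 2 - E₆ τ0 ^ 2 * E₄ τ ^ 3) e c) :
    Lead (lAt τ0) (uAt τ0) (fun τ => jF τ - jF τ0) e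
      (c * (1728 * discriminant τ0 * discriminant τ0)⁻¹) := by
  have h2 := discriminant_ne_zero τ0
  have h1 : Lead (lAt τ0) (uAt τ0)
      (fun τ => (1728 * discriminant τ * discriminant τ0)⁻¹) 0
      ((1728 * discriminant τ0 * discriminant τ0)⁻¹) := by
    apply Lead.of_tendsto
    apply Tendsto.inv₀
    · exact ((disc_tendsto_lAt τ0).const_mul 1728).mul_const _
    · exact mul_ne_zero (mul_ne_zero (by norm_num) h2) h2
  have := h.mul (uAt_ne_zero τ0) h1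
  rw [add_zero] at this
  exact this.congr' (Eventually.of_forall fun τ => (jF_sub τ τ0).symm)

theorem ellData_generic (τ0 : ℍ) (h4 : E₄ τ0 ≠ 0) (h6 : E₆ τ0 ≠ 0) : EllData τ0 1 1 1 := by
  refine ⟨one_smul _ _, ?_, IsPrimitiveRoot.one, by norm_num, ?_⟩
  · simp [denom]
  obtain ⟨c, hc, hbr⟩ := bracket_E4_E6
  have hD := discriminant_ne_zero τ0
  set a := E₄ τ0 with ha
  set b := E₆ τ0 with hb
  have d4 := mf_hasDerivAt E₄ τ0
  have d6 := mf_hasDerivAt E₆ τ0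
  set a' := deriv (⇑E₄ ∘ ofComplex) τ0 with ha'
  set b' := deriv (⇑E₆ ∘ ofComplex) τ0 with hb'
  have hG : HasDerivAt ((fun τ : ℍ => a ^ 3 * E₆ τ ^ 2 - b ^ 2 * E₄ τ ^ 3) ∘ ofComplex)
      (a ^ 3 * (2 * b * b') - b ^ 2 * (3 * a ^ 2 * a')) τ0 := by
    have h1 := ((d6.pow 2).const_mul (a ^ 3)).sub ((d4.pow 3).const_mul (b ^ 2))
    refine h1.congr_deriv ?_
    simp only [Function.comp_apply, ofComplex_apply, ← ha, ← hb]
    norm_num
  have hl := lead_of_hasDerivAt _ τ0 _ hG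
  have hz : a ^ 3 * E₆ τ0 ^ 2 - b ^ 2 * E₄ τ0 ^ 3 = 0 := by
    rw [← ha, ← hb]; ring
  simp only [hz, sub_zero] at hl
  refine ⟨_, ?_, by exact_mod_cast jF_lead_of τ0 1 _ hl⟩
  have hbr' := hbr τ0
  rw [← ha, ← hb, ← ha', ← hb'] at hbr'
  have : a ^ 3 * (2 * b * b') - b ^ 2 * (3 * a ^ 2 * a') = a ^ 2 * b * (c * discriminant τ0) := by
    rw [← hbr']; ring
  rw [this]
  exact mul_ne_zero (mul_ne_zero (mul_ne_zero (pow_ne_zero 2 h4) h6) (mul_ne_zero hc hD))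
    (inv_ne_zero (mul_ne_zero (mul_ne_zero (by norm_num) hD) hD))

/-! ### the point `i` -/

theorem S_smul_I : ModularGroup.S • UpperHalfPlane.I = UpperHalfPlane.I := by
  rw [modular_S_smul, UpperHalfPlane.ext_iff]
  simp

theorem denom_S_I : denom (ModularGroup.S : GL (Fin 2) ℝ) UpperHalfPlane.I = Complex.I := by
  rw [ModularGroup.denom_S]; rfl

theorem E6_I : E₆ UpperHalfPlane.I = 0 := by
  have h := mf_smul E₆ ModularGroup.S UpperHalfPlane.I
  rw [S_smul_I, denom_S_I] at h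
  have h6 : (Complex.I : ℂ) ^ (6 : ℤ) = -1 := by
    have : (Complex.I : ℂ) ^ (6 : ℤ) = Complex.I ^ (6 : ℕ) := by norm_cast
    rw [this, show (6 : ℕ) = 2 * 3 by norm_num, pow_mul, Complex.I_sq]; norm_num
  have h' : E₆ UpperHalfPlane.I = (Complex.I : ℂ) ^ (6 : ℤ) * E₆ UpperHalfPlane.I := h
  rw [h6] at h'
  have : (2 : ℂ) * E₆ UpperHalfPlane.I = 0 := by linear_combination h'
  simpa using this

theorem jF_I : jF UpperHalfPlane.I = 1728 := by
  have hD := discriminant_ne_zero UpperHalfPlane.I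
  have e := discriminant_eq_E₄_cube_sub_E₆_sq UpperHalfPlane.I
  rw [E6_I] at e
  unfold jF
  rw [div_eq_iff hD, e]
  ring

theorem ellData_I : EllData UpperHalfPlane.I ModularGroup.S 2 (-1) := by
  refine ⟨S_smul_I, ?_, ?_, by norm_num, ?_⟩
  · rw [denom_S_I]
    have : (Complex.I : ℂ) ^ (-2 : ℤ) = (Complex.I ^ (2 : ℕ))⁻¹ := by
      rw [zpow_neg]; norm_cast
    rw [this, Complex.I_sq]; norm_num
  · exact IsPrimitiveRoot.neg_one 0 (by norm_num)
  obtain ⟨c, hc, hbr⟩ := bracket_E4_E6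
  have hD := discriminant_ne_zero UpperHalfPlane.I
  have hbr' := hbr UpperHalfPlane.I
  rw [E6_I] at hbr'
  set b' := deriv (⇑E₆ ∘ ofComplex) UpperHalfPlane.I with hb'
  have hne : E₄ UpperHalfPlane.I ≠ 0 ∧ b' ≠ 0 := by
    have : 2 * E₄ UpperHalfPlane.I * b' ≠ 0 := by
      have e : 2 * E₄ UpperHalfPlane.I * b' = c * discriminant UpperHalfPlane.I := by
        linear_combination hbr'
      rw [e]; exact mul_ne_zero hc hD
    exact ⟨fun h => this (by rw [h]; ring), fun h => this (by rw [h]; ring)⟩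
  have hl := lead_of_hasDerivAt _ UpperHalfPlane.I _ (mf_hasDerivAt E₆ UpperHalfPlane.I)
  simp only [E6_I, sub_zero] at hl
  have hl2 := ((hl.pow (uAt_ne_zero _) 2).const_smul (E₄ UpperHalfPlane.I ^ 3))
  have hl3 : Lead (lAt UpperHalfPlane.I) (uAt UpperHalfPlane.I)
      (fun τ => E₄ UpperHalfPlane.I ^ 3 * E₆ τ ^ 2 - E₆ UpperHalfPlane.I ^ 2 * E₄ τ ^ 3) 2
      (E₄ UpperHalfPlane.I ^ 3 * b' ^ 2) := by
    refine hl2.congr' (Eventually.of_forall fun τ => ?_)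
    simp [E6_I]
  refine ⟨_, ?_, by exact_mod_cast jF_lead_of _ 2 _ hl3⟩
  exact mul_ne_zero (mul_ne_zero (pow_ne_zero 3 hne.1) (pow_ne_zero 2 hne.2))
    (inv_ne_zero (mul_ne_zero (mul_ne_zero (by norm_num) hD) hD))

/-! ### the point `ρ` -/

theorem rho_rel : (ellRho : ℂ) ^ 2 + (ellRho : ℂ) + 1 = 0 := by
  have h3 : ((Real.sqrt 3 : ℝ) : ℂ) ^ 2 = 3 := by
    norm_cast
    simp
  have : (ellRho : ℂ) = -1 / 2 + (Real.sqrt 3 / 2) * Complex.I := rfl
  rw [this]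
  linear_combination (Complex.I ^ 2 / 4) * h3 + (3 / 4) * Complex.I_sq

theorem rho_ne_zero : (ellRho : ℂ) ≠ 0 := by
  intro h
  have := rho_rel
  rw [h] at this
  norm_num at this

theorem rho_isPrimitiveRoot : IsPrimitiveRoot (ellRho : ℂ) 3 := by
  have h := rho_rel
  refine IsPrimitiveRoot.mk_of_lt _ (by norm_num) (by linear_combination ((ellRho : ℂ) - 1) * h) ?_
  intro l hl0 hl3 hl
  interval_cases l
  · rw [pow_one] at hl
    rw [hl] at h
    norm_num at h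
  · have h2 : (ellRho : ℂ) = -2 := by linear_combination h - hl
    rw [h2] at h
    norm_num at h

theorem ST_entries : (ModularGroup.S * ModularGroup.T : SL(2, ℤ)) 0 0 = 0 ∧
    (ModularGroup.S * ModularGroup.T : SL(2, ℤ)) 0 1 = -1 ∧
    (ModularGroup.S * ModularGroup.T : SL(2, ℤ)) 1 0 = 1 ∧
    (ModularGroup.S * ModularGroup.T : SL(2, ℤ)) 1 1 = 1 := by
  simp [ModularGroup.S, ModularGroup.T, Matrix.mul_apply, Fin.sum_univ_two]

theorem rho_add_one_ne_zero : (ellRho : ℂ) + 1 ≠ 0 := by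
  intro h
  have h1 : (ellRho : ℂ) = -1 := by linear_combination h
  have := rho_rel
  rw [h1] at this
  norm_num at this

theorem ST_smul_rho : (ModularGroup.S * ModularGroup.T) • ellRho = ellRho := by
  apply UpperHalfPlane.ext
  rw [coe_specialLinearGroup_apply]
  obtain ⟨h00, h01, h10, h11⟩ := ST_entries
  rw [h00, h01, h10, h11]
  simp only [algebraMap_int_eq, Int.coe_castRingHom, Int.cast_zero, Int.cast_neg, Int.cast_one,
    ofReal_zero, ofReal_neg, ofReal_one, zero_mul, zero_add, one_mul]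
  rw [div_eq_iff rho_add_one_ne_zero]
  linear_combination -rho_rel

theorem denom_ST_rho :
    denom ((ModularGroup.S * ModularGroup.T : SL(2, ℤ)) : GL (Fin 2) ℝ) ellRho =
      (ellRho : ℂ) + 1 := by
  rw [denom]
  simp [Matrix.mul_apply, Fin.sum_univ_two]

theorem E4_rho : E₄ ellRho = 0 := by
  have h := mf_smul E₄ (ModularGroup.S * ModularGroup.T) ellRho
  rw [ST_smul_rho, denom_ST_rho] at h
  have h4 : ((ellRho : ℂ) + 1) ^ (4 : ℤ) = (ellRho : ℂ) ^ 2 := by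
    have : ((ellRho : ℂ) + 1) ^ (4 : ℤ) = ((ellRho : ℂ) + 1) ^ (4 : ℕ) := by norm_cast
    rw [this]
    linear_combination ((ellRho : ℂ) ^ 2 + 3 * (ellRho : ℂ) + 1) * rho_rel
  have h' : E₄ ellRho = ((ellRho : ℂ) + 1) ^ (4 : ℤ) * E₄ ellRho := h
  rw [h4] at h'
  have hne : (1 - (ellRho : ℂ) ^ 2) ≠ 0 := by
    intro h0
    exact rho_isPrimitiveRoot.pow_ne_one_of_pos_of_lt (by norm_num) (by norm_num : 2 < 3)
      (by linear_combination -h0)
  have : (1 - (ellRho : ℂ) ^ 2) * E₄ ellRho = 0 := by linear_combination h'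
  exact (mul_eq_zero.mp this).resolve_left hne

theorem jF_rho : jF ellRho = 0 := by
  unfold jF
  rw [E4_rho]; simp

theorem ellData_rho : ∃ ε, EllData ellRho (ModularGroup.S * ModularGroup.T) 3 ε := by
  refine ⟨_, ST_smul_rho, rfl, ?_, by norm_num, ?_⟩
  · rw [denom_ST_rho]
    have : ((ellRho : ℂ) + 1) ^ (-2 : ℤ) = (ellRho : ℂ)⁻¹ := by
      rw [zpow_neg]
      congr 1
      have : ((ellRho : ℂ) + 1) ^ (2 : ℤ) = ((ellRho : ℂ) + 1) ^ (2 : ℕ) := by norm_cast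
      rw [this]
      linear_combination rho_rel
    rw [this]
    exact rho_isPrimitiveRoot.inv
  obtain ⟨c, hc, hbr⟩ := bracket_E4_E6
  have hD := discriminant_ne_zero ellRho
  have hbr' := hbr ellRho
  rw [E4_rho] at hbr'
  set a' := deriv (⇑E₄ ∘ ofComplex) ellRho with ha'
  have hne : E₆ ellRho ≠ 0 ∧ a' ≠ 0 := by
    have : 3 * E₆ ellRho * a' ≠ 0 := by
      have e : 3 * E₆ ellRho * a' = - (c * discriminant ellRho) := by
        linear_combination -hbr'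
      rw [e]; exact neg_ne_zero.mpr (mul_ne_zero hc hD)
    exact ⟨fun h => this (by rw [h]; ring), fun h => this (by rw [h]; ring)⟩
  have hl := lead_of_hasDerivAt _ ellRho _ (mf_hasDerivAt E₄ ellRho)
  simp only [E4_rho, sub_zero] at hl
  have hl2 := ((hl.pow (uAt_ne_zero _) 3).const_smul (- E₆ ellRho ^ 2))
  have hl3 : Lead (lAt ellRho) (uAt ellRho)
      (fun τ => E₄ ellRho ^ 3 * E₆ τ ^ 2 - E₆ ellRho ^ 2 * E₄ τ ^ 3) 3
      (- E₆ ellRho ^ 2 * a' ^ 3) := by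
    refine hl2.congr' (Eventually.of_forall fun τ => ?_)
    simp [E4_rho]
  refine ⟨_, ?_, by exact_mod_cast jF_lead_of _ 3 _ hl3⟩
  exact mul_ne_zero (mul_ne_zero (neg_ne_zero.mpr (pow_ne_zero 2 hne.1)) (pow_ne_zero 3 hne.2))
    (inv_ne_zero (mul_ne_zero (mul_ne_zero (by norm_num) hD) hD))

theorem orbit_cases (τ0 : ℍ) : (E₄ τ0 ≠ 0 ∧ E₆ τ0 ≠ 0) ∨ (∃ γ : SL(2, ℤ), γ • τ0 = UpperHalfPlane.I)
    ∨ (∃ γ : SL(2, ℤ), γ • τ0 = ellRho) := by
  by_cases h4 : E₄ τ0 = 0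
  · right; right
    apply j_sep
    rw [h4, E4_rho]; ring
  by_cases h6 : E₆ τ0 = 0
  · right; left
    apply j_sep
    rw [discriminant_eq_E₄_cube_sub_E₆_sq, discriminant_eq_E₄_cube_sub_E₆_sq, h6, E6_I]
    ring
  · exact Or.inl ⟨h4, h6⟩

end Fermat.Agent.S20Lib
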