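import Fermat.Agent.S20.Defs
import Fermat.Agent.S20.JBasic
import Fermat.Agent.S20.Ell

/-!
# Local analysis at a point of the upper half plane ([G-F1] of S20)
-/

set_option autoImplicit false
open UpperHalfPlane hiding I
open ModularForm EisensteinSeries Complex Filter Topology CongruenceSubgroup
open scoped MatrixGroups Manifold

namespace Fermat.Agent.S20Lib

/-- A holomorphic function on `ℍ` is either zero or has a finite order at `τ0`. -/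
theorem scalar_ord_at (τ0 : ℍ) {f : ℍ → ℂ} (hf : MDiff f) :
    f = 0 ∨ ∃ (n : ℕ) (a : ℂ), a ≠ 0 ∧ Lead (lAt τ0) (uAt τ0) f n a := by
  have hd : DifferentiableOn ℂ (f ∘ ofComplex) {z : ℂ | 0 < z.im} :=
    UpperHalfPlane.mdifferentiable_iff.mp hf
  have hopen : IsOpen {z : ℂ | 0 < z.im} := isOpen_lt continuous_const Complex.continuous_im
  have han : AnalyticOnNhd ℂ (f ∘ ofComplex) {z : ℂ | 0 < z.im} := hd.analyticOnNhd hopen
  have hτ0 : (τ0 : ℂ) ∈ {z : ℂ | 0 < z.im} := τ0.im_pos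
  have ha0 := han _ hτ0
  by_cases htop : analyticOrderAt (f ∘ ofComplex) (τ0 : ℂ) = ⊤
  · left
    rw [analyticOrderAt_eq_top] at htop
    have hconn : IsPreconnected {z : ℂ | 0 < z.im} :=
      (convex_halfSpace_im_gt 0).isPreconnected
    have h0 := han.eqOn_zero_of_preconnected_of_eventuallyEq_zero hconn hτ0 htop
    funext τ
    have := h0 τ.im_pos
    simpa using this
  · right
    obtain ⟨n, hn⟩ := ENat.ne_top_iff_exists.mp htop
    obtain ⟨g, hg, hg0, hev⟩ := (ha0.analyticOrderAt_eq_natCast).mp hn.symm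
    refine ⟨n, g τ0, hg0, ?_⟩
    unfold Lead
    have h1 : Tendsto (fun τ : ℍ => g (τ : ℂ)) (lAt τ0) (𝓝 (g τ0)) :=
      (hg.continuousAt.tendsto.mono_left nhdsWithin_le_nhds).comp (tendsto_coe_lAt τ0)
    refine h1.congr' ?_
    have h2 : ∀ᶠ τ : ℍ in lAt τ0, (f ∘ ofComplex) (τ : ℂ) = ((τ : ℂ) - τ0) ^ n • g (τ : ℂ) :=
      ((tendsto_coe_lAt τ0).mono_right nhdsWithin_le_nhds).eventually hev
    filter_upwards [h2, uAt_ne_zero τ0] with τ hτ hu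
    simp only [Function.comp_apply, ofComplex_apply] at hτ
    rw [hτ]
    unfold uAt at hu ⊢
    rw [smul_smul, zpow_neg, zpow_natCast, inv_mul_cancel₀ (pow_ne_zero _ hu), one_smul]

theorem exists_ord_at (N : ℕ) [NeZero N] (τ0 : ℍ) {F : ℍ → X0 N → ℂ}
    (hF : ∀ x, MDiff (fun τ => F τ x)) (h0 : F ≠ 0) :
    ∃ m, 0 ≤ m ∧ HasOrd (lAt τ0) (uAt τ0) F m := by
  classical
  -- the set of possible orders
  let P : ℕ → Prop := fun n => ∃ x, ∃ a : ℂ, a ≠ 0 ∧ Lead (lAt τ0) (uAt τ0) (fun τ => F τ x) n a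
  have hex : ∃ n, P n := by
    by_contra hcon
    apply h0
    funext τ x
    rcases scalar_ord_at τ0 (hF x) with h | ⟨n, a, ha, hl⟩
    · exact congrFun h τ
    · exact absurd ⟨n, x, a, ha, hl⟩ hcon
  let m := Nat.find hex
  have hm : P m := Nat.find_spec hex
  have hmin : ∀ k, P k → m ≤ k := fun k hk => Nat.find_min' hex hk
  have hall : ∀ x, ∃ a : ℂ, Lead (lAt τ0) (uAt τ0) (fun τ => F τ x) m a := by
    intro x
    rcases scalar_ord_at τ0 (hF x) with h | ⟨n, a, ha, hl⟩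
    · refine ⟨0, ?_⟩
      rw [h]
      exact Lead.zero
    · have hmn : m ≤ n := hmin n ⟨x, a, ha, hl⟩
      rcases hmn.lt_or_eq with h | h
      · exact ⟨0, hl.of_lt (uAt_ne_zero τ0) (uAt_tendsto τ0) (by exact_mod_cast h)⟩
      · exact ⟨a, by rw [h]; exact hl⟩
  choose A hA using hall
  refine ⟨m, by positivity, A, ?_, Lead.of_apply hA⟩
  obtain ⟨x, a, ha, hl⟩ := hm
  intro hA0
  have := (hA x).unique hl
  rw [hA0] at this
  exact ha this.symm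

theorem tendsto_smul_lAt {τ0 : ℍ} {σ : SL(2, ℤ)} (h : σ • τ0 = τ0) :
    Tendsto (fun τ : ℍ => σ • τ) (lAt τ0) (lAt τ0) := by
  rw [tendsto_nhdsWithin_iff]
  constructor
  · have hc : Continuous (fun τ : ℍ => σ • τ) := continuous_const_smul (σ : GL (Fin 2) ℝ)
    have := (hc.tendsto τ0).mono_left (nhdsWithin_le_nhds (s := {τ0}ᶜ))
    rwa [h] at this
  · filter_upwards [self_mem_nhdsWithin] with τ hτ
    intro h2
    apply hτ
    simp only [Set.mem_singleton_iff] at h2 ⊢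
    have : σ • τ = σ • τ0 := by rw [h2, h]
    exact smul_left_cancel σ this

theorem denom_eq_int (σ : SL(2, ℤ)) (τ : ℍ) :
    denom (σ : GL (Fin 2) ℝ) τ = (σ 1 0 : ℂ) * τ + (σ 1 1 : ℂ) := by
  rw [denom]
  simp

theorem uAt_smul {τ0 : ℍ} {σ : SL(2, ℤ)} (h : σ • τ0 = τ0) (τ : ℍ) :
    uAt τ0 (σ • τ) = uAt τ0 τ *
      (denom (σ : GL (Fin 2) ℝ) τ * denom (σ : GL (Fin 2) ℝ) τ0)⁻¹ := by
  have hd1 : denom (σ : GL (Fin 2) ℝ) τ ≠ 0 := denom_ne_zero _ _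
  have hd2 : denom (σ : GL (Fin 2) ℝ) τ0 ≠ 0 := denom_ne_zero _ _
  have e1 : ((σ • τ : ℍ) : ℂ) = ((σ 0 0 : ℂ) * τ + (σ 0 1 : ℂ)) / denom (σ : GL (Fin 2) ℝ) τ := by
    rw [coe_specialLinearGroup_apply, denom_eq_int]
    simp
  have e2 : (τ0 : ℂ) = ((σ 0 0 : ℂ) * τ0 + (σ 0 1 : ℂ)) / denom (σ : GL (Fin 2) ℝ) τ0 := by
    conv_lhs => rw [← h]
    rw [coe_specialLinearGroup_apply, denom_eq_int]
    simp
  have hdet : (σ 0 0 : ℂ) * (σ 1 1 : ℂ) - (σ 0 1 : ℂ) * (σ 1 0 : ℂ) = 1 := by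
    exact_mod_cast congrArg (Int.cast : ℤ → ℂ) (p1_det σ)
  unfold uAt
  rw [e1]
  conv_lhs => rw [e2]
  rw [div_sub_div _ _ hd1 hd2, div_eq_mul_inv]
  congr 1
  rw [denom_eq_int, denom_eq_int]
  linear_combination ((τ : ℂ) - τ0) * hdet

/-- the ratio `u (σ τ) / u τ` tends to `ε`. -/
theorem tendsto_denom_lAt (σ : SL(2, ℤ)) (τ0 : ℍ) :
    Tendsto (fun τ : ℍ => denom (σ : GL (Fin 2) ℝ) τ) (lAt τ0)
      (𝓝 (denom (σ : GL (Fin 2) ℝ) τ0)) := by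
  have hc : Continuous (fun τ : ℍ => denom (σ : GL (Fin 2) ℝ) τ) := by
    simp only [denom_eq_int]
    exact (continuous_const.mul continuous_coe).add continuous_const
  exact (hc.tendsto τ0).mono_left nhdsWithin_le_nhds

/-- Transport of a leading term along a stabiliser element. -/
theorem lead_comp_smul {E : Type*} [NormedAddCommGroup E] [NormedSpace ℂ E]
    {τ0 : ℍ} {σ : SL(2, ℤ)} (h : σ • τ0 = τ0) {F : ℍ → E} {n : ℤ} {A : E}
    (hl : Lead (lAt τ0) (uAt τ0) F n A) :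
    Lead (lAt τ0) (uAt τ0) (fun τ => F (σ • τ)) n
      (((denom (σ : GL (Fin 2) ℝ) τ0) ^ (-2 : ℤ)) ^ n • A) := by
  unfold Lead at *
  have hd2 : denom (σ : GL (Fin 2) ℝ) τ0 ≠ 0 := denom_ne_zero _ _
  have h1 := hl.comp (tendsto_smul_lAt h)
  have h2 : Tendsto (fun τ : ℍ => ((denom (σ : GL (Fin 2) ℝ) τ *
      denom (σ : GL (Fin 2) ℝ) τ0)⁻¹) ^ n) (lAt τ0)
      (𝓝 (((denom (σ : GL (Fin 2) ℝ) τ0 * denom (σ : GL (Fin 2) ℝ) τ0)⁻¹) ^ n)) := by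
    have h3 := ((tendsto_denom_lAt σ τ0).mul_const (denom (σ : GL (Fin 2) ℝ) τ0)).inv₀
      (mul_ne_zero hd2 hd2)
    exact h3.zpow₀ n (Or.inl (inv_ne_zero (mul_ne_zero hd2 hd2)))
  have h4 := h2.smul h1
  have e : ((denom (σ : GL (Fin 2) ℝ) τ0) ^ (-2 : ℤ))
      = (denom (σ : GL (Fin 2) ℝ) τ0 * denom (σ : GL (Fin 2) ℝ) τ0)⁻¹ := by
    rw [zpow_neg, ← pow_two]
    norm_cast
  rw [e]
  refine h4.congr' ?_
  filter_upwards [uAt_ne_zero τ0] with τ hu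
  have hd1 : denom (σ : GL (Fin 2) ℝ) τ ≠ 0 := denom_ne_zero _ _
  simp only [Function.comp_apply]
  rw [uAt_smul h, smul_smul]
  congr 1
  rw [mul_zpow, ← mul_assoc, mul_comm _ (uAt τ0 τ ^ (-n)), mul_assoc, ← zpow_add₀
    (inv_ne_zero (mul_ne_zero hd1 hd2))]
  simp

theorem lead_at_eigen (N : ℕ) [NeZero N] {τ0 : ℍ} {σ : SL(2, ℤ)} {e : ℕ} {ε : ℂ}
    (hE : EllData τ0 σ e ε) {F : ℍ → X0 N → ℂ} (hF : IsWH N F) {n : ℤ}
    {A : X0 N → ℂ} (hl : Lead (lAt τ0) (uAt τ0) F n A) (x : X0 N) :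
    A (σ⁻¹ • x) = ε ^ n * A x := by
  have h1 := (lead_comp_smul hE.fix hl).apply x
  rw [← hE.eps_eq] at h1
  have h2 := hl.apply (σ⁻¹ • x)
  have h3 : (fun τ => F (σ • τ) x) = fun τ => F τ (σ⁻¹ • x) := by
    funext τ
    exact hF.equiv σ τ x
  rw [h3] at h1
  exact h2.unique h1

theorem wt2_vanish {τ0 : ℍ} {σ : SL(2, ℤ)} {e : ℕ} {ε : ℂ} (hE : EllData τ0 σ e ε) (t : ℕ)
    (h : ModularForm 𝒮ℒ (12 * (t : ℤ) + 2)) :
    ∃ b, Lead (lAt τ0) (uAt τ0) h ((e : ℤ) - 1) b := by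
  rcases scalar_ord_at τ0 (f := ⇑h) (ModularFormClass.holo h) with h0 | ⟨n, a, ha, hl⟩
  · refine ⟨0, ?_⟩
    have : (⇑h : ℍ → ℂ) = 0 := h0
    rw [this]
    exact Lead.zero
  · have hd : denom (σ : GL (Fin 2) ℝ) τ0 ≠ 0 := denom_ne_zero _ _
    have hε0 : ε ≠ 0 := by rw [hE.eps_eq]; exact zpow_ne_zero _ hd
    have h1 := lead_comp_smul hE.fix hl
    rw [← hE.eps_eq] at h1
    have h2 : Lead (lAt τ0) (uAt τ0)
        (fun τ : ℍ => (denom (σ : GL (Fin 2) ℝ) τ) ^ (12 * (t : ℤ) + 2) * h τ) (0 + n)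
        ((denom (σ : GL (Fin 2) ℝ) τ0) ^ (12 * (t : ℤ) + 2) * a) := by
      apply Lead.mul (uAt_ne_zero τ0) _ hl
      apply Lead.of_tendsto
      exact (tendsto_denom_lAt σ τ0).zpow₀ _ (Or.inl hd)
    rw [zero_add] at h2
    have h3 : (fun τ => h (σ • τ))
        = fun τ : ℍ => (denom (σ : GL (Fin 2) ℝ) τ) ^ (12 * (t : ℤ) + 2) * h τ := by
      funext τ
      exact levelOne_apply_smul h σ τ
    rw [h3] at h1
    have h4 := h1.unique h2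
    rw [smul_eq_mul] at h4
    have h5 : ε ^ (n : ℤ) = (denom (σ : GL (Fin 2) ℝ) τ0) ^ (12 * (t : ℤ) + 2) :=
      mul_right_cancel₀ ha h4
    have h6 : (denom (σ : GL (Fin 2) ℝ) τ0) ^ (12 * (t : ℤ) + 2) = ε ^ (-(6 * (t : ℤ) + 1)) := by
      rw [hE.eps_eq, ← zpow_mul]
      congr 1
      ring
    have h7 : ε ^ ((n : ℤ) + (6 * (t : ℤ) + 1)) = 1 := by
      rw [zpow_add₀ hε0, h5, h6, ← zpow_add₀ hε0]
      simp
    have h8 : (e : ℤ) ∣ (n : ℤ) + (6 * (t : ℤ) + 1) := (hE.prim.zpow_eq_one_iff_dvd _).mp h7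
    have h9 : (e : ℤ) ∣ 6 := by exact_mod_cast hE.dvd
    have h10 : (e : ℤ) ∣ (n : ℤ) + 1 := by
      have : (n : ℤ) + 1 = ((n : ℤ) + (6 * (t : ℤ) + 1)) - 6 * (t : ℤ) := by ring
      rw [this]
      exact dvd_sub h8 (Dvd.dvd.mul_right h9 _)
    have h11 : (e : ℤ) ≤ (n : ℤ) + 1 := Int.le_of_dvd (by positivity) h10
    rcases (show (e : ℤ) - 1 ≤ n by omega).lt_or_eq with hlt | heq
    · exact ⟨0, hl.of_lt (uAt_ne_zero τ0) (uAt_tendsto τ0) hlt⟩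
    · exact ⟨a, by rw [heq]; exact hl⟩

end Fermat.Agent.S20Lib
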