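import Fermat.Agent.S20.Defs

set_option autoImplicit false
open UpperHalfPlane hiding I
open ModularForm EisensteinSeries Complex Filter Topology CongruenceSubgroup
open scoped MatrixGroups Manifold

namespace Fermat.Agent.S20Lib

theorem slash_zero_eq (f : ℍ → ℂ) (γ : SL(2, ℤ)) : f ∣[(0 : ℤ)] γ = fun τ => f (γ • τ) := by
  ext τ
  rw [SL_slash_apply]
  simp

theorem const_of_bdd (N : ℕ) [NeZero N] {F : ℍ → X0 N → ℂ} (hF : IsWH N F)
    (hb : ∀ x, IsBoundedAtImInfty (fun τ => F τ x)) : ∃ c : ℂ, ∀ τ x, F τ x = c := by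
  set x0 : X0 N := ((1 : SL(2, ℤ)) : X0 N) with hx0
  let f : ModularForm (Gamma0 N) 0 :=
    { toFun := fun τ => F τ x0
      slash_action_eq' := by
        rintro _ ⟨γ, hγ, rfl⟩
        show (fun τ => F τ x0) ∣[(0 : ℤ)] γ = _
        rw [slash_zero_eq]
        ext τ
        rw [hF.equiv γ τ x0]
        have h2 : γ⁻¹ • x0 = x0 := by
          show ((γ⁻¹ * 1 : SL(2, ℤ)) : X0 N) = ((1 : SL(2, ℤ)) : X0 N)
          rw [QuotientGroup.eq]
          simpa using hγ
        rw [h2]
      holo' := hF.holo x0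
      bdd_at_cusps' := by
        intro cu hcu
        rw [Subgroup.IsArithmetic.isCusp_iff_isCusp_SL2Z] at hcu
        rw [OnePoint.isBoundedAt_iff_forall_SL2Z hcu]
        intro γ _
        show IsBoundedAtImInfty ((fun τ => F τ x0) ∣[(0 : ℤ)] γ)
        rw [slash_zero_eq]
        simp only [hF.equiv γ _ x0]
        exact hb _ }
  obtain ⟨c, hc⟩ := ModularForm.eq_const_of_weight_zero f
  refine ⟨c, fun τ x => ?_⟩
  induction x using QuotientGroup.induction_on with
  | H g =>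
    have h1 := hF.equiv g⁻¹ τ x0
    have h3 : (g⁻¹)⁻¹ • x0 = (g : X0 N) := by
      show (((g⁻¹)⁻¹ * 1 : SL(2, ℤ)) : X0 N) = (g : X0 N)
      simp
    rw [h3] at h1
    rw [← h1]
    exact congrFun hc (g⁻¹ • τ)

end Fermat.Agent.S20Lib
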