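import Fermat.Agent.S20.Lead

set_option autoImplicit false
open Filter Topology

namespace Fermat.Agent.S20Lib

/-- A linear relation between eigenvectors splits according to the eigenvalues. -/
theorem eigen_split {V : Type*} [AddCommGroup V] [Module ℂ V] (P : V →ₗ[ℂ] V)
    {ι : Type*} [Fintype ι] (A : ι → V) (χ : ι → ℂ) (hA : ∀ i, P (A i) = χ i • A i)
    (c : ι → ℂ) (h : ∑ i, c i • A i = 0) (χ0 : ℂ) :
    ∑ i, (if χ i = χ0 then c i else 0) • A i = 0 := by
  classical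
  have hind := (iSupIndep_iff_finsetSum_eq_zero_imp_eq_zero _).mp
    (Module.End.eigenspaces_iSupIndep P)
  set w : ℂ → V := fun χ' => ∑ i, (if χ i = χ' then c i else 0) • A i with hw
  have hmem : ∀ χ', w χ' ∈ Module.End.eigenspace P χ' := by
    intro χ'
    refine Submodule.sum_mem _ fun i _ => ?_
    by_cases hi : χ i = χ'
    · rw [if_pos hi]
      refine Submodule.smul_mem _ _ ?_
      rw [Module.End.mem_eigenspace_iff, hA i, hi]
    · rw [if_neg hi, zero_smul]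
      exact Submodule.zero_mem _
  set S : Finset ℂ := insert χ0 (Finset.univ.image χ) with hS
  have hsum : ∑ χ' ∈ S, w χ' = 0 := by
    rw [hw]
    simp only
    rw [Finset.sum_comm, ← h]
    refine Finset.sum_congr rfl fun i _ => ?_
    rw [← Finset.sum_smul]
    congr 1
    rw [Finset.sum_ite_eq]
    rw [if_pos]
    exact Finset.mem_insert_of_mem (Finset.mem_image_of_mem χ (Finset.mem_univ i))
  exact hind S w (fun χ' _ => hmem χ') hsum χ0 (Finset.mem_insert_self _ _)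

variable {α : Type*} {X : Type*} [Fintype X] [DecidableEq X]

/-- `F` has exact order `n` -/
def HasOrd (l : Filter α) (u : α → ℂ) (F : α → X → ℂ) (n : ℤ) : Prop :=
  ∃ A : X → ℂ, A ≠ 0 ∧ Lead l u F n A

/-- determinant of a tuple of vector valued functions -/
noncomputable def tdet (F : X → α → X → ℂ) (τ : α) : ℂ := (Matrix.of fun i x => F i τ x).det

theorem tdet_update_comb (F : X → α → X → ℂ) (i0 : X) (G : α → X → ℂ) (τ : α) (r : X → ℂ)
    (hG : G τ = ∑ k, r k • F k τ) : tdet (Function.update F i0 G) τ = r i0 * tdet F τ := by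
  unfold tdet
  have := Matrix.det_updateRow_sum (Matrix.of fun i x => F i τ x) i0 r
  rw [smul_eq_mul] at this
  rw [← this]
  congr 1
  ext i x
  by_cases hi : i = i0
  · subst hi
    simp only [Matrix.of_apply, Function.update_self, Matrix.updateRow_self, hG]
    simp [Finset.sum_apply, Matrix.of_apply]
  · simp [Matrix.updateRow_ne hi, Function.update_of_ne hi]

/-- tuples in `𝒜` with nonvanishing determinant and given orders -/
structure IsTup (l : Filter α) (u : α → ℂ) (𝒜 : Set (α → X → ℂ)) (F : X → α → X → ℂ)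
    (n : X → ℤ) : Prop where
  mem : ∀ i, F i ∈ 𝒜
  det_ne : ∃ τ, tdet F τ ≠ 0
  ord : ∀ i, HasOrd l u (F i) (n i)

def IsMaxTup (l : Filter α) (u : α → ℂ) (𝒜 : Set (α → X → ℂ)) (F : X → α → X → ℂ)
    (n : X → ℤ) : Prop :=
  IsTup l u 𝒜 F n ∧ ∀ F' n', IsTup l u 𝒜 F' n' → ∑ i, n' i ≤ ∑ i, n i

theorem exists_isMaxTup {l : Filter α} {u : α → ℂ} {𝒜 : Set (α → X → ℂ)}
    (hne : ∃ F n, IsTup l u 𝒜 F n) (M : ℤ) (hb : ∀ F n, IsTup l u 𝒜 F n → ∑ i, n i ≤ M) :
    ∃ F n, IsMaxTup l u 𝒜 F n := by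
  obtain ⟨s, ⟨F, n, hF, hs⟩, hmax⟩ := Int.exists_greatest_of_bdd
    (P := fun s => ∃ F n, IsTup l u 𝒜 F n ∧ ∑ i, n i = s)
    ⟨M, fun s ⟨F, n, hF, hs⟩ => hs ▸ hb F n hF⟩
    (by obtain ⟨F, n, hF⟩ := hne; exact ⟨_, F, n, hF, rfl⟩)
  exact ⟨F, n, hF, fun F' n' hF' => hs ▸ hmax _ ⟨F', n', hF', rfl⟩⟩

theorem tdet_eq_zero_of_row_zero (F : X → α → X → ℂ) (i : X) (τ : α) (h : F i τ = 0) :
    tdet F τ = 0 := by
  unfold tdet
  exact Matrix.det_eq_zero_of_row_eq_zero i (fun x => by simp [h])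

section
variable {l : Filter α} [l.NeBot] {u : α → ℂ} (hu0 : ∀ᶠ τ in l, u τ ≠ 0) (hu : Tendsto u l (𝓝 0))
  {𝒜 : Set (α → X → ℂ)} (hex : ∀ G ∈ 𝒜, G ≠ 0 → ∃ m, HasOrd l u G m)
  {F : X → α → X → ℂ} {n : X → ℤ}

include hu0 hu hex in
theorem IsMaxTup.no_improve (hmax : IsMaxTup l u 𝒜 F n) (i0 : X) (G : α → X → ℂ) (hG : G ∈ 𝒜)
    (hdet : ∃ τ, tdet (Function.update F i0 G) τ ≠ 0) (m : ℤ) (B : X → ℂ)
    (hl : Lead l u G m B) (hm : n i0 < m) : False := by
  have hG0 : G ≠ 0 := by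
    rintro rfl
    obtain ⟨τ, hτ⟩ := hdet
    exact hτ (tdet_eq_zero_of_row_zero _ i0 τ (by simp))
  obtain ⟨m', A', hA', hl'⟩ := hex G hG hG0
  have hmm : m ≤ m' := hl'.le_of_ne_zero hu0 hu hA' hl
  have htup : IsTup l u 𝒜 (Function.update F i0 G) (Function.update n i0 m') := by
    refine ⟨fun i => ?_, hdet, fun i => ?_⟩
    · by_cases hi : i = i0
      · subst hi; simpa using hG
      · simpa [Function.update_of_ne hi] using hmax.1.mem i
    · by_cases hi : i = i0
      · subst hi; simpa using ⟨A', hA', hl'⟩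
      · simpa [Function.update_of_ne hi] using hmax.1.ord i
  have h1 := hmax.2 _ _ htup
  have h2 : ∑ i, Function.update n i0 m' i = ∑ i, n i - n i0 + m' := by
    rw [Finset.sum_update_of_mem (Finset.mem_univ i0)]
    have : ∑ i, n i = n i0 + ∑ i ∈ Finset.univ \ {i0}, n i := by
      rw [← Finset.sum_sdiff (Finset.subset_univ {i0})]
      simp [add_comm]
    rw [this]; ring
  omega

include hu0 in
/-- If the leading vectors are linearly dependent, there is a combination of higher order. -/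
theorem exists_relation (A : X → X → ℂ) (hA : ∀ i, Lead l u (F i) (n i) (A i))
    (P : (X → ℂ) →ₗ[ℂ] (X → ℂ)) (ζ : ℂ) (e : ℕ) (he : 0 < e) (hζ : IsPrimitiveRoot ζ e)
    (hP : ∀ i, P (A i) = ζ ^ (n i) • A i) (w : α → ℂ) (hw : Lead l u w (-(e : ℤ)) 1)
    (hdep : ¬ LinearIndependent ℂ A) :
    ∃ (i0 : X) (c : X → ℂ) (a : X → ℕ), c i0 ≠ 0 ∧ a i0 = 0 ∧
      (∀ i, c i ≠ 0 → n i = n i0 + e * a i) ∧
      Lead l u (fun τ => ∑ i, (c i * w τ ^ a i) • F i τ) (n i0) 0 := by
  classical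
  obtain ⟨g, hg, i1, hi1⟩ := Fintype.not_linearIndependent_iff.mp hdep
  set c : X → ℂ := fun i => if ζ ^ (n i) = ζ ^ (n i1) then g i else 0 with hc
  have hrel : ∑ i, c i • A i = 0 := eigen_split P A (fun i => ζ ^ (n i)) hP g hg (ζ ^ (n i1))
  set S : Finset X := Finset.univ.filter fun i => c i ≠ 0 with hS
  have hSne : S.Nonempty := ⟨i1, by simp [hS, hc, hi1]⟩
  obtain ⟨i0, hi0S, hi0min⟩ := Finset.exists_min_image S n hSne
  have hci0 : c i0 ≠ 0 := by simpa [hS] using hi0S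
  have hclass : ∀ i, c i ≠ 0 → ζ ^ (n i) = ζ ^ (n i1) := by
    intro i hi
    by_contra hne
    exact hi (by simp [hc, hne])
  have hζ0 : ζ ≠ 0 := hζ.ne_zero he.ne'
  have hdvd : ∀ i, c i ≠ 0 → (e : ℤ) ∣ n i - n i0 := by
    intro i hi
    rw [← hζ.zpow_eq_one_iff_dvd, zpow_sub₀ hζ0, hclass i hi, hclass i0 hci0]
    exact div_self (zpow_ne_zero _ hζ0)
  set a : X → ℕ := fun i => ((n i - n i0) / e).toNat with ha
  have hae : ∀ i, c i ≠ 0 → n i = n i0 + e * a i := by
    intro i hi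
    obtain ⟨k, hk⟩ := hdvd i hi
    have hle : n i0 ≤ n i := hi0min i (by simp [hS, hi])
    have he' : (0 : ℤ) < e := by exact_mod_cast he
    have hk0 : 0 ≤ k := by
      by_contra hneg
      push Not at hneg
      have : (e : ℤ) * k < 0 := mul_neg_of_pos_of_neg he' hneg
      omega
    have : (n i - n i0) / e = k := by
      rw [hk]; exact Int.mul_ediv_cancel_left k he'.ne'
    simp only [ha, this, Int.toNat_of_nonneg hk0]
    omega
  refine ⟨i0, c, a, hci0, by simp [ha], hae, ?_⟩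
  have hterm : ∀ i ∈ Finset.univ, Lead l u (fun τ => (c i * w τ ^ a i) • F i τ) (n i0)
      (c i • A i) := by
    intro i _
    by_cases hi : c i = 0
    · simp only [hi, zero_mul, zero_smul]
      exact Lead.zero
    · have h1 := (hw.pow hu0 (a i)).smul' hu0 (hA i)
      have h2 := h1.const_smul (c i)
      have h3 : ((a i : ℤ) * (-(e : ℤ)) + n i) = n i0 := by
        have := hae i hi
        rw [this]; ring
      rw [h3, one_pow, one_smul] at h2
      refine h2.congr' (Eventually.of_forall fun τ => ?_)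
      simp [smul_smul]
  have := Lead.sum Finset.univ hterm
  rw [hrel] at this
  refine this.congr' (Eventually.of_forall fun τ => ?_)
  simp [Finset.sum_apply]

include hu0 hu hex in
/-- The leading vectors of a maximal tuple are linearly independent. -/
theorem IsMaxTup.lead_indep (hmax : IsMaxTup l u 𝒜 F n)
    (A : X → X → ℂ) (hA : ∀ i, Lead l u (F i) (n i) (A i))
    (P : (X → ℂ) →ₗ[ℂ] (X → ℂ)) (ζ : ℂ) (e : ℕ) (he : 0 < e) (hζ : IsPrimitiveRoot ζ e)
    (hP : ∀ i, P (A i) = ζ ^ (n i) • A i) (w : α → ℂ) (hw : Lead l u w (-(e : ℤ)) 1)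
    (hcl : ∀ (i0 : X) (c : X → ℂ) (a : X → ℕ), (∀ i, c i ≠ 0 → n i = n i0 + e * a i) →
      (fun τ => ∑ i, (c i * w τ ^ a i) • F i τ) ∈ 𝒜) :
    LinearIndependent ℂ A := by
  by_contra hdep
  obtain ⟨i0, c, a, hc0, ha0, hae, hl⟩ := exists_relation hu0 A hA P ζ e he hζ hP w hw hdep
  -- the true order is bigger
  set G : α → X → ℂ := fun τ => ∑ i, (c i * w τ ^ a i) • F i τ with hG
  have hGmem : G ∈ 𝒜 := hcl i0 c a hae
  have hdet : ∃ τ, tdet (Function.update F i0 G) τ ≠ 0 := by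
    obtain ⟨τ, hτ⟩ := hmax.1.det_ne
    refine ⟨τ, ?_⟩
    rw [tdet_update_comb F i0 G τ (fun i => c i * w τ ^ a i) rfl, ha0]
    simpa using ⟨hc0, hτ⟩
  have hG0 : G ≠ 0 := by
    intro h0
    obtain ⟨τ, hτ⟩ := hdet
    exact hτ (tdet_eq_zero_of_row_zero _ i0 τ (by simp [h0]))
  obtain ⟨m', A', hA', hl'⟩ := hex G hGmem hG0
  have hlt : n i0 < m' := by
    by_contra hle
    push Not at hle
    rcases hle.lt_or_eq with h | h
    · exact hA' ((hl.of_lt hu0 hu h).unique hl').symm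
    · rw [h] at hl'
      exact hA' (hl.unique hl').symm
  exact hmax.no_improve hu0 hu hex i0 G hGmem hdet m' A' hl' hlt

end

end Fermat.Agent.S20Lib
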