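import Fermat.Agent.S20.CombP1
import Fermat.Agent.S20.Reduce

set_option autoImplicit false
open UpperHalfPlane hiding I
open ModularForm EisensteinSeries Complex Filter Topology CongruenceSubgroup
open scoped MatrixGroups Manifold

namespace Fermat.Agent.S20Lib

noncomputable instance instFintypeX0 (N : ℕ) [NeZero N] : Fintype (X0 N) := Fintype.ofFinite _
noncomputable instance instDecEqX0 (N : ℕ) : DecidableEq (X0 N) := Classical.decEq _

/-- the `j`-function `E₄³/Δ` -/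
noncomputable def jF (τ : ℍ) : ℂ := E₄ τ ^ 3 / discriminant τ

/-- local parameter `exp (2 π i τ / N)` at `i∞` -/
noncomputable def qN (N : ℕ) (τ : ℍ) : ℂ := Function.Periodic.qParam N τ

/-- local parameter at a point of `ℍ` -/
noncomputable def uAt (τ0 : ℍ) (τ : ℍ) : ℂ := (τ : ℂ) - τ0

/-- punctured neighbourhood filter -/
noncomputable abbrev lAt (τ0 : ℍ) : Filter ℍ := 𝓝[≠] τ0

/-- weakly holomorphic vector valued functions of weight `0` for the permutation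
representation on `X0 N` -/
structure IsWH (N : ℕ) (F : ℍ → X0 N → ℂ) : Prop where
  holo : ∀ x, MDiff (fun τ => F τ x)
  equiv : ∀ (γ : SL(2, ℤ)) (τ : ℍ) (x : X0 N), F (γ • τ) x = F τ (γ⁻¹ • x)
  mero : ∃ t : ℕ, ∀ x, IsBoundedAtImInfty (fun τ => discriminant τ ^ t * F τ x)

def WH (N : ℕ) : Set (ℍ → X0 N → ℂ) := {F | IsWH N F}

/-- data attached to a point `τ0` with stabiliser generated (mod ±1) by `σ` of order `e` -/
structure EllData (τ0 : ℍ) (σ : SL(2, ℤ)) (e : ℕ) (ε : ℂ) : Prop where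
  fix : σ • τ0 = τ0
  eps_eq : ε = (denom (σ : GL (Fin 2) ℝ) τ0) ^ (-2 : ℤ)
  prim : IsPrimitiveRoot ε e
  dvd : e ∣ 6
  jord : ∃ c : ℂ, c ≠ 0 ∧ Lead (lAt τ0) (uAt τ0) (fun τ => jF τ - jF τ0) e c

/-- the elliptic point of order 3 -/
noncomputable def ellRho : ℍ := ⟨-1 / 2 + (Real.sqrt 3 / 2) * Complex.I, by simp⟩

/-- vector of conjugates of a function of weight `k` -/
noncomputable def vec (N : ℕ) (k : ℤ) (f : ℍ → ℂ) (τ : ℍ) (x : X0 N) : ℂ :=
  (f ∣[k] ((x.out)⁻¹ : SL(2, ℤ))) τ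

/-- the exponents `t_i` -/
def tI (N : ℕ) (n : ℤ) : ℕ := (-(n / (N : ℤ)) - 1).toNat

/-! ### basic facts on the filters -/

theorem qN_ne_zero (N : ℕ) (τ : ℍ) : qN N τ ≠ 0 := by
  unfold qN Function.Periodic.qParam
  exact Complex.exp_ne_zero _

theorem qN_tendsto (N : ℕ) [NeZero N] : Tendsto (qN N) atImInfty (𝓝 0) := by
  have hN : (0 : ℝ) < N := by exact_mod_cast Nat.pos_of_ne_zero (NeZero.ne N)
  exact qParam_tendsto_atImInfty hN

theorem qN_ev_ne_zero (N : ℕ) : ∀ᶠ τ in atImInfty, qN N τ ≠ 0 :=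
  Eventually.of_forall (qN_ne_zero N)

instance lAt_neBot (τ0 : ℍ) : (lAt τ0).NeBot := by
  have h : (𝓝[≠] (τ0 : ℂ)).NeBot := inferInstance
  rw [← mem_closure_iff_nhdsWithin_neBot] at h ⊢
  rw [mem_closure_iff_nhds] at h ⊢
  intro t ht
  have h1 : (UpperHalfPlane.coe '' t) ∈ 𝓝 (τ0 : ℂ) :=
    (isOpenEmbedding_coe.isOpenMap.image_mem_nhds ht)
  obtain ⟨z, ⟨w, hw, rfl⟩, hz2⟩ := h _ h1
  refine ⟨w, hw, ?_⟩
  intro hw0
  apply hz2
  simp only [Set.mem_singleton_iff] at hw0 ⊢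
  rw [hw0]

theorem uAt_ne_zero (τ0 : ℍ) : ∀ᶠ τ in lAt τ0, uAt τ0 τ ≠ 0 := by
  filter_upwards [self_mem_nhdsWithin] with τ hτ
  intro h
  apply hτ
  simp only [Set.mem_singleton_iff]
  ext1
  unfold uAt at h
  exact sub_eq_zero.mp h

theorem uAt_tendsto (τ0 : ℍ) : Tendsto (uAt τ0) (lAt τ0) (𝓝 0) := by
  have h : Continuous (uAt τ0) := by
    unfold uAt
    exact continuous_coe.sub continuous_const
  have := (h.tendsto τ0).mono_left (nhdsWithin_le_nhds (s := {τ0}ᶜ))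
  simpa [uAt] using this

end Fermat.Agent.S20Lib
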