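import Fermat.Agent.S20.CombP1

set_option autoImplicit false
open scoped MatrixGroups

namespace Fermat.Agent.S20Lib

/-- Burnside's lemma for a cyclic group generated by an element of finite order. -/
theorem burnside_zpowers {G X : Type} [Group G] [MulAction G X] [Finite X] (σ : G) (m : ℕ)
    (hm0 : 0 < m) (hm : orderOf σ = m) :
    ∑ k ∈ Finset.range m, Nat.card {x : X // σ ^ k • x = x} =
      Nat.card (MulAction.orbitRel.Quotient (Subgroup.zpowers σ) X) * m := by
  classical
  have hfin : IsOfFinOrder σ := orderOf_pos_iff.mp (hm ▸ hm0)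
  haveI : Fintype X := Fintype.ofFinite X
  haveI : Fintype (Subgroup.zpowers σ) := Fintype.ofEquiv _ (finEquivZPowers hfin)
  haveI : Fintype (MulAction.orbitRel.Quotient (Subgroup.zpowers σ) X) := Fintype.ofFinite _
  have hB := MulAction.sum_card_fixedBy_eq_card_orbits_mul_card_group (Subgroup.zpowers σ) X
  have hcard : Fintype.card (Subgroup.zpowers σ) = m := by
    rw [← Nat.card_eq_fintype_card, Nat.card_zpowers, hm]
  rw [hcard] at hB
  rw [Nat.card_eq_fintype_card]
  rw [show Fintype.card (MulAction.orbitRel.Quotient (Subgroup.zpowers σ) X) * m = _ from hB.symm]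
  rw [← (finEquivZPowers hfin).sum_comp, ← hm, Finset.sum_range]
  refine Finset.sum_congr rfl fun k _ => ?_
  rw [Nat.card_eq_fintype_card]
  rfl

theorem two_mul_orbits {G X : Type} [Group G] [MulAction G X] [Finite X] (σ : G)
    (hm : orderOf σ = 4) (htriv : ∀ x : X, σ ^ 2 • x = x) :
    2 * Nat.card (MulAction.orbitRel.Quotient (Subgroup.zpowers σ) X) =
      Nat.card X + Nat.card {x : X // σ • x = x} := by
  have hB := burnside_zpowers (X := X) σ 4 (by norm_num) hm
  have e0 : Nat.card {x : X // σ ^ 0 • x = x} = Nat.card X :=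
    Nat.card_congr (Equiv.subtypeUnivEquiv (fun x => by simp))
  have e1 : Nat.card {x : X // σ ^ 1 • x = x} = Nat.card {x : X // σ • x = x} := by
    simp only [pow_one]
  have e2 : Nat.card {x : X // σ ^ 2 • x = x} = Nat.card X :=
    Nat.card_congr (Equiv.subtypeUnivEquiv htriv)
  have e3 : Nat.card {x : X // σ ^ 3 • x = x} = Nat.card {x : X // σ • x = x} := by
    refine Nat.card_congr (Equiv.subtypeEquivRight fun x => ?_)
    have : σ ^ 3 • x = σ • x := by
      rw [show σ ^ 3 = σ * σ ^ 2 by group, mul_smul, htriv]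
    rw [this]
  simp only [Finset.sum_range_succ, Finset.sum_range_zero, e0, e1, e2, e3] at hB
  omega

theorem three_mul_orbits {G X : Type} [Group G] [MulAction G X] [Finite X] (σ : G)
    (hm : orderOf σ = 6) (htriv : ∀ x : X, σ ^ 3 • x = x) :
    3 * Nat.card (MulAction.orbitRel.Quotient (Subgroup.zpowers σ) X) =
      Nat.card X + 2 * Nat.card {x : X // σ • x = x} := by
  have hB := burnside_zpowers (X := X) σ 6 (by norm_num) hm
  have e0 : Nat.card {x : X // σ ^ 0 • x = x} = Nat.card X :=
    Nat.card_congr (Equiv.subtypeUnivEquiv (fun x => by simp))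
  have e1 : Nat.card {x : X // σ ^ 1 • x = x} = Nat.card {x : X // σ • x = x} := by
    simp only [pow_one]
  have e2 : Nat.card {x : X // σ ^ 2 • x = x} = Nat.card {x : X // σ • x = x} := by
    refine Nat.card_congr (Equiv.subtypeEquivRight fun x => ?_)
    constructor
    · intro h
      have h3 := htriv x
      rw [show σ ^ 3 = σ * σ ^ 2 by group, mul_smul, h] at h3
      exact h3
    · intro h
      rw [pow_two, mul_smul, h, h]
  have e3 : Nat.card {x : X // σ ^ 3 • x = x} = Nat.card X :=
    Nat.card_congr (Equiv.subtypeUnivEquiv htriv)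
  have e4 : Nat.card {x : X // σ ^ 4 • x = x} = Nat.card {x : X // σ • x = x} := by
    refine Nat.card_congr (Equiv.subtypeEquivRight fun x => ?_)
    have : σ ^ 4 • x = σ • x := by
      rw [show σ ^ 4 = σ * σ ^ 3 by group, mul_smul, htriv]
    rw [this]
  have e5 : Nat.card {x : X // σ ^ 5 • x = x} = Nat.card {x : X // σ • x = x} := by
    rw [← e2]
    refine Nat.card_congr (Equiv.subtypeEquivRight fun x => ?_)
    have : σ ^ 5 • x = σ ^ 2 • x := by
      rw [show σ ^ 5 = σ ^ 2 * σ ^ 3 by group, mul_smul, htriv]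
    rw [this]
  simp only [Finset.sum_range_succ, Finset.sum_range_zero, e0, e1, e2, e3, e4, e5] at hB
  omega

theorem orderOf_S : orderOf ModularGroup.S = 4 := by
  have h := orderOf_eq_prime_pow (x := ModularGroup.S) (p := 2) (n := 1) (by decide) (by decide)
  simpa using h

theorem orderOf_ST : orderOf (ModularGroup.S * ModularGroup.T) = 6 := by
  refine orderOf_eq_of_pow_and_pow_div_prime (by norm_num) (by decide) ?_
  intro p hp hd
  have hp6 : p ≤ 6 := Nat.le_of_dvd (by norm_num) hd
  interval_cases p <;> first | (exfalso; revert hp; decide) | (exfalso; revert hd; decide) | decide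

instance finite_X0 (N : ℕ) [NeZero N] : Finite (X0 N) := by
  have : (CongruenceSubgroup.Gamma0 N).FiniteIndex := inferInstance
  exact Subgroup.finite_quotient_of_finiteIndex

theorem neg_one_smul_X0 (N : ℕ) (x : X0 N) : (-1 : SL(2, ℤ)) • x = x := by
  induction x using QuotientGroup.induction_on with
  | H g =>
    rw [p1_smul_mk, p1_mk_eq_iff']
    simp
    ring

theorem S_sq_smul (N : ℕ) (x : X0 N) : ModularGroup.S ^ 2 • x = x := by
  rw [show ModularGroup.S ^ 2 = -1 by decide]
  exact neg_one_smul_X0 N x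

theorem ST_cube_smul (N : ℕ) (x : X0 N) : (ModularGroup.S * ModularGroup.T) ^ 3 • x = x := by
  rw [show (ModularGroup.S * ModularGroup.T) ^ 3 = -1 by decide]
  exact neg_one_smul_X0 N x

theorem S_smul_mk_eq_iff (N : ℕ) (g : SL(2, ℤ)) :
    ModularGroup.S • (g : X0 N) = g ↔ (g 0 0 : ZMod N) ^ 2 + (g 1 0 : ZMod N) ^ 2 = 0 := by
  rw [p1_smul_mk, p1_mk_eq_iff', (p1_S_mul g).1, (p1_S_mul g).2]
  push_cast
  constructor <;> intro h <;> linear_combination -h

theorem ST_smul_mk_eq_iff (N : ℕ) (g : SL(2, ℤ)) :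
    (ModularGroup.S * ModularGroup.T) • (g : X0 N) = g ↔
      (g 0 0 : ZMod N) ^ 2 + (g 0 0 : ZMod N) * (g 1 0 : ZMod N) + (g 1 0 : ZMod N) ^ 2 = 0 := by
  rw [p1_smul_mk, p1_mk_eq_iff', (p1_ST_mul g).1, (p1_ST_mul g).2]
  push_cast
  constructor <;> intro h <;> linear_combination -h

/-- General counting statement: the points `(a : c)` of `P¹(ℤ/N)` with `a² + e a c + c² = 0` are
in bijection with the roots of `x² + e x + 1`. -/
theorem card_fixed_aux (N : ℕ) [NeZero N] (e : ZMod N) (σ : SL(2, ℤ))
    (hσ : ∀ g : SL(2, ℤ), σ • (g : X0 N) = g ↔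
      (g 0 0 : ZMod N) ^ 2 + e * ((g 0 0 : ZMod N) * (g 1 0 : ZMod N)) + (g 1 0 : ZMod N) ^ 2 = 0) :
    Nat.card {x : X0 N // σ • x = x} = Nat.card {x : ZMod N // x ^ 2 + e * x + 1 = 0} := by
  symm
  have hex : ∀ x : ZMod N, ∃ g : SL(2, ℤ), (g 0 0 : ZMod N) = x ∧ (g 1 0 : ZMod N) = 1 :=
    fun x => p1_exists_SL N x 1 isCoprime_one_right
  choose G hG0 hG1 using hex
  refine Nat.card_congr (Equiv.ofBijective
    (fun x => ⟨(G x.1 : X0 N), by
      rw [hσ, hG0, hG1]
      linear_combination x.2⟩) ⟨?_, ?_⟩)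
  · intro x y hxy
    have h1 : (G x.1 : X0 N) = G y.1 := congrArg Subtype.val hxy
    rw [p1_mk_eq_iff', hG0, hG1, hG0, hG1] at h1
    exact Subtype.ext (by linear_combination h1)
  · rintro ⟨y, hy⟩
    induction y using QuotientGroup.induction_on with
    | H g =>
      rw [hσ] at hy
      obtain ⟨u, v, huv⟩ := p1_isCoprime N g
      set a := (g 0 0 : ZMod N) with ha
      set c := (g 1 0 : ZMod N) with hc
      -- `c` is a unit with inverse `w`
      set w := -u ^ 2 * (e * a + c) + 2 * u * v * a + v ^ 2 * c with hw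
      have hcw : c * w = 1 := by
        linear_combination (-u ^ 2) * hy + (u * a + v * c + 1) * huv
      refine ⟨⟨a * w, ?_⟩, ?_⟩
      · linear_combination w ^ 2 * hy - (c * w + 1) * hcw - e * a * w * hcw
      · refine Subtype.ext ?_
        show (G (a * w) : X0 N) = g
        rw [p1_mk_eq_iff', hG0, hG1]
        linear_combination a * hcw

theorem card_fixedBy_S (N : ℕ) [NeZero N] :
    Nat.card {x : X0 N // ModularGroup.S • x = x} = ModularCurve.nuTwo N := by
  rw [card_fixed_aux N 0 ModularGroup.S (fun g => by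
    rw [S_smul_mk_eq_iff]; simp), ModularCurve.nuTwo]
  simp

theorem card_fixedBy_ST (N : ℕ) [NeZero N] :
    Nat.card {x : X0 N // (ModularGroup.S * ModularGroup.T) • x = x} = ModularCurve.nuThree N := by
  rw [card_fixed_aux N 1 (ModularGroup.S * ModularGroup.T) (fun g => by
    rw [ST_smul_mk_eq_iff]; simp), ModularCurve.nuThree]
  simp

theorem two_mul_orbCount_S' (N : ℕ) [NeZero N] :
    2 * orbCount N ModularGroup.S = Nat.card (X0 N) + ModularCurve.nuTwo N := by
  have h := two_mul_orbits (X := X0 N) ModularGroup.S orderOf_S (S_sq_smul N)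
  rw [card_fixedBy_S] at h
  exact h

theorem three_mul_orbCount_ST' (N : ℕ) [NeZero N] :
    3 * orbCount N (ModularGroup.S * ModularGroup.T) =
      Nat.card (X0 N) + 2 * ModularCurve.nuThree N := by
  have h := three_mul_orbits (X := X0 N) _ orderOf_ST (ST_cube_smul N)
  rw [card_fixedBy_ST] at h
  exact h

end Fermat.Agent.S20Lib
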