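import Fermat.Agent.S20.Defs

set_option autoImplicit false
open UpperHalfPlane hiding I
open ModularForm EisensteinSeries Complex Filter Topology CongruenceSubgroup
open scoped MatrixGroups Manifold

namespace Fermat.Agent.S20Lib

theorem finrank_levelOne (t : ℕ) :
    Module.finrank ℂ (ModularForm 𝒮ℒ (12 * (t : ℤ) + 2)) = t := by
  have h := dimension_level_one (12 * t + 2) ⟨6 * t + 1, by ring⟩
  have h12 : 12 * t + 2 ≡ 2 [MOD 12] := by
    unfold Nat.ModEq; omega
  rw [if_pos h12] at h
  have h2 : (12 * t + 2) / 12 = t := by omega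
  rw [h2] at h
  have h3 : ((12 * t + 2 : ℕ) : ℤ) = 12 * (t : ℤ) + 2 := by push_cast; ring
  rw [h3] at h
  exact Module.finrank_eq_of_rank_eq h

end Fermat.Agent.S20Lib
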