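import Fermat.Agent.S20.Defs
import Fermat.Agent.S23.Div

set_option autoImplicit false
open UpperHalfPlane hiding I
open ModularForm EisensteinSeries Complex Filter Topology CongruenceSubgroup
open scoped MatrixGroups Manifold

namespace Fermat.Agent.S20Lib

theorem slv_tendsto_coe_lAt (τ0 : ℍ) : Tendsto (fun τ : ℍ => (τ : ℂ)) (lAt τ0) (𝓝[≠] (τ0 : ℂ)) := by
  refine tendsto_nhdsWithin_of_tendsto_nhds_of_eventually_within _
    ((continuous_coe.tendsto τ0).mono_left nhdsWithin_le_nhds) ?_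
  filter_upwards [self_mem_nhdsWithin] with τ hτ h
  exact hτ (UpperHalfPlane.ext h)

theorem slv_tendsto_ofComplex_lAt (τ0 : ℍ) : Tendsto ofComplex (𝓝[≠] (τ0 : ℂ)) (lAt τ0) := by
  have h1 : Tendsto ofComplex (𝓝 (τ0 : ℂ)) (𝓝 τ0) := by
    have := (contMDiffAt_ofComplex (n := 0) τ0.im_pos).continuousAt.tendsto
    simpa using this
  refine tendsto_nhdsWithin_of_tendsto_nhds_of_eventually_within _
    (h1.mono_left nhdsWithin_le_nhds) ?_
  filter_upwards [self_mem_nhdsWithin,
    nhdsWithin_le_nhds (isOpen_upperHalfPlaneSet.mem_nhds τ0.im_pos)] with z hz hz' h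
  apply hz
  have := congrArg UpperHalfPlane.coe h
  rw [ofComplex_apply_of_im_pos hz'] at this
  exact this

theorem slv_ev_ne_zero_of_mdiff {d : ℍ → ℂ} (hd : MDiff d) (h0 : ∃ τ, d τ ≠ 0) (z₀ : ℂ)
    (hz₀ : z₀ ∈ {z : ℂ | 0 < z.im}) : ∀ᶠ z in 𝓝[≠] z₀, (d ∘ ofComplex) z ≠ 0 := by
  have hU : IsOpen {z : ℂ | 0 < z.im} := isOpen_upperHalfPlaneSet
  have hd' := UpperHalfPlane.mdifferentiable_iff.mp hd
  rcases ((hd'.analyticOnNhd hU) z₀ hz₀).eventually_eq_zero_or_eventually_ne_zero with h | h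
  · exfalso
    obtain ⟨τ, hτ⟩ := h0
    apply hτ
    have := (hd'.analyticOnNhd hU).eqOn_zero_of_preconnected_of_eventuallyEq_zero
      (Complex.isConnected_of_upperHalfPlane subset_rfl (by grind)).isPreconnected hz₀ h
    have h2 := this τ.im_pos
    simpa using h2
  · exact h

theorem slv_mdiff_sum {ι : Type*} (t : Finset ι) {f : ι → ℍ → ℂ} (hf : ∀ i ∈ t, MDiff (f i)) :
    MDiff (∑ i ∈ t, f i) := by
  classical
  induction t using Finset.induction_on with
  | empty =>
    rw [Finset.sum_empty]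
    exact (mdifferentiable_const : MDiff (fun _ : ℍ => (0 : ℂ)))
  | insert a s ha ih =>
    rw [Finset.sum_insert ha]
    exact (hf a (Finset.mem_insert_self _ _)).add
      (ih fun i hi => hf i (Finset.mem_insert_of_mem hi))

theorem slv_mdiff_prod {ι : Type*} (t : Finset ι) {f : ι → ℍ → ℂ} (hf : ∀ i ∈ t, MDiff (f i)) :
    MDiff (∏ i ∈ t, f i) := by
  classical
  induction t using Finset.induction_on with
  | empty =>
    rw [Finset.prod_empty]
    exact (mdifferentiable_const : MDiff (fun _ : ℍ => (1 : ℂ)))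
  | insert a s ha ih =>
    rw [Finset.prod_insert ha]
    exact (hf a (Finset.mem_insert_self _ _)).mul
      (ih fun i hi => hf i (Finset.mem_insert_of_mem hi))

theorem slv_mdiff_det {X : Type*} [Fintype X] [DecidableEq X] (A : ℍ → Matrix X X ℂ)
    (hA : ∀ i j, MDiff (fun τ => A τ i j)) : MDiff (fun τ => (A τ).det) := by
  have : (fun τ => (A τ).det) = ∑ σ : Equiv.Perm X,
      ((Equiv.Perm.sign σ : ℤ) : ℂ) • ∏ i, fun τ => A τ (σ i) i := by
    ext τ
    rw [Matrix.det_apply]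
    simp only [Finset.sum_apply, Pi.smul_apply, Finset.prod_apply]
    refine Finset.sum_congr rfl fun σ _ => ?_
    rw [smul_eq_mul, Units.smul_def, zsmul_eq_mul]
  rw [this]
  exact slv_mdiff_sum _ fun σ _ => (slv_mdiff_prod _ fun i _ => hA _ _).const_smul _

theorem slv_tdet_mdiff {X : Type*} [Fintype X] [DecidableEq X] (F : X → ℍ → X → ℂ)
    (hF : ∀ i x, MDiff (fun τ => F i τ x)) : MDiff (tdet F) :=
  slv_mdiff_det (fun τ => Matrix.of fun i x => F i τ x) hF

/-- pointwise solution of the linear system -/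
noncomputable def solveAt {X : Type*} [Fintype X] [DecidableEq X] (F : X → ℍ → X → ℂ)
    (v : X → ℍ → ℂ) (τ : ℍ) : X → ℂ :=
  Matrix.mulVec (Matrix.of fun i x => F i τ x)⁻¹ (fun i => v i τ)

theorem tdet_ev_ne_zero {X : Type*} [Fintype X] [DecidableEq X] (F : X → ℍ → X → ℂ)
    (hF : ∀ i x, MDiff (fun τ => F i τ x)) (hdet : ∃ τ, tdet F τ ≠ 0) (τ0 : ℍ) :
    ∀ᶠ τ in lAt τ0, tdet F τ ≠ 0 := by
  have h := (slv_tendsto_coe_lAt τ0).eventually
    (slv_ev_ne_zero_of_mdiff (slv_tdet_mdiff F hF) hdet τ0 τ0.im_pos)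
  filter_upwards [h] with τ hτ
  simpa using hτ

theorem exists_solve {X : Type*} [Fintype X] [DecidableEq X] (F : X → ℍ → X → ℂ)
    (hF : ∀ i x, MDiff (fun τ => F i τ x)) (v : X → ℍ → ℂ) (hv : ∀ i, MDiff (v i))
    (hdet : ∃ τ, tdet F τ ≠ 0)
    (hbdd : ∀ τ0 : ℍ, ∃ C : ℝ, ∀ᶠ τ in lAt τ0, ∀ x, ‖solveAt F v τ x‖ ≤ C) :
    ∃ G : ℍ → X → ℂ, (∀ x, MDiff (fun τ => G τ x)) ∧ ∀ τ i, ∑ x, F i τ x * G τ x = v i τ := by
  have hU : IsOpen {z : ℂ | 0 < z.im} := isOpen_upperHalfPlaneSet
  set M : ℍ → Matrix X X ℂ := fun τ => Matrix.of fun i x => F i τ x with hM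
  set n : X → ℍ → ℂ := fun x τ => ((M τ).adjugate.mulVec fun i => v i τ) x with hn
  have hd : MDiff (tdet F) := slv_tdet_mdiff F hF
  have hadj : ∀ x i, MDiff (fun τ => (M τ).adjugate x i) := by
    intro x i
    simp only [Matrix.adjugate_apply]
    refine slv_mdiff_det _ fun a b => ?_
    by_cases ha : a = i
    · subst ha
      simp only [Matrix.updateRow_self]
      exact mdifferentiable_const
    · simp only [Matrix.updateRow_ne ha]
      exact hF a b
  have hnd : ∀ x, MDiff (n x) := by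
    intro x
    have : n x = ∑ i, (fun τ => (M τ).adjugate x i) * v i := by
      ext τ
      simp [hn, Matrix.mulVec, dotProduct]
    rw [this]
    exact slv_mdiff_sum _ fun i _ => (hadj x i).mul (hv i)
  have hsol : ∀ τ x, tdet F τ ≠ 0 → solveAt F v τ x = n x τ / tdet F τ := by
    intro τ x hτ
    have h1 : (M τ)⁻¹ = (tdet F τ)⁻¹ • (M τ).adjugate := by
      rw [Matrix.inv_def, Ring.inverse_eq_inv']
      rfl
    show ((M τ)⁻¹.mulVec fun i => v i τ) x = _
    rw [h1, Matrix.smul_mulVec, Pi.smul_apply, smul_eq_mul, div_eq_inv_mul]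
  have key : ∀ x, ∃ G : ℂ → ℂ, DifferentiableOn ℂ G {z : ℂ | 0 < z.im} ∧
      ∀ z ∈ {z : ℂ | 0 < z.im}, G z * (tdet F ∘ ofComplex) z = (n x ∘ ofComplex) z := by
    intro x
    refine Fermat.Agent.S23L.exists_differentiableOn_mul_eq hU
      (UpperHalfPlane.mdifferentiable_iff.mp (hnd x)) (UpperHalfPlane.mdifferentiable_iff.mp hd)
      (fun c hc => slv_ev_ne_zero_of_mdiff hd hdet c hc) ?_
    intro c hc
    obtain ⟨C, hC⟩ := hbdd ⟨c, hc⟩
    refine ⟨C, ?_⟩
    have h1 := (slv_tendsto_ofComplex_lAt ⟨c, hc⟩).eventually hC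
    filter_upwards [h1, slv_ev_ne_zero_of_mdiff hd hdet c hc] with z hz hz0
    have := hz x
    rw [hsol _ _ hz0] at this
    exact this
  choose G hG hGd using key
  refine ⟨fun τ x => G x τ, fun x => ?_, ?_⟩
  · rw [UpperHalfPlane.mdifferentiable_iff]
    refine (hG x).congr fun z hz => ?_
    simp [ofComplex_apply_of_im_pos hz]
  · intro τ i
    have hGd' : ∀ x (τ : ℍ), G x τ * tdet F τ = n x τ := by
      intro x τ
      have := hGd x τ τ.im_pos
      simpa using this
    have hGm : ∀ x, MDiff (fun τ : ℍ => G x τ) := by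
      intro x
      rw [UpperHalfPlane.mdifferentiable_iff]
      refine (hG x).congr fun z hz => ?_
      simp [ofComplex_apply_of_im_pos hz]
    set R : ℍ → ℂ := (∑ x, (fun τ => F i τ x) * fun τ : ℍ => G x τ) - v i with hR
    have hRm : MDiff R :=
      (slv_mdiff_sum _ fun x _ => (hF i x).mul (hGm x)).sub (hv i)
    have hprod : tdet F * R = 0 := by
      ext τ
      simp only [hR, Pi.mul_apply, Pi.sub_apply, Finset.sum_apply, Pi.zero_apply]
      have h1 : tdet F τ * ∑ x, F i τ x * G x τ = ∑ x, F i τ x * n x τ := by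
        rw [Finset.mul_sum]
        refine Finset.sum_congr rfl fun x _ => ?_
        rw [← hGd' x τ]; ring
      have h2 : ∑ x, F i τ x * n x τ = tdet F τ * v i τ := by
        have h3 : (M τ).mulVec ((M τ).adjugate.mulVec fun i => v i τ)
            = (tdet F τ) • fun i => v i τ := by
          rw [Matrix.mulVec_mulVec, Matrix.mul_adjugate, Matrix.smul_mulVec, Matrix.one_mulVec]
          rfl
        have h4 := congrFun h3 i
        simpa [Matrix.mulVec, dotProduct, hM, hn] using h4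
      rw [mul_sub, h1, h2, sub_self]
    rcases (UpperHalfPlane.mul_eq_zero_iff hd hRm).mp hprod with h | h
    · obtain ⟨τ', hτ'⟩ := hdet
      exact absurd (congrFun h τ') hτ'
    · have := congrFun h τ
      simp only [hR, Pi.sub_apply, Finset.sum_apply, Pi.mul_apply, Pi.zero_apply] at this
      exact sub_eq_zero.mp this

end Fermat.Agent.S20Lib
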