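import Fermat.Agent.S20.Defs

set_option autoImplicit false
open UpperHalfPlane hiding I
open ModularForm EisensteinSeries Complex Filter Topology CongruenceSubgroup
open scoped MatrixGroups Manifold

namespace Fermat.Agent.S20Lib

theorem slash_inv_eq_of_mk_eq (N : ℕ) [NeZero N] (f : CuspForm (Gamma0 N) 2) {g h : SL(2, ℤ)}
    (hgh : (g : X0 N) = h) : (⇑f ∣[(2 : ℤ)] g⁻¹) = (⇑f ∣[(2 : ℤ)] h⁻¹) := by
  have hmem : g⁻¹ * h ∈ Gamma0 N := QuotientGroup.eq.mp hgh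
  have h1 : h⁻¹ = (g⁻¹ * h)⁻¹ * g⁻¹ := by group
  have h2 : (⇑f ∣[(2 : ℤ)] (g⁻¹ * h)⁻¹) = ⇑f :=
    f.slash_action_eq' _ ⟨_, inv_mem hmem, rfl⟩
  rw [h1, SlashAction.slash_mul, h2]

theorem vec_mk (N : ℕ) [NeZero N] (f : CuspForm (Gamma0 N) 2) (g : SL(2, ℤ)) :
    (fun τ => vec N 2 f τ (g : X0 N)) = (⇑f ∣[(2 : ℤ)] g⁻¹) := by
  unfold vec
  exact slash_inv_eq_of_mk_eq N f (QuotientGroup.out_eq' _)

theorem vec_slash (N : ℕ) [NeZero N] (f : CuspForm (Gamma0 N) 2) (γ : SL(2, ℤ)) (x : X0 N) :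
    (fun τ => vec N 2 f τ x) ∣[(2 : ℤ)] γ = fun τ => vec N 2 f τ (γ⁻¹ • x) := by
  induction x using QuotientGroup.induction_on with
  | H g =>
    have h1 : γ⁻¹ • (g : X0 N) = ((γ⁻¹ * g : SL(2, ℤ)) : X0 N) := rfl
    rw [h1, vec_mk, vec_mk, ← SlashAction.slash_mul]
    congr 1
    group

theorem vec_base (N : ℕ) [NeZero N] (f : CuspForm (Gamma0 N) 2) (τ : ℍ) :
    vec N 2 f τ ((1 : SL(2, ℤ)) : X0 N) = f τ := by
  have := congrFun (vec_mk N f 1) τ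
  simpa using this

theorem vec_holo (N : ℕ) [NeZero N] (f : CuspForm (Gamma0 N) 2) (x : X0 N) :
    MDiff (fun τ => vec N 2 f τ x) := by
  unfold vec
  exact (CuspFormClass.holo f).slash 2 _

theorem vec_add (N : ℕ) (k : ℤ) (f g : ℍ → ℂ) (τ : ℍ) (x : X0 N) :
    vec N k (f + g) τ x = vec N k f τ x + vec N k g τ x := by
  unfold vec
  rw [SlashAction.add_slash]
  rfl

theorem vec_smul (N : ℕ) (k : ℤ) (c : ℂ) (f : ℍ → ℂ) (τ : ℍ) (x : X0 N) :
    vec N k (c • f) τ x = c * vec N k f τ x := by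
  unfold vec
  rw [SL_smul_slash]
  rfl

/-- a weight 2 equivariant holomorphic vector valued function vanishing at infinity comes from
a cusp form -/
theorem cuspForm_of_vec (N : ℕ) [NeZero N] (G : ℍ → X0 N → ℂ) (holo : ∀ x, MDiff (fun τ => G τ x))
    (heq : ∀ (γ : SL(2, ℤ)) (x : X0 N),
      (fun τ => G τ x) ∣[(2 : ℤ)] γ = fun τ => G τ (γ⁻¹ • x))
    (hz : ∀ x, Tendsto (fun τ => G τ x) atImInfty (𝓝 0)) :
    ∃ f : CuspForm (Gamma0 N) 2, ∀ τ x, vec N 2 f τ x = G τ x := by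
  set x0 : X0 N := ((1 : SL(2, ℤ)) : X0 N) with hx0
  let f : CuspForm (Gamma0 N) 2 :=
    { toFun := fun τ => G τ x0
      slash_action_eq' := by
        rintro _ ⟨γ, hγ, rfl⟩
        have h1 := heq γ x0
        have h2 : γ⁻¹ • x0 = x0 := by
          show ((γ⁻¹ * 1 : SL(2, ℤ)) : X0 N) = ((1 : SL(2, ℤ)) : X0 N)
          rw [QuotientGroup.eq]
          simpa using hγ
        rw [h2] at h1
        exact h1
      holo' := holo x0
      zero_at_cusps' := by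
        intro cu hcu
        rw [Subgroup.IsArithmetic.isCusp_iff_isCusp_SL2Z] at hcu
        rw [OnePoint.isZeroAt_iff_forall_SL2Z hcu]
        intro γ _
        show Tendsto ((fun τ => G τ x0) ∣[(2 : ℤ)] γ) atImInfty (𝓝 0)
        rw [heq γ x0]
        exact hz _ }
  refine ⟨f, fun τ x => ?_⟩
  induction x using QuotientGroup.induction_on with
  | H g =>
    have h1 : vec N 2 f τ (g : X0 N) = (⇑f ∣[(2 : ℤ)] g⁻¹) τ := congrFun (vec_mk N f g) τ
    rw [h1]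
    have h2 := congrFun (heq g⁻¹ x0) τ
    have h3 : (g⁻¹)⁻¹ • x0 = (g : X0 N) := by
      show (((g⁻¹)⁻¹ * 1 : SL(2, ℤ)) : X0 N) = (g : X0 N)
      simp
    rw [h3] at h2
    exact h2

end Fermat.Agent.S20Lib
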