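import Fermat.Agent.S20.Basic
import Fermat.Agent.S20.JBasic
import Fermat.Agent.S20.Vec
import Fermat.Agent.S20.Infty

set_option autoImplicit false
open UpperHalfPlane hiding I
open ModularForm EisensteinSeries Complex Filter Topology CongruenceSubgroup
open scoped MatrixGroups Manifold

namespace Fermat.Agent.S20Lib

theorem vec_apply_smul (N : ℕ) [NeZero N] (f : CuspForm (Gamma0 N) 2) (γ : SL(2, ℤ)) (τ : ℍ)
    (x : X0 N) :
    vec N 2 f (γ • τ) x = (denom (γ : GL (Fin 2) ℝ) τ) ^ (2 : ℤ) * vec N 2 f τ (γ⁻¹ • x) := by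
  have h := congrFun (vec_slash N f γ x) τ
  rw [SL_slash_apply] at h
  have hd : denom (γ : GL (Fin 2) ℝ) τ ≠ 0 := denom_ne_zero _ _
  rw [← h, mul_comm, mul_assoc, ← zpow_add₀ hd]
  simp

theorem trace_form (N : ℕ) [NeZero N] (f : CuspForm (Gamma0 N) 2) {F : ℍ → X0 N → ℂ}
    (hF : IsWH N F) (n : ℤ) (A : X0 N → ℂ) (hl : Lead atImInfty (qN N) F n A) (t : ℕ)
    (ht : -(N : ℤ) < N * t + n + 1) :
    ∃ h : ModularForm 𝒮ℒ (12 * (t : ℤ) + 2),
      ∀ τ, h τ = discriminant τ ^ t * ∑ x, vec N 2 f τ x * F τ x := by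
  set h : ℍ → ℂ := fun τ => discriminant τ ^ t * ∑ x, vec N 2 f τ x * F τ x with hh
  have hsmul : ∀ (γ : SL(2, ℤ)) (τ : ℍ),
      h (γ • τ) = (denom (γ : GL (Fin 2) ℝ) τ) ^ (12 * (t : ℤ) + 2) * h τ := by
    intro γ τ
    have hd : denom (γ : GL (Fin 2) ℝ) τ ≠ 0 := denom_ne_zero _ _
    simp only [hh]
    have h1 : ∑ x, vec N 2 f (γ • τ) x * F (γ • τ) x
        = (denom (γ : GL (Fin 2) ℝ) τ) ^ (2 : ℤ) * ∑ x, vec N 2 f τ x * F τ x := by
      rw [← Equiv.sum_comp (MulAction.toPerm γ⁻¹) (fun x => vec N 2 f τ x * F τ x), Finset.mul_sum]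
      refine Finset.sum_congr rfl fun x _ => ?_
      rw [vec_apply_smul, hF.equiv, MulAction.toPerm_apply]
      ring
    rw [h1, disc_apply_smul, mul_pow, zpow_add₀ hd, zpow_mul, zpow_natCast]
    ring
  have hsl : ∀ γ : SL(2, ℤ), h ∣[12 * (t : ℤ) + 2] γ = h := by
    intro γ
    ext τ
    have hd : denom (γ : GL (Fin 2) ℝ) τ ≠ 0 := denom_ne_zero _ _
    rw [SL_slash_apply, hsmul, mul_comm, ← mul_assoc, ← zpow_add₀ hd]
    simp
  have hholo : MDiff h := by
    have : h = (fun τ => discriminant τ) ^ t * ∑ x, (fun τ => vec N 2 f τ x) * fun τ => F τ x := by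
      ext τ
      simp [hh]
    rw [this]
    exact (disc_mdiff.pow t).mul (MDifferentiable.sum fun x _ => (vec_holo N f x).mul (hF.holo x))
  have hper : ∀ τ : ℍ, h ((1 : ℝ) +ᵥ τ) = h τ := by
    intro τ
    have := hsmul ModularGroup.T τ
    rw [modular_T_smul] at this
    rw [this]
    simp [denom, ModularGroup.T]
  obtain ⟨B, hB⟩ := vec_cusp_lead N f
  have hlead : Lead atImInfty (qN N) h ((t : ℤ) * N + (1 + n)) (1 ^ t * ∑ x, B x * A x) := by
    refine ((disc_lead_infty N).pow (qN_ev_ne_zero N) t).mul (qN_ev_ne_zero N) ?_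
    have := Lead.sum (l := atImInfty) (u := qN N) (n := 1 + n) Finset.univ
      (F := fun x τ => vec N 2 f τ x * F τ x) (A := fun x => B x * A x)
      (fun x _ => (hB.apply x).mul (qN_ev_ne_zero N) (hl.apply x))
    refine this.congr' (Eventually.of_forall fun τ => ?_)
    simp
  have hbdd : IsBoundedAtImInfty h :=
    bdd_of_lead_gt N h hholo hper _ _ (by linarith) hlead
  refine ⟨{ toFun := h
            slash_action_eq' := by
              rintro _ ⟨γ, rfl⟩
              exact hsl γ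
            holo' := hholo
            bdd_at_cusps' := by
              intro c hc
              rw [Subgroup.IsArithmetic.isCusp_iff_isCusp_SL2Z] at hc
              rw [OnePoint.isBoundedAt_iff_forall_SL2Z hc]
              intro γ _
              rw [hsl γ]
              exact hbdd }, fun τ => rfl⟩

end Fermat.Agent.S20Lib
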