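import Fermat.Agent.S20.SumN
import Fermat.Agent.S20.ConstBdd
import Fermat.Agent.S20.Vec
import Fermat.Agent.S20.Trace
import Fermat.Agent.S20.LevelOneDim
import Fermat.Agent.S20.Solve

set_option autoImplicit false
open UpperHalfPlane hiding I
open ModularForm EisensteinSeries Complex Filter Topology CongruenceSubgroup
open scoped MatrixGroups Manifold

namespace Fermat.Agent.S20Lib

variable {N : ℕ} [NeZero N]
set_option linter.unusedSectionVars false

variable {F : X0 N → ℍ → X0 N → ℂ} {n : X0 N → ℤ}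

theorem sum_mod (hmax : IsMaxTup atImInfty (qN N) (WH N) F n) :
    2 * ∑ i, (n i % (N : ℤ)) + (N : ℤ) * orbCount N ModularGroup.T
      = (N : ℤ) * Nat.card (X0 N) := by
  choose A _ hA using hmax.1.ord
  exact count_of_indep ModularGroup.T A (max_lead_indep hmax A hA) n N
    (Nat.pos_of_ne_zero (NeZero.ne N)) (zetaN N) (zetaN_prim N)
    (fun i x => lead_infty_eigen N (hmax.1.mem i) (hA i) x)

theorem exists_nonneg (hmax : IsMaxTup atImInfty (qN N) (WH N) F n) : ∃ i, 0 ≤ n i := by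
  by_contra hall
  push Not at hall
  obtain ⟨τ1, hτ1⟩ := hmax.1.det_ne
  set B : Matrix (X0 N) (X0 N) ℂ := Matrix.of fun i x => F i τ1 x with hB
  have hBu : IsUnit B.det := isUnit_iff_ne_zero.mpr hτ1
  set r : X0 N → ℂ := Matrix.vecMul (fun _ => 1) B⁻¹ with hr
  have hrB : Matrix.vecMul r B = fun _ => 1 := by
    rw [hr, Matrix.vecMul_vecMul, Matrix.nonsing_inv_mul _ hBu, Matrix.vecMul_one]
  have hr0 : r ≠ 0 := by
    intro h0
    rw [h0, Matrix.zero_vecMul] at hrB
    have := congrFun hrB ((1 : SL(2, ℤ)) : X0 N)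
    simp at this
  obtain ⟨i, hi⟩ := Function.ne_iff.mp hr0
  have hcomb : (fun (_ : ℍ) (_ : X0 N) => (1 : ℂ)) τ1 = ∑ k, r k • F k τ1 := by
    funext x
    have := congrFun hrB x
    simp only [Matrix.vecMul, dotProduct, hB, Matrix.of_apply] at this
    simp [Finset.sum_apply, this]
  refine hmax.no_improve (qN_ev_ne_zero N) (qN_tendsto N) hex_infty i (fun _ _ => 1) (IsWH.one N)
    ⟨τ1, ?_⟩ 0 (fun _ => 1) (Lead.const _) (hall i)
  rw [tdet_update_comb F i _ τ1 r hcomb]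
  exact mul_ne_zero hi hτ1

theorem const_of_nonneg (hmax : IsMaxTup atImInfty (qN N) (WH N) F n) (i : X0 N) (hi : 0 ≤ n i) :
    n i = 0 ∧ ∃ c : ℂ, c ≠ 0 ∧ ∀ τ x, F i τ x = c := by
  obtain ⟨A, hA0, hA⟩ := hmax.1.ord i
  have hb : ∃ B, Lead atImInfty (qN N) (F i) 0 B := by
    rcases hi.lt_or_eq with h | h
    · exact ⟨0, hA.of_lt (qN_ev_ne_zero N) (qN_tendsto N) h⟩
    · exact ⟨A, h ▸ hA⟩
  obtain ⟨B, hB⟩ := hb
  obtain ⟨c, hc⟩ := const_of_bdd N (hmax.1.mem i)
    (fun x => ((hB.apply x).tendsto_of_zero).isBigO_one ℝ)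
  have hc0 : c ≠ 0 := by
    rintro rfl
    obtain ⟨τ, hτ⟩ := hmax.1.det_ne
    exact hτ (tdet_eq_zero_of_row_zero F i τ (by funext x; simp [hc]))
  refine ⟨?_, c, hc0, hc⟩
  have hl : Lead atImInfty (qN N) (F i) 0 (fun _ => c) := by
    have : F i = fun _ _ => c := by funext τ x; exact hc τ x
    rw [this]
    exact Lead.const _
  refine hA.order_unique (qN_ev_ne_zero N) (qN_tendsto N) hA0 hl ?_
  intro h0
  exact hc0 (congrFun h0 ((1 : SL(2, ℤ)) : X0 N))

theorem nonneg_struct (hmax : IsMaxTup atImInfty (qN N) (WH N) F n) :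
    ∃ i0, n i0 = 0 ∧ ∀ i, i ≠ i0 → n i < 0 := by
  obtain ⟨i0, hi0⟩ := exists_nonneg hmax
  obtain ⟨h0, c0, hc0, hF0⟩ := const_of_nonneg hmax i0 hi0
  refine ⟨i0, h0, fun i hi => ?_⟩
  by_contra hge
  push Not at hge
  obtain ⟨_, c, hc, hF⟩ := const_of_nonneg hmax i hge
  obtain ⟨τ, hτ⟩ := hmax.1.det_ne
  apply hτ
  have h1 := tdet_update_comb F i (F i) τ (Pi.single i0 (c / c0)) (by
    funext x
    rw [Finset.sum_eq_single i0 (fun k _ hk => by simp [Pi.single_apply, hk]) (by simp)]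
    simp only [Pi.single_eq_same, Pi.smul_apply, smul_eq_mul, hF, hF0]
    field_simp)
  rw [Function.update_eq_self] at h1
  rw [h1]
  simp [Pi.single_apply, hi]

theorem sum_tI (hmax : IsMaxTup atImInfty (qN N) (WH N) F n) :
    2 * ((∑ i, tI N (n i) : ℕ) : ℤ) + orbCount N ModularGroup.S
      + orbCount N (ModularGroup.S * ModularGroup.T) + orbCount N ModularGroup.T
      = 2 + Nat.card (X0 N) := by
  classical
  obtain ⟨i0, hi0, hneg⟩ := nonneg_struct hmax
  have hN : (0 : ℤ) < N := by exact_mod_cast Nat.pos_of_ne_zero (NeZero.ne N)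
  have ht : ∀ i, (tI N (n i) : ℤ) = -(n i / (N : ℤ)) - 1 + (if i = i0 then 1 else 0) := by
    intro i
    unfold tI
    by_cases hi : i = i0
    · subst hi
      simp [hi0]
    · have h1 : n i / (N : ℤ) < 0 := Int.ediv_neg_of_neg_of_pos (hneg i hi) hN
      rw [Int.toNat_of_nonneg (by omega)]
      simp [hi]
  have hsum : ((∑ i, tI N (n i) : ℕ) : ℤ) = -(∑ i, n i / (N : ℤ)) - Nat.card (X0 N) + 1 := by
    push_cast
    rw [Finset.sum_congr rfl (fun i _ => ht i)]
    rw [Finset.sum_add_distrib, Finset.sum_sub_distrib, Finset.sum_neg_distrib]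
    simp [Nat.card_eq_fintype_card]
  have h1 := sum_n hmax
  have h2 := sum_mod hmax
  have h3 : ∑ i, n i = (N : ℤ) * (∑ i, n i / (N : ℤ)) + ∑ i, n i % (N : ℤ) := by
    rw [Finset.mul_sum, ← Finset.sum_add_distrib]
    exact Finset.sum_congr rfl fun i _ => (Int.mul_ediv_add_emod (n i) N).symm
  rw [hsum]
  have h4 : (N : ℤ) * (2 * (∑ i, n i / (N : ℤ)) + (3 * Nat.card (X0 N) - orbCount N ModularGroup.S
      - orbCount N (ModularGroup.S * ModularGroup.T) - orbCount N ModularGroup.T)) = 0 := by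
    rw [h3] at h1
    linear_combination h1 - h2
  have h5 := (mul_eq_zero.mp h4).resolve_left hN.ne'
  linarith

end Fermat.Agent.S20Lib
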