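import Fermat.Agent.S20.JBasic
import Fermat.Agent.S20.JSep
import Fermat.Agent.S20.Bracket
import Fermat.Agent.S23.Div

/-!
# Division by `j - j(τ₀)` ([G-F2] of S20)
-/

set_option autoImplicit false
open UpperHalfPlane hiding I
open ModularForm EisensteinSeries Complex Filter Topology CongruenceSubgroup
open scoped MatrixGroups Manifold

namespace Fermat.Agent.S20Lib

theorem map_smul_lAt (γ : SL(2, ℤ)) (τ0 : ℍ) :
    map (fun τ : ℍ => γ • τ) (lAt τ0) = lAt (γ • τ0) :=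
  (Homeomorph.smul ((γ : SL(2, ℤ)) : GL (Fin 2) ℝ)).map_punctured_nhds_eq τ0

theorem tendsto_ofComplex_lAt (c : ℍ) : Tendsto ofComplex (𝓝[≠] (c : ℂ)) (lAt c) := by
  rw [tendsto_nhdsWithin_iff]
  constructor
  · have h : ContinuousAt ofComplex (c : ℂ) := by
      apply ofComplex.continuousAt
      exact ⟨c, trivial, rfl⟩
    have h' := h.tendsto
    rw [ofComplex_apply] at h'
    exact h'.mono_left nhdsWithin_le_nhds
  · have hU : ∀ᶠ z in 𝓝[≠] (c : ℂ), 0 < z.im :=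
      eventually_nhdsWithin_of_eventually_nhds (isOpen_upperHalfPlaneSet.mem_nhds c.im_pos)
    filter_upwards [hU, self_mem_nhdsWithin] with z hz hzc
    intro h
    apply hzc
    simp only [Set.mem_singleton_iff] at h ⊢
    rw [← h, ofComplex_apply_of_im_pos hz]

theorem exists_smul_of_jF_eq (τ0 c : ℍ) (h : jF c = jF τ0) : ∃ γ : SL(2, ℤ), γ • τ0 = c := by
  apply j_sep
  have h1 := discriminant_ne_zero τ0
  have h2 := discriminant_ne_zero c
  unfold jF at h
  rw [div_eq_div_iff h2 h1] at h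
  exact h.symm

theorem quot_tendsto (N : ℕ) [NeZero N] {τ0 : ℍ} {σ : SL(2, ℤ)} {e : ℕ} {ε : ℂ}
    (hE : EllData τ0 σ e ε) {F : ℍ → X0 N → ℂ} (hF : IsWH N F) (B : X0 N → ℂ)
    (hl : Lead (lAt τ0) (uAt τ0) F e B) (c : ℍ) (x : X0 N) :
    (∀ᶠ τ in lAt c, jF τ - jF τ0 ≠ 0) ∧
      ∃ L, Tendsto (fun τ => F τ x / (jF τ - jF τ0)) (lAt c) (𝓝 L) := by
  by_cases hc : jF c = jF τ0
  · obtain ⟨γ, rfl⟩ := exists_smul_of_jF_eq τ0 c hc
    obtain ⟨c₀, hc₀, hj⟩ := hE.jord
    rw [← map_smul_lAt]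
    simp only [eventually_map, tendsto_map'_iff, Function.comp_def, jF_inv, hF.equiv]
    unfold Lead at hj
    constructor
    · filter_upwards [hj.eventually_ne hc₀] with τ hτ h0
      apply hτ
      rw [h0, smul_zero]
    · refine ⟨B (γ⁻¹ • x) / c₀, ?_⟩
      have h1 := (hl.apply (γ⁻¹ • x))
      unfold Lead at h1
      refine (h1.div hj hc₀).congr' ?_
      filter_upwards [uAt_ne_zero τ0] with τ hτ
      simp only [smul_eq_mul, Pi.div_apply]
      rw [mul_div_mul_left _ _ (zpow_ne_zero _ hτ)]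
  · have hcont : ContinuousAt (fun τ => jF τ - jF τ0) c :=
      (jF_continuous.continuousAt).sub continuousAt_const
    have hne : jF c - jF τ0 ≠ 0 := sub_ne_zero.mpr hc
    constructor
    · exact eventually_nhdsWithin_of_eventually_nhds (hcont.eventually_ne hne)
    · refine ⟨F c x / (jF c - jF τ0), ?_⟩
      have hFc : ContinuousAt (fun τ => F τ x) c := (hF.holo x).continuous.continuousAt
      exact ((hFc.div hcont hne).tendsto).mono_left nhdsWithin_le_nhds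

theorem exists_div_component (N : ℕ) [NeZero N] {τ0 : ℍ} {σ : SL(2, ℤ)} {e : ℕ} {ε : ℂ}
    (hE : EllData τ0 σ e ε) {F : ℍ → X0 N → ℂ} (hF : IsWH N F) (B : X0 N → ℂ)
    (hl : Lead (lAt τ0) (uAt τ0) F e B) (x : X0 N) :
    ∃ g : ℍ → ℂ, MDiff g ∧ ∀ τ, g τ * (jF τ - jF τ0) = F τ x := by
  have hn : DifferentiableOn ℂ ((fun τ => F τ x) ∘ ofComplex) {z | 0 < z.im} :=
    UpperHalfPlane.mdifferentiable_iff.mp (hF.holo x)
  have hd : DifferentiableOn ℂ ((fun τ => jF τ - jF τ0) ∘ ofComplex) {z | 0 < z.im} :=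
    UpperHalfPlane.mdifferentiable_iff.mp (jF_holo.sub mdifferentiable_const)
  obtain ⟨G, hG, hGeq⟩ := Fermat.Agent.S23L.exists_differentiableOn_mul_eq
    isOpen_upperHalfPlaneSet hn hd
    (fun c hc => (tendsto_ofComplex_lAt ⟨c, hc⟩).eventually
      (quot_tendsto N hE hF B hl ⟨c, hc⟩ x).1)
    (fun c hc => by
      obtain ⟨L, hL⟩ := (quot_tendsto N hE hF B hl ⟨c, hc⟩ x).2
      have h1 := (hL.comp (tendsto_ofComplex_lAt ⟨c, hc⟩)).norm
      exact ⟨‖L‖ + 1, h1.eventually_le_const (lt_add_one _)⟩)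
  refine ⟨fun τ => G τ, ?_, fun τ => ?_⟩
  · rw [UpperHalfPlane.mdifferentiable_iff]
    refine hG.congr fun z hz => ?_
    simp only [Function.comp_apply, ofComplex_apply_of_im_pos hz]
  · have := hGeq τ τ.im_pos
    simpa only [Function.comp_apply, ofComplex_apply] using this

theorem jF_sub_norm_ge (j0 : ℂ) : ∀ᶠ τ in atImInfty, 1 ≤ ‖jF τ - j0‖ := by
  have h4 : Tendsto (fun τ : ℍ => E₄ τ) atImInfty (𝓝 1) := by
    have := tendsto_modularForm E₄
    rwa [E_qExpansion_coeff_zero _ (by decide)] at this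
  have hΔ : Tendsto (fun τ : ℍ => discriminant τ) atImInfty (𝓝 0) := discriminant_isZeroAtImInfty
  have h1 : Tendsto (fun τ : ℍ => discriminant τ / E₄ τ ^ 3) atImInfty (𝓝 0) := by
    have := hΔ.div (h4.pow 3) (by norm_num)
    rw [one_pow, div_one] at this
    exact this
  have hne : ∀ᶠ τ in atImInfty, E₄ τ ≠ 0 := h4.eventually_ne one_ne_zero
  have h2 : Tendsto (fun τ : ℍ => discriminant τ / E₄ τ ^ 3) atImInfty (𝓝[≠] 0) := by
    rw [tendsto_nhdsWithin_iff]
    refine ⟨h1, ?_⟩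
    filter_upwards [hne] with τ hτ
    exact div_ne_zero (discriminant_ne_zero τ) (pow_ne_zero 3 hτ)
  have h3 := tendsto_norm_cobounded_atTop.comp (Filter.tendsto_inv₀_nhdsNE_zero.comp h2)
  filter_upwards [h3.eventually_ge_atTop (1 + ‖j0‖)] with τ hτ
  simp only [Function.comp_apply, inv_div] at hτ
  have : ‖jF τ‖ ≤ ‖jF τ - j0‖ + ‖j0‖ := by
    have := norm_add_le (jF τ - j0) j0
    simpa using this
  unfold jF at this ⊢
  linarith

theorem div_lemma (N : ℕ) [NeZero N] {τ0 : ℍ} {σ : SL(2, ℤ)} {e : ℕ} {ε : ℂ}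
    (hE : EllData τ0 σ e ε) {F : ℍ → X0 N → ℂ} (hF : IsWH N F) (B : X0 N → ℂ)
    (hl : Lead (lAt τ0) (uAt τ0) F e B) :
    ∃ G, IsWH N G ∧ ∀ τ, (jF τ - jF τ0) • G τ = F τ := by
  choose g hg hgeq using exists_div_component N hE hF B hl
  refine ⟨fun τ x => g x τ, ⟨fun x => hg x, ?_, ?_⟩, fun τ => ?_⟩
  · -- equivariance
    intro γ τ1 x
    have hev := (quot_tendsto N hE hF B hl τ1 x).1
    have hc1 : Tendsto (fun τ => g x (γ • τ)) (lAt τ1) (𝓝 (g x (γ • τ1))) := by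
      have h1 : Continuous (fun τ : ℍ => γ • τ) :=
        (Homeomorph.smul ((γ : SL(2, ℤ)) : GL (Fin 2) ℝ)).continuous
      exact (((hg x).continuous.comp h1).tendsto τ1).mono_left nhdsWithin_le_nhds
    have hc2 : Tendsto (fun τ => g (γ⁻¹ • x) τ) (lAt τ1) (𝓝 (g (γ⁻¹ • x) τ1)) :=
      ((hg (γ⁻¹ • x)).continuous.tendsto τ1).mono_left nhdsWithin_le_nhds
    refine tendsto_nhds_unique hc1 (hc2.congr' ?_)
    filter_upwards [hev] with τ hτ
    have e1 := hgeq x (γ • τ)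
    have e2 := hgeq (γ⁻¹ • x) τ
    rw [jF_inv, hF.equiv] at e1
    exact mul_right_cancel₀ hτ (e2.trans e1.symm)
  · -- meromorphy at infinity
    obtain ⟨t, ht⟩ := hF.mero
    refine ⟨t, fun x => ?_⟩
    refine Asymptotics.IsBigO.trans (Asymptotics.IsBigO.of_bound 1 ?_) (ht x)
    filter_upwards [jF_sub_norm_ge (jF τ0)] with τ hτ
    rw [← hgeq x τ, one_mul, norm_mul, norm_mul, norm_mul]
    have h0 : 0 ≤ ‖discriminant τ ^ t‖ * ‖g x τ‖ := by positivity
    nlinarith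
  · funext x
    simp only [Pi.smul_apply, smul_eq_mul]
    rw [mul_comm]; exact hgeq x τ

end Fermat.Agent.S20Lib
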