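import Fermat.Agent.S20.Reduce

set_option autoImplicit false
open Filter Topology

namespace Fermat.Agent.S20Lib

variable {α : Type*} {X : Type*} [Fintype X] [DecidableEq X]

/-- limit of the solution of a linear system whose rows have independent leading vectors -/
theorem solve_tendsto {l : Filter α} {u : α → ℂ}
    {F : X → α → X → ℂ} {n : X → ℤ} {A : X → X → ℂ} (hA : ∀ i, Lead l u (F i) (n i) (A i))
    (hdet : (Matrix.of A).det ≠ 0) {v : X → α → ℂ} {w0 : X → ℂ}
    (hv : ∀ i, Lead l u (v i) (n i) (w0 i)) {y : α → X → ℂ}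
    (hy : ∀ᶠ τ in l, ∀ i, ∑ x, F i τ x * y τ x = v i τ) :
    Tendsto y l (𝓝 (Matrix.mulVec (Matrix.of A)⁻¹ w0)) := by
  set M : α → Matrix X X ℂ := fun τ => Matrix.of fun i x => ((u τ) ^ (-(n i)) • F i τ) x with hM
  set w : α → X → ℂ := fun τ i => (u τ) ^ (-(n i)) • v i τ with hw
  have hMt : Tendsto M l (𝓝 (Matrix.of A)) := tendsto_pi_nhds.mpr fun i => hA i
  have hwt : Tendsto w l (𝓝 w0) := tendsto_pi_nhds.mpr fun i => hv i
  have hdett : Tendsto (fun τ => (M τ).det) l (𝓝 (Matrix.of A).det) :=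
    ((Continuous.matrix_det continuous_id).tendsto (Matrix.of A)).comp hMt
  have hne : ∀ᶠ τ in l, (M τ).det ≠ 0 := hdett.eventually_ne hdet
  have hadj : Tendsto (fun τ => (M τ).adjugate) l (𝓝 (Matrix.of A).adjugate) :=
    ((Continuous.matrix_adjugate continuous_id).tendsto (Matrix.of A)).comp hMt
  have hmv : Tendsto (fun τ => Matrix.mulVec (M τ).adjugate (w τ)) l
      (𝓝 (Matrix.mulVec (Matrix.of A).adjugate w0)) := by
    refine tendsto_pi_nhds.mpr fun i => ?_
    simp only [Matrix.mulVec, dotProduct]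
    refine tendsto_finsetSum _ fun x _ => ?_
    exact (tendsto_pi_nhds.mp (tendsto_pi_nhds.mp hadj i) x).mul (tendsto_pi_nhds.mp hwt x)
  have hfin : Tendsto (fun τ => ((M τ).det)⁻¹ • Matrix.mulVec (M τ).adjugate (w τ)) l
      (𝓝 (((Matrix.of A).det)⁻¹ • Matrix.mulVec (Matrix.of A).adjugate w0)) :=
    (hdett.inv₀ hdet).smul hmv
  have hlim : Matrix.mulVec (Matrix.of A)⁻¹ w0
      = ((Matrix.of A).det)⁻¹ • Matrix.mulVec (Matrix.of A).adjugate w0 := by
    rw [Matrix.inv_def, Ring.inverse_eq_inv', Matrix.smul_mulVec]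
  rw [hlim]
  refine hfin.congr' ?_
  filter_upwards [hy, hne] with τ hτ hdτ
  have hMy : Matrix.mulVec (M τ) (y τ) = w τ := by
    funext i
    simp only [Matrix.mulVec, dotProduct, hM, hw, Matrix.of_apply, Pi.smul_apply, smul_eq_mul]
    rw [← hτ i, Finset.mul_sum]
    exact Finset.sum_congr rfl fun x _ => by ring
  rw [← hMy, Matrix.mulVec_mulVec, Matrix.adjugate_mul, Matrix.smul_mulVec, Matrix.one_mulVec,
    smul_smul, inv_mul_cancel₀ hdτ, one_smul]

/-- uniqueness of the solution -/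
theorem solve_unique {F : X → α → X → ℂ} {τ : α} (hdet : tdet F τ ≠ 0) {y y' : X → ℂ}
    (h : ∀ i, ∑ x, F i τ x * y x = ∑ x, F i τ x * y' x) : y = y' := by
  have h1 : Matrix.mulVec (Matrix.of fun i x => F i τ x) (y - y') = 0 := by
    funext i
    simp only [Matrix.mulVec, dotProduct, Matrix.of_apply, Pi.sub_apply, Pi.zero_apply, mul_sub,
      Finset.sum_sub_distrib]
    rw [h i, sub_self]
  have := Matrix.eq_zero_of_mulVec_eq_zero hdet h1
  exact sub_eq_zero.mp this

end Fermat.Agent.S20Lib
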