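import Fermat.Agent.S20.Count
import Fermat.Agent.S20.SolveLim

set_option autoImplicit false
open UpperHalfPlane hiding I
open ModularForm EisensteinSeries Complex Filter Topology CongruenceSubgroup
open scoped MatrixGroups Manifold

namespace Fermat.Agent.S20Lib

variable {N : ℕ} [NeZero N]
set_option linter.unusedSectionVars false

theorem tI_cond (n : ℤ) : -(N : ℤ) < N * (tI N n : ℤ) + n + 1 := by
  have hN : (0 : ℤ) < N := by exact_mod_cast Nat.pos_of_ne_zero (NeZero.ne N)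
  have h1 : -(n / (N : ℤ)) - 1 ≤ (tI N n : ℤ) := Int.self_le_toNat _
  have h2 := Int.mul_ediv_add_emod n N
  have h3 := Int.emod_nonneg n hN.ne'
  nlinarith

theorem tI_lt (n : ℤ) (ht : tI N n ≠ 0) : n < -((N : ℤ) * (tI N n : ℤ)) := by
  have hN : (0 : ℤ) < N := by exact_mod_cast Nat.pos_of_ne_zero (NeZero.ne N)
  have h1 : (tI N n : ℤ) = -(n / (N : ℤ)) - 1 := by
    unfold tI at ht ⊢
    rw [Int.toNat_of_nonneg]
    by_contra hneg
    push Not at hneg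
    exact ht (Int.toNat_of_nonpos hneg.le)
  have h2 := Int.mul_ediv_add_emod n N
  have h3 := Int.emod_lt_of_pos n hN
  rw [h1]
  nlinarith

theorem smul_tendsto_lAt (γ : SL(2, ℤ)) (τ0 : ℍ) :
    Tendsto (fun τ : ℍ => γ • τ) (lAt τ0) (lAt (γ • τ0)) := by
  have hc : Continuous (fun τ : ℍ => γ • τ) :=
    continuous_const_smul (γ : GL (Fin 2) ℝ)
  refine tendsto_nhdsWithin_of_tendsto_nhds_of_eventually_within _
    ((hc.tendsto τ0).mono_left nhdsWithin_le_nhds) ?_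
  filter_upwards [self_mem_nhdsWithin] with τ hτ h
  exact hτ (MulAction.injective γ h)

theorem solveAt_spec {X : Type*} [Fintype X] [DecidableEq X] (F : X → ℍ → X → ℂ)
    (v : X → ℍ → ℂ) (τ : ℍ) (hdet : tdet F τ ≠ 0) (i : X) :
    ∑ x, F i τ x * solveAt F v τ x = v i τ := by
  have hu : IsUnit (Matrix.of fun i x => F i τ x).det := isUnit_iff_ne_zero.mpr hdet
  have h1 : Matrix.mulVec (Matrix.of fun i x => F i τ x) (solveAt F v τ) = fun i => v i τ := by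
    unfold solveAt
    rw [Matrix.mulVec_mulVec, Matrix.mul_nonsing_inv _ hu, Matrix.one_mulVec]
  have := congrFun h1 i
  simpa [Matrix.mulVec, dotProduct] using this

theorem solve_equiv {F : X0 N → ℍ → X0 N → ℂ} (hF : ∀ i, IsWH N (F i)) (v : X0 N → ℍ → ℂ)
    (γ : SL(2, ℤ)) (τ : ℍ)
    (hv2 : ∀ i, v i (γ • τ) = (denom (γ : GL (Fin 2) ℝ) τ) ^ (2 : ℤ) * v i τ)
    (hdet : tdet F τ ≠ 0) (y Y : X0 N → ℂ) (hy : ∀ i, ∑ x, F i τ x * y x = v i τ)
    (hY : ∀ i, ∑ x, F i (γ • τ) x * Y x = v i (γ • τ)) (z : X0 N) :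
    y z = (denom (γ : GL (Fin 2) ℝ) τ) ^ (-2 : ℤ) * Y (γ • z) := by
  have hd : denom (γ : GL (Fin 2) ℝ) τ ≠ 0 := denom_ne_zero _ _
  have := solve_unique hdet (y := y)
    (y' := fun z => (denom (γ : GL (Fin 2) ℝ) τ) ^ (-2 : ℤ) * Y (γ • z)) (fun i => by
      rw [hy i]
      have h1 : ∑ x, F i τ x * ((denom (γ : GL (Fin 2) ℝ) τ) ^ (-2 : ℤ) * Y (γ • x))
          = (denom (γ : GL (Fin 2) ℝ) τ) ^ (-2 : ℤ) * ∑ x, F i (γ • τ) x * Y x := by
        rw [Finset.mul_sum, ← Equiv.sum_comp (MulAction.toPerm γ)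
          (fun x => (denom (γ : GL (Fin 2) ℝ) τ) ^ (-2 : ℤ) * (F i (γ • τ) x * Y x))]
        refine Finset.sum_congr rfl fun x _ => ?_
        simp only [MulAction.toPerm_apply]
        rw [(hF i).equiv γ τ (γ • x), inv_smul_smul]
        ring
      rw [h1, hY i, hv2 i, ← mul_assoc, ← zpow_add₀ hd]
      simp)
  exact congrFun this z

section
variable {F : X0 N → ℍ → X0 N → ℂ} {n : X0 N → ℤ}

/-- the weight two functions `h_i / Δ ^ t_i` -/
noncomputable def vOf (n : X0 N → ℤ) (h : ∀ i, ModularForm 𝒮ℒ (12 * (tI N (n i) : ℤ) + 2))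
    (i : X0 N) (τ : ℍ) : ℂ := h i τ / discriminant τ ^ (tI N (n i))

variable (h : ∀ i, ModularForm 𝒮ℒ (12 * (tI N (n i) : ℤ) + 2))

theorem vOf_holo (i : X0 N) : MDiff (vOf n h i) :=
  (ModularFormClass.holo (h i)).div (disc_holo.pow _)
    (fun τ => pow_ne_zero _ (discriminant_ne_zero τ))

theorem vOf_smul (i : X0 N) (γ : SL(2, ℤ)) (τ : ℍ) :
    vOf n h i (γ • τ) = (denom (γ : GL (Fin 2) ℝ) τ) ^ (2 : ℤ) * vOf n h i τ := by
  unfold vOf
  rw [levelOne_apply_smul (h i) γ τ, disc_apply_smul γ τ]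
  have hd : denom (γ : GL (Fin 2) ℝ) τ ≠ 0 := denom_ne_zero _ _
  have hΔ := discriminant_ne_zero τ
  rw [mul_pow, zpow_add₀ hd, zpow_mul, ← zpow_natCast ((denom (γ : GL (Fin 2) ℝ) τ) ^ (12 : ℤ))]
  field_simp

theorem vOf_lead_at {τ0 : ℍ} {σ : SL(2, ℤ)} {e : ℕ} {ε : ℂ} (hE : EllData τ0 σ e ε) (i : X0 N) :
    ∃ b, Lead (lAt τ0) (uAt τ0) (vOf n h i) ((e : ℤ) - 1) b := by
  obtain ⟨b, hb⟩ := wt2_vanish hE (tI N (n i)) (h i)
  have hc : ContinuousAt (fun τ => (discriminant τ ^ (tI N (n i)))⁻¹) τ0 :=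
    ((disc_holo.continuous.pow _).continuousAt).inv₀ (pow_ne_zero _ (discriminant_ne_zero τ0))
  have h2 := hb.mul (uAt_ne_zero τ0) (lead_of_continuousAt τ0 _ hc)
  rw [add_zero] at h2
  refine ⟨_, h2.congr' (Eventually.of_forall fun τ => ?_)⟩
  simp [vOf, div_eq_mul_inv]

theorem levelOne_tendsto {k : ℤ} (f : ModularForm 𝒮ℒ k) : ∃ a, Tendsto f atImInfty (𝓝 a) := by
  have hanal := ModularFormClass.analyticAt_cuspFunction_zero f one_pos one_mem_strictPeriods_SL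
  exact ⟨_, (hanal.continuousAt.tendsto.comp (qParam_tendsto_atImInfty one_pos)).congr
    (fun τ ↦ SlashInvariantFormClass.eq_cuspFunction f τ one_mem_strictPeriods_SL one_ne_zero)⟩

theorem vOf_lead_infty (i : X0 N) : Lead atImInfty (qN N) (vOf n h i) (n i) 0 := by
  by_cases ht : tI N (n i) = 0
  · have h0 : h i = 0 := by
      have hr := finrank_levelOne (tI N (n i))
      rw [ht] at hr
      have : Subsingleton (ModularForm 𝒮ℒ (12 * ((tI N (n i) : ℕ) : ℤ) + 2)) := by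
        rw [ht]
        exact Module.finrank_zero_iff.mp hr
      exact Subsingleton.elim _ _
    have : vOf n h i = 0 := by
      funext τ
      simp [vOf, h0]
    rw [this]
    exact Lead.zero
  · obtain ⟨a, ha⟩ := levelOne_tendsto (h i)
    have h1 : Lead atImInfty (qN N) (h i) 0 a := Lead.of_tendsto ha
    have h2 := ((disc_lead_infty N).pow (qN_ev_ne_zero N) (tI N (n i))).inv
      (pow_ne_zero _ one_ne_zero)
    have h3 := h1.mul (qN_ev_ne_zero N) h2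
    have h4 : Lead atImInfty (qN N) (vOf n h i) (0 + -((tI N (n i) : ℤ) * (N : ℤ)))
        (a * ((1 : ℂ) ^ (tI N (n i)))⁻¹) := by
      refine h3.congr' (Eventually.of_forall fun τ => ?_)
      simp [vOf, div_eq_mul_inv]
    refine h4.of_lt (qN_ev_ne_zero N) (qN_tendsto N) ?_
    have := tI_lt (N := N) (n i) ht
    rw [zero_add, mul_comm]
    exact this

variable (hmax : IsMaxTup atImInfty (qN N) (WH N) F n)
include hmax

theorem F_holo (i x : X0 N) : MDiff (fun τ => F i τ x) := (hmax.1.mem i).holo x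

/-- local boundedness of the solution at a point with elliptic data -/
theorem solve_bdd_ell {τ0 : ℍ} {σ : SL(2, ℤ)} {e : ℕ} {ε : ℂ} (hE : EllData τ0 σ e ε) :
    ∃ C : ℝ, ∀ᶠ τ in lAt τ0, ∀ x, ‖solveAt F (vOf n h) τ x‖ ≤ C := by
  obtain ⟨F', n', A', C, hC, hF', hr, hA', hLI, -⟩ := local_struct hmax hE
  choose b hb using fun i => vOf_lead_at h hE i
  -- the transformed right hand side
  set v' : X0 N → ℍ → ℂ := fun i τ => ∑ k, C i k * vOf n h k τ with hv'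
  have hv'l : ∀ i, ∃ w, Lead (lAt τ0) (uAt τ0) (v' i) (n' i) w := by
    intro i
    have h1 : Lead (lAt τ0) (uAt τ0) (v' i) ((e : ℤ) - 1) (∑ k, C i k * b k) := by
      have := Lead.sum (l := lAt τ0) (u := uAt τ0) (n := (e : ℤ) - 1) Finset.univ
        (F := fun k => C i k • vOf n h k) (A := fun k => C i k • b k)
        (fun k _ => (hb k).const_smul (C i k))
      refine this.congr' (Eventually.of_forall fun τ => ?_)
      simp [hv', Finset.sum_apply]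
    have h2 : n' i ≤ (e : ℤ) - 1 := by have := (hr i).2; omega
    rcases h2.lt_or_eq with h3 | h3
    · exact ⟨0, h1.of_lt (uAt_ne_zero τ0) (uAt_tendsto τ0) h3⟩
    · exact ⟨_, h3 ▸ h1⟩
  choose w0 hw0 using hv'l
  have hy : ∀ᶠ τ in lAt τ0, ∀ i, ∑ x, F' i τ x * solveAt F (vOf n h) τ x = v' i τ := by
    filter_upwards [tdet_ev_ne_zero F (F_holo hmax) hmax.1.det_ne τ0] with τ hτ i
    simp only [hv', hF' i τ, Finset.sum_apply, Pi.smul_apply, smul_eq_mul, Finset.sum_mul]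
    rw [Finset.sum_comm]
    refine Finset.sum_congr rfl fun k _ => ?_
    rw [← solveAt_spec F (vOf n h) τ hτ k, Finset.mul_sum]
    exact Finset.sum_congr rfl fun x _ => by ring
  have hlim := solve_tendsto hA' (det_ne_zero_of_indep A' hLI) hw0 hy
  refine ⟨‖Matrix.mulVec (Matrix.of A')⁻¹ w0‖ + 1, ?_⟩
  have h1 : ∀ᶠ τ in lAt τ0, ‖solveAt F (vOf n h) τ‖ < ‖Matrix.mulVec (Matrix.of A')⁻¹ w0‖ + 1 :=
    hlim.norm.eventually_lt_const (by linarith)
  filter_upwards [h1] with τ hτ x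
  exact (norm_le_pi_norm _ x).trans hτ.le

theorem tdet_smul_ne_zero (γ : SL(2, ℤ)) (τ : ℍ) (hτ : tdet F τ ≠ 0) : tdet F (γ • τ) ≠ 0 := by
  have := tdet_sq_inv N hmax.1.mem γ τ
  intro h0
  rw [h0, zero_pow two_ne_zero] at this
  exact hτ (pow_eq_zero_iff (two_ne_zero) |>.mp this.symm)

theorem solve_bdd (τ0 : ℍ) :
    ∃ C : ℝ, ∀ᶠ τ in lAt τ0, ∀ x, ‖solveAt F (vOf n h) τ x‖ ≤ C := by
  -- reduce to a point with elliptic data
  obtain ⟨γ, σ, e, ε, hE⟩ : ∃ (γ : SL(2, ℤ)) (σ : SL(2, ℤ)) (e : ℕ) (ε : ℂ),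
      EllData (γ • τ0) σ e ε := by
    rcases orbit_cases τ0 with ⟨h4, h6⟩ | ⟨γ, hγ⟩ | ⟨γ, hγ⟩
    · exact ⟨1, 1, 1, 1, by rw [one_smul]; exact ellData_generic τ0 h4 h6⟩
    · exact ⟨γ, _, _, _, hγ ▸ ellData_I⟩
    · obtain ⟨ε, hε⟩ := ellData_rho
      exact ⟨γ, _, _, _, hγ ▸ hε⟩
  obtain ⟨C, hC⟩ := solve_bdd_ell h hmax hE
  have hC' := (smul_tendsto_lAt γ τ0).eventually hC
  -- the automorphy factor is bounded
  have hdc : ContinuousAt (fun τ : ℍ => ‖(denom (γ : GL (Fin 2) ℝ) τ) ^ (-2 : ℤ)‖) τ0 := by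
    have h1 : Continuous (fun τ : ℍ => denom (γ : GL (Fin 2) ℝ) τ) := by
      unfold denom
      fun_prop
    exact ((h1.continuousAt).zpow₀ _ (Or.inl (denom_ne_zero _ _))).norm
  have hdb : ∀ᶠ τ : ℍ in lAt τ0, ‖(denom (γ : GL (Fin 2) ℝ) τ) ^ (-2 : ℤ)‖
      < ‖(denom (γ : GL (Fin 2) ℝ) τ0) ^ (-2 : ℤ)‖ + 1 :=
    (hdc.tendsto.mono_left nhdsWithin_le_nhds).eventually_lt_const (by linarith)
  refine ⟨(‖(denom (γ : GL (Fin 2) ℝ) τ0) ^ (-2 : ℤ)‖ + 1) * |C|, ?_⟩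
  filter_upwards [hC', hdb, tdet_ev_ne_zero F (F_holo hmax) hmax.1.det_ne τ0] with τ h1 h2 h3 x
  rw [solve_equiv hmax.1.mem (vOf n h) γ τ (fun i => vOf_smul h i γ τ) h3 _
    (solveAt F (vOf n h) (γ • τ)) (solveAt_spec F _ τ h3)
    (solveAt_spec F _ (γ • τ) (tdet_smul_ne_zero hmax γ τ h3)) x, norm_mul]
  exact mul_le_mul h2.le ((h1 _).trans (le_abs_self C)) (norm_nonneg _) (by positivity)

end

end Fermat.Agent.S20Lib
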