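import Mathlib

set_option autoImplicit false
open Filter Topology

namespace Fermat.Agent.S20Lib

variable {α : Type*} {E : Type*} [NormedAddCommGroup E] [NormedSpace ℂ E]

theorem prod_zpow_neg {ι : Type*} {a : ℂ} (ha : a ≠ 0) (s : Finset ι) (n : ι → ℤ) :
    ∏ i ∈ s, a ^ (-(n i)) = a ^ (-(∑ i ∈ s, n i)) := by
  classical
  induction s using Finset.induction_on with
  | empty => simp
  | insert b s hb ih =>
    rw [Finset.prod_insert hb, Finset.sum_insert hb, ih, neg_add, zpow_add₀ ha]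

/-- `F` behaves like `u ^ n • A` along the filter `l`. -/
def Lead (l : Filter α) (u : α → ℂ) (F : α → E) (n : ℤ) (A : E) : Prop :=
  Tendsto (fun τ => (u τ) ^ (-n) • F τ) l (𝓝 A)

namespace Lead

variable {l : Filter α} {u : α → ℂ} {F G : α → E} {n m : ℤ} {A B : E}

theorem add (hF : Lead l u F n A) (hG : Lead l u G n B) : Lead l u (F + G) n (A + B) := by
  unfold Lead at *
  simpa [smul_add] using hF.add hG

theorem const_smul (c : ℂ) (hF : Lead l u F n A) : Lead l u (c • F) n (c • A) := by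
  unfold Lead at *
  have := hF.const_smul c
  refine this.congr (fun τ => ?_)
  simp [smul_comm c]

theorem zero : Lead l u (0 : α → E) n 0 := by
  unfold Lead
  simpa using tendsto_const_nhds

theorem sum {ι : Type*} (s : Finset ι) {F : ι → α → E} {A : ι → E}
    (h : ∀ i ∈ s, Lead l u (F i) n (A i)) : Lead l u (∑ i ∈ s, F i) n (∑ i ∈ s, A i) := by
  classical
  induction s using Finset.induction_on with
  | empty => simpa using zero
  | insert a s ha ih =>
    rw [Finset.sum_insert ha, Finset.sum_insert ha]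
    exact (h a (Finset.mem_insert_self a s)).add
      (ih fun i hi => h i (Finset.mem_insert_of_mem hi))

theorem congr' {F' : α → E} (hF : Lead l u F n A) (h : F =ᶠ[l] F') : Lead l u F' n A := by
  unfold Lead at *
  refine hF.congr' ?_
  filter_upwards [h] with τ hτ
  rw [hτ]

/-- product of a scalar function and a vector valued function -/
theorem smul' {f : α → ℂ} {a : ℂ} (hu0 : ∀ᶠ τ in l, u τ ≠ 0)
    (hf : Lead l u f m a) (hF : Lead l u F n A) :
    Lead l u (fun τ => f τ • F τ) (m + n) (a • A) := by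
  unfold Lead at *
  refine (hf.smul hF).congr' ?_
  filter_upwards [hu0] with τ hτ
  rw [neg_add, zpow_add₀ hτ]
  simp only [smul_eq_mul, smul_smul]
  ring_nf

theorem of_lt (hu0 : ∀ᶠ τ in l, u τ ≠ 0) (hu : Tendsto u l (𝓝 0))
    (hF : Lead l u F n A) (hmn : m < n) : Lead l u F m 0 := by
  unfold Lead at *
  obtain ⟨k, hk⟩ : ∃ k : ℕ, n - m = k + 1 := ⟨(n - m - 1).toNat, by omega⟩
  have h1 : Tendsto (fun τ => (u τ) ^ (k + 1)) l (𝓝 0) := by
    have := hu.pow (k + 1)
    simpa using this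
  have h2 := h1.smul hF
  rw [zero_smul] at h2
  refine h2.congr' ?_
  filter_upwards [hu0] with τ hτ
  rw [smul_smul]
  congr 1
  rw [← zpow_natCast, ← zpow_add₀ hτ]
  congr 1
  push_cast
  omega

theorem of_le_zero (hu0 : ∀ᶠ τ in l, u τ ≠ 0) (hu : Tendsto u l (𝓝 0))
    (hF : Lead l u F n 0) (hmn : m ≤ n) : Lead l u F m 0 := by
  rcases hmn.lt_or_eq with h | h
  · exact hF.of_lt hu0 hu h
  · exact h ▸ hF

theorem unique [l.NeBot] (hF : Lead l u F n A) (hF' : Lead l u F n B) : A = B :=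
  tendsto_nhds_unique hF hF'

theorem order_unique [l.NeBot] (hu0 : ∀ᶠ τ in l, u τ ≠ 0) (hu : Tendsto u l (𝓝 0))
    (hF : Lead l u F n A) (hA : A ≠ 0) (hF' : Lead l u F m B) (hB : B ≠ 0) : n = m := by
  rcases lt_trichotomy n m with h | h | h
  · exact absurd ((hF'.of_lt hu0 hu h).unique hF).symm hA
  · exact h
  · exact absurd ((hF.of_lt hu0 hu h).unique hF').symm hB

/-- If `F` has a nonzero leading term of order `n` and also `Lead F m B`, then `m ≤ n`. -/
theorem le_of_ne_zero [l.NeBot] (hu0 : ∀ᶠ τ in l, u τ ≠ 0) (hu : Tendsto u l (𝓝 0))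
    (hF : Lead l u F n A) (hA : A ≠ 0) (hF' : Lead l u F m B) : m ≤ n := by
  by_contra h
  push Not at h
  exact hA ((hF'.of_lt hu0 hu h).unique hF).symm

theorem tendsto_zero (hu0 : ∀ᶠ τ in l, u τ ≠ 0) (hu : Tendsto u l (𝓝 0))
    (hF : Lead l u F n A) (hn : 0 < n) : Tendsto F l (𝓝 0) := by
  have := hF.of_lt hu0 hu hn
  unfold Lead at this
  simpa using this

theorem tendsto_of_zero (hF : Lead l u F 0 A) : Tendsto F l (𝓝 A) := by
  unfold Lead at hF
  simpa using hF

theorem of_tendsto (hF : Tendsto F l (𝓝 A)) : Lead l u F 0 A := by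
  unfold Lead
  simpa using hF

theorem const (A : E) : Lead l u (fun _ => A) 0 A := of_tendsto tendsto_const_nhds

theorem self_zpow (hu0 : ∀ᶠ τ in l, u τ ≠ 0) (k : ℤ) : Lead l u (fun τ => (u τ) ^ k) k 1 := by
  unfold Lead
  refine tendsto_const_nhds.congr' ?_
  filter_upwards [hu0] with τ hτ
  rw [smul_eq_mul, ← zpow_add₀ hτ]
  simp

theorem mul {f g : α → ℂ} {a b : ℂ} (hu0 : ∀ᶠ τ in l, u τ ≠ 0)
    (hf : Lead l u f m a) (hg : Lead l u g n b) :
    Lead l u (fun τ => f τ * g τ) (m + n) (a * b) := by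
  simpa using hf.smul' hu0 hg

theorem pow {f : α → ℂ} {a : ℂ} (hu0 : ∀ᶠ τ in l, u τ ≠ 0)
    (hf : Lead l u f m a) (k : ℕ) : Lead l u (fun τ => f τ ^ k) (k * m) (a ^ k) := by
  induction k with
  | zero => simpa using const (l := l) (u := u) (1 : ℂ)
  | succ k ih =>
    have := ih.mul hu0 hf
    simp only [pow_succ]
    convert this using 1
    push_cast
    ring

theorem inv {f : α → ℂ} {a : ℂ} (hf : Lead l u f m a) (ha : a ≠ 0) :
    Lead l u (fun τ => (f τ)⁻¹) (-m) a⁻¹ := by
  unfold Lead at *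
  refine (hf.inv₀ ha).congr (fun τ => ?_)
  simp [zpow_neg, mul_comm]

theorem prod {ι : Type*} (s : Finset ι) {f : ι → α → ℂ} {n : ι → ℤ} {a : ι → ℂ}
    (hu0 : ∀ᶠ τ in l, u τ ≠ 0) (h : ∀ i ∈ s, Lead l u (f i) (n i) (a i)) :
    Lead l u (fun τ => ∏ i ∈ s, f i τ) (∑ i ∈ s, n i) (∏ i ∈ s, a i) := by
  classical
  induction s using Finset.induction_on with
  | empty => simpa using const (l := l) (u := u) (1 : ℂ)
  | insert b s hb ih =>
    simp only [Finset.prod_insert hb, Finset.sum_insert hb]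
    exact (h b (Finset.mem_insert_self b s)).mul hu0
      (ih fun i hi => h i (Finset.mem_insert_of_mem hi))

/-- components -/
theorem apply {X : Type*} [Fintype X] {F : α → X → ℂ} {A : X → ℂ}
    (hF : Lead l u F n A) (x : X) : Lead l u (fun τ => F τ x) n (A x) := by
  unfold Lead at *
  exact (tendsto_pi_nhds.mp hF x)

theorem of_apply {X : Type*} [Fintype X] {F : α → X → ℂ} {A : X → ℂ}
    (hF : ∀ x, Lead l u (fun τ => F τ x) n (A x)) : Lead l u F n A := by
  unfold Lead at *
  exact tendsto_pi_nhds.mpr hF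

/-- the determinant of a tuple with leading terms -/
theorem det {X : Type*} [Fintype X] [DecidableEq X] {F : X → α → X → ℂ} {n : X → ℤ}
    {A : X → X → ℂ} (hu0 : ∀ᶠ τ in l, u τ ≠ 0) (hF : ∀ i, Lead l u (F i) (n i) (A i)) :
    Lead l u (fun τ => (Matrix.of fun i x => F i τ x).det) (∑ i, n i) (Matrix.of A).det := by
  unfold Lead at *
  have h1 : Tendsto (fun τ => (Matrix.of fun i x => ((u τ) ^ (-(n i)) • F i τ) x : Matrix X X ℂ))
      l (𝓝 (Matrix.of A)) := by
    refine tendsto_pi_nhds.mpr fun i => ?_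
    exact hF i
  have h2 := ((Continuous.matrix_det continuous_id).tendsto (Matrix.of A)).comp h1
  refine h2.congr' ?_
  filter_upwards [hu0] with τ hτ
  simp only [Function.comp, id]
  have : (Matrix.of fun i x => ((u τ) ^ (-(n i)) • F i τ) x : Matrix X X ℂ)
      = Matrix.of fun i x => (u τ) ^ (-(n i)) * (Matrix.of fun i x => F i τ x) i x := by
    ext i x
    simp
  rw [this, Matrix.det_mul_column]
  rw [smul_eq_mul]
  congr 1
  exact prod_zpow_neg hτ Finset.univ n

end Lead

end Fermat.Agent.S20Lib
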