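import Fermat.Agent.S20.Max

set_option autoImplicit false
open UpperHalfPlane hiding I
open ModularForm EisensteinSeries Complex Filter Topology CongruenceSubgroup
open scoped MatrixGroups Manifold

namespace Fermat.Agent.S20Lib

variable {N : ℕ} [NeZero N]
set_option linter.unusedSectionVars false

theorem orbCount_inv (σ : SL(2, ℤ)) : orbCount N σ⁻¹ = orbCount N σ := by
  unfold orbCount
  rw [Subgroup.zpowers_inv]

theorem count_of_indep (σ : SL(2, ℤ)) (A : X0 N → X0 N → ℂ) (hLI : LinearIndependent ℂ A)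
    (n : X0 N → ℤ) (e : ℕ) (he : 0 < e) (ζ : ℂ) (hζ : IsPrimitiveRoot ζ e)
    (hA : ∀ i x, A i (σ⁻¹ • x) = ζ ^ (n i) * A i x) :
    2 * ∑ i, (n i % (e : ℤ)) + (e : ℤ) * orbCount N σ = (e : ℤ) * Nat.card (X0 N) := by
  have hcard : Fintype.card (X0 N) = Module.finrank ℂ (X0 N → ℂ) := by
    rw [Module.finrank_fintype_fun_eq_card]
  set b := basisOfLinearIndependentOfCardEqFinrank hLI hcard with hb
  have hbA : ∀ i, b i = A i := fun i => by
    rw [hb, coe_basisOfLinearIndependentOfCardEqFinrank]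
  have := eigen_count (σ⁻¹) b n e he ζ hζ (fun i x => by rw [hbA]; exact hA i x)
  rw [← orbCount_inv σ, Nat.card_eq_fintype_card]
  exact this

theorem tdet_mul_matrix {α : Type*} (F F' : X0 N → α → X0 N → ℂ) (C : Matrix (X0 N) (X0 N) ℂ)
    (h : ∀ i τ, F' i τ = ∑ k, C i k • F k τ) (τ : α) : tdet F' τ = C.det * tdet F τ := by
  unfold tdet
  rw [← Matrix.det_mul]
  congr 1
  ext i x
  simp [Matrix.mul_apply, h i τ, Finset.sum_apply]

theorem EllData.epos {τ0 : ℍ} {σ : SL(2, ℤ)} {e : ℕ} {ε : ℂ} (hE : EllData τ0 σ e ε) : 0 < e :=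
  Nat.pos_of_dvd_of_pos hE.dvd (by norm_num)

theorem local_struct {F : X0 N → ℍ → X0 N → ℂ} {n : X0 N → ℤ}
    (hmax : IsMaxTup atImInfty (qN N) (WH N) F n)
    {τ0 : ℍ} {σ : SL(2, ℤ)} {e : ℕ} {ε : ℂ} (hE : EllData τ0 σ e ε) :
    ∃ (F' : X0 N → ℍ → X0 N → ℂ) (n' : X0 N → ℤ) (A' : X0 N → X0 N → ℂ)
      (C : Matrix (X0 N) (X0 N) ℂ),
      C.det ≠ 0 ∧ (∀ i τ, F' i τ = ∑ k, C i k • F k τ) ∧ (∀ i, 0 ≤ n' i ∧ n' i < e) ∧
      (∀ i, Lead (lAt τ0) (uAt τ0) (F' i) (n' i) (A' i)) ∧ LinearIndependent ℂ A' ∧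
      2 * ∑ i, n' i + (e : ℤ) * orbCount N σ = (e : ℤ) * Nat.card (X0 N) := by
  classical
  have hu0 := uAt_ne_zero τ0
  have hu := uAt_tendsto τ0
  set 𝔅 : Set (ℍ → X0 N → ℂ) := {G | ∃ c : X0 N → ℂ, G = fun τ => ∑ k, c k • F k τ} with h𝔅
  have hWH : ∀ G ∈ 𝔅, IsWH N G := by
    rintro G ⟨c, rfl⟩
    exact IsWH.comb0 hmax.1.mem c
  have hexB : ∀ G ∈ 𝔅, G ≠ 0 → ∃ m, HasOrd (lAt τ0) (uAt τ0) G m := by
    intro G hG h0
    obtain ⟨m, _, hm⟩ := exists_ord_at N τ0 (hWH G hG).holo h0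
    exact ⟨m, hm⟩
  have hrange : ∀ G ∈ 𝔅, ∀ m, HasOrd (lAt τ0) (uAt τ0) G m → 0 ≤ m ∧ m < e := by
    intro G hG m ⟨A, hA0, hA⟩
    have hG0 : G ≠ 0 := by
      rintro rfl
      exact hA0 (hA.unique Lead.zero)
    obtain ⟨m0, hm0, A0, hA00, hA0'⟩ := exists_ord_at N τ0 (hWH G hG).holo hG0
    have hmm : m = m0 := hA.order_unique hu0 hu hA0 hA0' hA00
    refine ⟨hmm ▸ hm0, ?_⟩
    by_contra hle
    push Not at hle
    obtain ⟨c, rfl⟩ := hG
    have hc : c ≠ 0 := by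
      rintro rfl
      exact hG0 (by funext τ; simp)
    rcases hle.lt_or_eq with h | h
    · exact no_high_order hmax hE c hc 0 (hA.of_lt hu0 hu h)
    · exact no_high_order hmax hE c hc A (h ▸ hA)
  have hFmem : ∀ i, F i ∈ 𝔅 := by
    intro i
    refine ⟨Pi.single i 1, ?_⟩
    funext τ
    simp [Pi.single_apply, ite_smul]
  have hF0 : ∀ i, F i ≠ 0 := by
    intro i hi
    obtain ⟨τ, hτ⟩ := hmax.1.det_ne
    exact hτ (tdet_eq_zero_of_row_zero F i τ (by simp [hi]))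
  have hne : ∃ F' n', IsTup (lAt τ0) (uAt τ0) 𝔅 F' n' := by
    choose n0 hn0 using fun i => hexB (F i) (hFmem i) (hF0 i)
    exact ⟨F, n0, hFmem, hmax.1.det_ne, hn0⟩
  obtain ⟨F', n', hmax'⟩ := exists_isMaxTup hne ((Fintype.card (X0 N) : ℤ) * e) (by
    intro F' n' h
    have : ∀ i ∈ Finset.univ, n' i ≤ (e : ℤ) := fun i _ =>
      (hrange (F' i) (h.mem i) (n' i) (h.ord i)).2.le
    have h2 := Finset.sum_le_sum this
    simpa using h2)
  choose C hC using hmax'.1.mem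
  have hC' : ∀ i τ, F' i τ = ∑ k, C i k • F k τ := fun i τ => by rw [hC i]
  have hdetC : (Matrix.of C).det ≠ 0 := by
    obtain ⟨τ, hτ⟩ := hmax'.1.det_ne
    rw [tdet_mul_matrix F F' (Matrix.of C) hC' τ] at hτ
    exact left_ne_zero_of_mul hτ
  choose A' hA'0 hA' using hmax'.1.ord
  have hr : ∀ i, 0 ≤ n' i ∧ n' i < e := fun i =>
    hrange (F' i) (hmax'.1.mem i) (n' i) (hmax'.1.ord i)
  have heig : ∀ i x, A' i (σ⁻¹ • x) = ε ^ (n' i) * A' i x := fun i x =>
    lead_at_eigen N hE (hWH _ (hmax'.1.mem i)) (hA' i) x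
  have hLI : LinearIndependent ℂ A' := by
    refine hmax'.lead_indep hu0 hu hexB A' hA' (pOp N σ) ε e hE.epos hE.prim ?_
      (fun τ => (uAt τ0 τ) ^ (-(e : ℤ))) (Lead.self_zpow hu0 _) ?_
    · intro i
      funext x
      rw [pOp_apply, heig i x]
      rfl
    · intro i0 c a hca
      have ha : ∀ i, c i ≠ 0 → a i = 0 := by
        intro i hi
        have h1 := hca i hi
        have h2 := hr i
        have h3 := hr i0
        have he : (0 : ℤ) < e := by exact_mod_cast hE.epos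
        by_contra hne
        have h4 : (1 : ℤ) ≤ a i := by
          have : 0 < a i := Nat.pos_of_ne_zero hne
          exact_mod_cast this
        nlinarith
      refine ⟨fun k => ∑ i, c i * C i k, ?_⟩
      funext τ
      have : ∀ i, (c i * ((uAt τ0 τ) ^ (-(e : ℤ))) ^ a i) • F' i τ = c i • F' i τ := by
        intro i
        by_cases hi : c i = 0
        · simp [hi]
        · simp [ha i hi]
      rw [Finset.sum_congr rfl (fun i _ => this i)]
      simp only [hC']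
      simp only [Finset.smul_sum, Finset.sum_smul, smul_smul]
      rw [Finset.sum_comm]
  refine ⟨F', n', A', Matrix.of C, hdetC, hC', hr, hA', hLI, ?_⟩
  have := count_of_indep σ A' hLI n' e hE.epos ε hE.prim heig
  have hmod : ∀ i, n' i % (e : ℤ) = n' i := fun i => Int.emod_eq_of_lt (hr i).1 (hr i).2
  simpa [hmod] using this

end Fermat.Agent.S20Lib
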