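import Fermat.Agent.S20.Basic
import Fermat.Agent.S23.PHI

set_option autoImplicit false
open UpperHalfPlane hiding I
open ModularForm EisensteinSeries Complex Filter Topology CongruenceSubgroup
open scoped MatrixGroups Manifold

namespace Fermat.Agent.S20Lib

theorem tup_vec_eq (N : ℕ) (k : ℤ) (f : ℍ → ℂ) (x : X0 N) :
    (fun τ => vec N k f τ x) = f ∣[k] ((x.out)⁻¹ : SL(2, ℤ)) := rfl

/-- equivariance of the vector of conjugates of a `Γ₀(N)`-invariant function -/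
theorem tup_vec_slash (N : ℕ) (k : ℤ) (f : ℍ → ℂ) (hf : ∀ δ ∈ Gamma0 N, f ∣[k] δ = f)
    (γ : SL(2, ℤ)) (x : X0 N) :
    (fun τ => vec N k f τ x) ∣[k] γ = fun τ => vec N k f τ (γ⁻¹ • x) := by
  rw [tup_vec_eq, tup_vec_eq]
  set y := γ⁻¹ • x with hy
  have h1 : ((γ⁻¹ * x.out : SL(2, ℤ)) : X0 N) = (y.out : X0 N) := by
    rw [QuotientGroup.out_eq', hy]
    conv_rhs => rw [← QuotientGroup.out_eq' x]
    rfl
  have h2 : (γ⁻¹ * x.out)⁻¹ * y.out ∈ Gamma0 N := QuotientGroup.eq.1 h1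
  have h3 : (y.out)⁻¹ = ((γ⁻¹ * x.out)⁻¹ * y.out)⁻¹ * ((x.out)⁻¹ * γ) := by group
  rw [h3, SlashAction.slash_mul, hf _ (inv_mem h2), SlashAction.slash_mul]

theorem tup_apply_smul (k : ℤ) (h : ℍ → ℂ) (γ : SL(2, ℤ)) (τ : ℍ) :
    h (γ • τ) = (denom (γ : GL (Fin 2) ℝ) τ) ^ k * (h ∣[k] γ) τ := by
  rw [SL_slash_apply]
  have h1 : denom (γ : GL (Fin 2) ℝ) τ ≠ 0 := denom_ne_zero _ _
  rw [mul_comm, mul_assoc, ← zpow_add₀ h1]
  simp

/-- the conjugates of the weight `0` function `φ E₄² / Δ` -/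
noncomputable def tupG (N : ℕ) (φ : ℍ → ℂ) (τ : ℍ) (x : X0 N) : ℂ :=
  vec N 4 φ τ x * E₄ τ ^ 2 / discriminant τ

theorem tupG_equiv (N : ℕ) (φ : ℍ → ℂ) (hφ : ∀ δ ∈ Gamma0 N, φ ∣[(4 : ℤ)] δ = φ)
    (γ : SL(2, ℤ)) (τ : ℍ) (x : X0 N) : tupG N φ (γ • τ) x = tupG N φ τ (γ⁻¹ • x) := by
  unfold tupG
  have h0 := tup_apply_smul 4 (fun τ => vec N 4 φ τ x) γ τ
  rw [tup_vec_slash N 4 φ hφ γ x] at h0
  simp only at h0
  rw [h0, disc_smul, E4_smul]
  have h1 : denom (γ : GL (Fin 2) ℝ) τ ≠ 0 := denom_ne_zero _ _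
  have h2 := discriminant_ne_zero τ
  field_simp

theorem tupG_isWH (N : ℕ) [NeZero N] (φ : ModularForm (Gamma0 N) 4) (k : ℕ) :
    IsWH N (fun τ x => tupG N φ τ x ^ k) where
  holo x := by
    have h1 : MDiff (fun τ => vec N 4 φ τ x) := (ModularForm.translate φ ((x.out)⁻¹ : SL(2, ℤ))).holo'
    exact (((h1.mul (E₄.holo'.pow 2)).div disc_holo discriminant_ne_zero)).pow k
  equiv γ τ x := by
    rw [tupG_equiv N φ (fun δ hδ => SlashInvariantForm.slash_action_eqn φ _ ⟨δ, hδ, rfl⟩)]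
  mero := by
    refine ⟨k, fun x => ?_⟩
    have h1 : IsBoundedAtImInfty (fun τ => vec N 4 φ τ x) :=
      ModularFormClass.bdd_at_infty_slash φ ((x.out)⁻¹ : SL(2, ℤ))
    have h2 : IsBoundedAtImInfty (fun τ => vec N 4 φ τ x * (E₄ τ * E₄ τ)) :=
      h1.mul (E4_bdd.mul E4_bdd)
    have h3 : ∀ k : ℕ, IsBoundedAtImInfty (fun τ => (vec N 4 φ τ x * (E₄ τ * E₄ τ)) ^ k) := by
      intro k
      induction k with
      | zero =>
        simp only [pow_zero]
        exact const_boundedAtFilter atImInfty (1 : ℂ)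
      | succ k ih =>
        simp only [pow_succ]
        exact ih.mul h2
    refine (h3 k).congr' (Eventually.of_forall fun τ => ?_) (Eventually.of_forall fun _ => rfl)
    simp only [tupG]
    have h2 := discriminant_ne_zero τ
    rw [div_pow]
    field_simp

theorem tupG_injective (N : ℕ) [NeZero N] (φ : ModularForm (Gamma0 N) 4)
    (hφ : ∀ γ : SL(2, ℤ), (⇑φ) ∣[(4 : ℤ)] γ = ⇑φ → γ ∈ Gamma0 N) (x y : X0 N)
    (h : (fun τ => tupG N φ τ x) = fun τ => tupG N φ τ y) : x = y := by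
  have hx : MDiff (fun τ => vec N 4 φ τ x) := (ModularForm.translate φ ((x.out)⁻¹ : SL(2, ℤ))).holo'
  have hy : MDiff (fun τ => vec N 4 φ τ y) := (ModularForm.translate φ ((y.out)⁻¹ : SL(2, ℤ))).holo'
  have h1 : ((fun τ => vec N 4 φ τ x) - fun τ => vec N 4 φ τ y) * ((E₄ : ℍ → ℂ) ^ 2) = 0 := by
    ext τ
    have := congrFun h τ
    simp only [tupG] at this
    have h2 := discriminant_ne_zero τ
    rw [div_left_inj' h2] at this
    simp only [Pi.mul_apply, Pi.sub_apply, Pi.pow_apply, Pi.zero_apply]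
    linear_combination this
  rw [UpperHalfPlane.mul_eq_zero_iff (hx.sub hy) ((ModularFormClass.holo E₄).pow 2)] at h1
  rcases h1 with h1 | h1
  · rw [sub_eq_zero, tup_vec_eq, tup_vec_eq] at h1
    have h2 : (⇑φ) ∣[(4 : ℤ)] ((x.out)⁻¹ * y.out : SL(2, ℤ)) = ⇑φ := by
      rw [SlashAction.slash_mul, h1, ← SlashAction.slash_mul]
      simp
    have h3 := hφ _ h2
    have h4 : ((x.out : SL(2, ℤ)) : X0 N) = (y.out : X0 N) := QuotientGroup.eq.2 h3
    simpa using h4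
  · exfalso
    have h2 : (E₄ : ℍ → ℂ) = 0 := by
      ext τ
      have := congrFun h1 τ
      simpa using this
    have h3 := E₄_qExpansion_coeff_one
    rw [h2, qExpansion_zero] at h3
    simp at h3

theorem exists_tuple (N : ℕ) [NeZero N] :
    ∃ F : X0 N → ℍ → X0 N → ℂ, (∀ i, IsWH N (F i)) ∧ ∃ τ, tdet F τ ≠ 0 := by
  obtain ⟨φ, -, hφ⟩ := Fermat.Agent.S23L.exists_phi N
  let e : X0 N ≃ Fin (Fintype.card (X0 N)) := Fintype.equivFin (X0 N)
  refine ⟨fun i τ x => tupG N φ τ x ^ (e i : ℕ), fun i => tupG_isWH N φ _, ?_⟩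
  -- a point where all conjugates are distinct
  have hprod : ∏ p ∈ (Finset.univ : Finset (X0 N × X0 N)).filter (fun p => p.1 ≠ p.2),
      ((fun τ => tupG N φ τ p.1) - fun τ => tupG N φ τ p.2) ≠ 0 := by
    intro h0
    rw [UpperHalfPlane.prod_eq_zero_iff] at h0
    · obtain ⟨p, hp, hp0⟩ := h0
      rw [sub_eq_zero] at hp0
      exact (Finset.mem_filter.1 hp).2 (tupG_injective N φ hφ _ _ hp0)
    · intro p _
      have h1 := fun x => (tupG_isWH N φ 1).holo x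
      simp only [pow_one] at h1
      exact (h1 p.1).sub (h1 p.2)
  obtain ⟨τ, hτ⟩ : ∃ τ, (∏ p ∈ (Finset.univ : Finset (X0 N × X0 N)).filter (fun p => p.1 ≠ p.2),
      ((fun τ => tupG N φ τ p.1) - fun τ => tupG N φ τ p.2)) τ ≠ 0 := by
    by_contra hcon
    push Not at hcon
    exact hprod (funext hcon)
  refine ⟨τ, ?_⟩
  have hinj : Function.Injective (fun x => tupG N φ τ x) := by
    intro x y hxy
    by_contra hne
    apply hτ
    rw [Finset.prod_apply]
    refine Finset.prod_eq_zero (i := (x, y)) (Finset.mem_filter.2 ⟨Finset.mem_univ _, hne⟩) ?_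
    simp only [Pi.sub_apply]
    exact sub_eq_zero.2 hxy
  have hmat : (Matrix.of fun i x => tupG N φ τ x ^ (e i : ℕ))
      = ((Matrix.vandermonde (fun j => tupG N φ τ (e.symm j))).transpose).submatrix e e := by
    ext i x
    simp [Matrix.vandermonde_apply]
  unfold tdet
  rw [hmat, Matrix.det_submatrix_equiv_self, Matrix.det_transpose,
    Matrix.det_vandermonde_ne_zero_iff]
  exact hinj.comp e.symm.injective

end Fermat.Agent.S20Lib
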