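import Fermat.Agent.S20.Basic
import Fermat.Agent.S20.Solve
import Fermat.Agent.S20.DivLemma

set_option autoImplicit false
open UpperHalfPlane hiding I
open ModularForm EisensteinSeries Complex Filter Topology CongruenceSubgroup
open scoped MatrixGroups Manifold

namespace Fermat.Agent.S20Lib

theorem val_mdiff_comp_smul {f : ℍ → ℂ} (hf : MDiff f) (γ : SL(2, ℤ)) :
    MDiff (fun τ => f (γ • τ)) := by
  have h : (fun τ => f (γ • τ)) = f ∣[(0 : ℤ)] γ := by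
    ext τ
    rw [SL_slash_apply]
    simp
  rw [h]
  exact hf.slash 0 _

theorem val_ne_zero_of_lead {l : Filter ℍ} [l.NeBot] {u : ℍ → ℂ} {g : ℍ → ℂ} {n : ℤ} {b : ℂ}
    (hb : b ≠ 0) (hg : Lead l u g n b) : ∀ᶠ τ in l, g τ ≠ 0 := by
  have h1 : ∀ᶠ τ in l, (u τ) ^ (-n) • g τ ≠ 0 := hg.eventually_ne hb
  filter_upwards [h1] with τ hτ h
  apply hτ
  rw [h, smul_zero]

theorem valence_le (N : ℕ) [NeZero N] (f g : ℍ → ℂ) (hf : MDiff f) (hg : MDiff g)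
    (hfi : ∀ (γ : SL(2, ℤ)) (τ : ℍ), f (γ • τ) = f τ)
    (hgi : ∀ (γ : SL(2, ℤ)) (τ : ℍ), g (γ • τ) = g τ)
    (hloc : ∀ τ0 : ℍ, ∃ (γ : SL(2, ℤ)) (m : ℤ) (a b : ℂ), a ≠ 0 ∧ b ≠ 0 ∧
      Lead (lAt (γ • τ0)) (uAt (γ • τ0)) f m a ∧ Lead (lAt (γ • τ0)) (uAt (γ • τ0)) g m b)
    (n n' : ℤ) (a b : ℂ) (ha : a ≠ 0) (hb : b ≠ 0)
    (hfl : Lead atImInfty (qN N) f n a) (hgl : Lead atImInfty (qN N) g n' b) : n ≤ n' := by
  by_contra hlt
  push Not at hlt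
  have hU : IsOpen {z : ℂ | 0 < z.im} := isOpen_upperHalfPlaneSet
  have hg0 : ∃ τ, g τ ≠ 0 := (val_ne_zero_of_lead hb hgl).exists
  -- the quotient
  obtain ⟨H, hH, hHg⟩ := Fermat.Agent.S23L.exists_differentiableOn_mul_eq hU
    (UpperHalfPlane.mdifferentiable_iff.mp hf) (UpperHalfPlane.mdifferentiable_iff.mp hg)
    (fun c hc => slv_ev_ne_zero_of_mdiff hg hg0 c hc) (by
      intro c hc
      obtain ⟨γ, m, a', b', ha', hb', h1, h2⟩ := hloc ⟨c, hc⟩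
      have h3 : Lead (lAt (γ • ⟨c, hc⟩)) (uAt (γ • ⟨c, hc⟩)) (fun τ => f τ * (g τ)⁻¹) (m + -m)
          (a' * b'⁻¹) := h1.mul (uAt_ne_zero _) (h2.inv hb')
      rw [add_neg_cancel] at h3
      have h4 : Tendsto (fun τ => f τ * (g τ)⁻¹) (lAt (γ • ⟨c, hc⟩)) (𝓝 (a' * b'⁻¹)) :=
        h3.tendsto_of_zero
      rw [← map_smul_lAt, tendsto_map'_iff] at h4
      have h5 := (h4.comp (slv_tendsto_ofComplex_lAt ⟨c, hc⟩)).norm
      refine ⟨‖a' * b'⁻¹‖ + 1, ?_⟩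
      filter_upwards [h5.eventually_lt_const (lt_add_one _)] with z hz
      simp only [Function.comp_apply, hfi, hgi] at hz
      rw [div_eq_mul_inv]
      exact hz.le)
  set h1 : ℍ → ℂ := fun τ => H τ with hh1
  have hh1m : MDiff h1 := by
    rw [UpperHalfPlane.mdifferentiable_iff]
    refine hH.congr fun z hz => ?_
    simp [hh1, ofComplex_apply_of_im_pos hz]
  have hmul : ∀ τ : ℍ, h1 τ * g τ = f τ := by
    intro τ
    have := hHg τ τ.im_pos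
    simpa using this
  have hinv : ∀ (γ : SL(2, ℤ)) (τ : ℍ), h1 (γ • τ) = h1 τ := by
    intro γ τ
    have hz : ((fun τ => h1 (γ • τ)) - h1) * g = 0 := by
      ext τ
      simp only [Pi.mul_apply, Pi.sub_apply, Pi.zero_apply]
      have e1 := hmul (γ • τ)
      rw [hgi, hfi] at e1
      rw [sub_mul, e1, hmul, sub_self]
    rcases (UpperHalfPlane.mul_eq_zero_iff ((val_mdiff_comp_smul hh1m γ).sub hh1m) hg).mp hz
      with h | h
    · have := congrFun h τ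
      simpa [sub_eq_zero] using this
    · obtain ⟨τ', hτ'⟩ := hg0
      exact absurd (congrFun h τ') hτ'
  have hlead : Lead atImInfty (qN N) h1 (n + -n') (a * b⁻¹) := by
    refine (hfl.mul (qN_ev_ne_zero N) (hgl.inv hb)).congr' ?_
    filter_upwards [val_ne_zero_of_lead hb hgl] with τ hτ
    rw [← hmul τ, mul_assoc, mul_inv_cancel₀ hτ, mul_one]
  have ht0 : Tendsto h1 atImInfty (𝓝 0) :=
    hlead.tendsto_zero (qN_ev_ne_zero N) (qN_tendsto N) (by omega)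
  have hbd : IsBoundedAtImInfty h1 := by
    have : IsZeroAtImInfty h1 := ht0
    exact this.isBoundedAtImInfty
  obtain ⟨c, hc⟩ := levelOne_const h1 hh1m hinv hbd
  have hc0 : c = 0 := by
    have : Tendsto h1 atImInfty (𝓝 c) := by
      have : h1 = fun _ => c := funext hc
      rw [this]; exact tendsto_const_nhds
    exact tendsto_nhds_unique this ht0
  have hf0 : f = 0 := by
    ext τ
    rw [← hmul τ, hc, hc0, zero_mul]
    rfl
  rw [hf0] at hfl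
  exact ha (hfl.unique Lead.zero)

theorem valence_compare (N : ℕ) [NeZero N] (f g : ℍ → ℂ) (hf : MDiff f) (hg : MDiff g)
    (hfi : ∀ (γ : SL(2, ℤ)) (τ : ℍ), f (γ • τ) = f τ)
    (hgi : ∀ (γ : SL(2, ℤ)) (τ : ℍ), g (γ • τ) = g τ)
    (hloc : ∀ τ0 : ℍ, ∃ (γ : SL(2, ℤ)) (m : ℤ) (a b : ℂ), a ≠ 0 ∧ b ≠ 0 ∧
      Lead (lAt (γ • τ0)) (uAt (γ • τ0)) f m a ∧ Lead (lAt (γ • τ0)) (uAt (γ • τ0)) g m b)
    (n n' : ℤ) (a b : ℂ) (ha : a ≠ 0) (hb : b ≠ 0)
    (hfl : Lead atImInfty (qN N) f n a) (hgl : Lead atImInfty (qN N) g n' b) : n = n' := by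
  refine le_antisymm (valence_le N f g hf hg hfi hgi hloc n n' a b ha hb hfl hgl)
    (valence_le N g f hg hf hgi hfi (fun τ0 => ?_) n' n b a hb ha hgl hfl)
  obtain ⟨γ, m, a', b', ha', hb', h1, h2⟩ := hloc τ0
  exact ⟨γ, m, b', a', hb', ha', h2, h1⟩

end Fermat.Agent.S20Lib
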