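import Fermat.Agent.S20.Basic
import Fermat.Agent.S20.Infty
import Fermat.Agent.S20.Tuple0
import Fermat.Agent.S20.Local
import Fermat.Agent.S20.DivLemma
import Fermat.Agent.S20.Ell
import Fermat.Agent.S20.Valence
import Fermat.Agent.S20.EigenCount

set_option autoImplicit false
open UpperHalfPlane hiding I
open ModularForm EisensteinSeries Complex Filter Topology CongruenceSubgroup
open scoped MatrixGroups Manifold

namespace Fermat.Agent.S20Lib

variable {N : ℕ} [NeZero N]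
set_option linter.unusedSectionVars false

theorem hex_infty : ∀ G ∈ WH N, G ≠ 0 → ∃ m, HasOrd atImInfty (qN N) G m :=
  fun _ hG h0 => exists_ord_infty N hG h0

theorem IsWH.sum {ι : Type*} (s : Finset ι) {F : ι → ℍ → X0 N → ℂ} (h : ∀ i ∈ s, IsWH N (F i)) :
    IsWH N (∑ i ∈ s, F i) := by
  classical
  induction s using Finset.induction_on with
  | empty => simpa using IsWH.zero N
  | insert a s ha ih =>
    rw [Finset.sum_insert ha]
    exact (h a (Finset.mem_insert_self a s)).add (ih fun i hi => h i (Finset.mem_insert_of_mem hi))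

theorem IsWH.jpow_mul {F : ℍ → X0 N → ℂ} (hF : IsWH N F) (a : ℕ) :
    IsWH N (fun τ => (jF τ ^ a) • F τ) := by
  induction a with
  | zero => simpa using hF
  | succ a ih =>
    have := ih.jmul
    refine (congrArg (IsWH N) ?_).mp this
    funext τ
    rw [smul_smul, pow_succ, mul_comm]

theorem IsWH.comb {F : X0 N → ℍ → X0 N → ℂ} (hF : ∀ i, IsWH N (F i)) (c : X0 N → ℂ)
    (a : X0 N → ℕ) : IsWH N (fun τ => ∑ i, (c i * jF τ ^ a i) • F i τ) := by
  have := IsWH.sum Finset.univ (F := fun i => c i • fun τ => (jF τ ^ a i) • F i τ)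
    (fun i _ => ((hF i).jpow_mul (a i)).smul (c i))
  refine (congrArg (IsWH N) ?_).mp this
  funext τ
  simp [Finset.sum_apply, smul_smul]

theorem IsWH.comb0 {F : X0 N → ℍ → X0 N → ℂ} (hF : ∀ i, IsWH N (F i)) (c : X0 N → ℂ) :
    IsWH N (fun τ => ∑ i, c i • F i τ) := by
  simpa using IsWH.comb hF c (fun _ => 0)

theorem tuple_bound {F : X0 N → ℍ → X0 N → ℂ} {n : X0 N → ℤ}
    (h : IsTup atImInfty (qN N) (WH N) F n) : ∑ i, n i ≤ 0 := by
  by_contra hpos
  push Not at hpos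
  choose A _ hA using h.ord
  have hD := Lead.det (qN_ev_ne_zero N) hA
  have hD0 : Tendsto (tdet F) atImInfty (𝓝 0) :=
    hD.tendsto_zero (qN_ev_ne_zero N) (qN_tendsto N) hpos
  have hsq : Tendsto (fun τ => tdet F τ ^ 2) atImInfty (𝓝 0) := by
    simpa using hD0.pow 2
  have hhol : MDiff (fun τ => tdet F τ ^ 2) :=
    (tdet_holo N (fun i x => (h.mem i).holo x)).pow 2
  obtain ⟨c, hc⟩ := levelOne_const (fun τ => tdet F τ ^ 2) hhol
    (fun γ τ => tdet_sq_inv N h.mem γ τ) (hsq.isBigO_one ℝ)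
  have hc0 : c = 0 := by
    have : Tendsto (fun τ => tdet F τ ^ 2) atImInfty (𝓝 c) := by
      simp only [hc]; exact tendsto_const_nhds
    exact tendsto_nhds_unique this hsq
  obtain ⟨τ, hτ⟩ := h.det_ne
  exact hτ (by simpa [hc0] using hc τ)

theorem exists_maxTup (N : ℕ) [NeZero N] :
    ∃ (F : X0 N → ℍ → X0 N → ℂ) (n : X0 N → ℤ), IsMaxTup atImInfty (qN N) (WH N) F n := by
  refine exists_isMaxTup ?_ 0 (fun F n h => tuple_bound h)
  obtain ⟨F, hF, τ, hτ⟩ := exists_tuple N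
  have h0 : ∀ i, F i ≠ 0 := by
    intro i hi
    exact hτ (tdet_eq_zero_of_row_zero F i τ (by simp [hi]))
  choose n hn using fun i => exists_ord_infty N (hF i) (h0 i)
  exact ⟨F, n, hF, ⟨τ, hτ⟩, hn⟩

/-- the permutation operator -/
noncomputable def pOp (N : ℕ) (σ : SL(2, ℤ)) : (X0 N → ℂ) →ₗ[ℂ] (X0 N → ℂ) :=
  LinearMap.funLeft ℂ ℂ (fun x => σ⁻¹ • x)

theorem pOp_apply (σ : SL(2, ℤ)) (v : X0 N → ℂ) (x : X0 N) : pOp N σ v x = v (σ⁻¹ • x) := rfl

noncomputable def zetaN (N : ℕ) : ℂ := Complex.exp (2 * Real.pi * Complex.I / N)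

theorem zetaN_prim (N : ℕ) [NeZero N] : IsPrimitiveRoot (zetaN N) N :=
  Complex.isPrimitiveRoot_exp N (NeZero.ne N)

section max
variable {F : X0 N → ℍ → X0 N → ℂ} {n : X0 N → ℤ}

theorem max_lead_indep (hmax : IsMaxTup atImInfty (qN N) (WH N) F n) (A : X0 N → X0 N → ℂ)
    (hA : ∀ i, Lead atImInfty (qN N) (F i) (n i) (A i)) : LinearIndependent ℂ A := by
  refine hmax.lead_indep (qN_ev_ne_zero N) (qN_tendsto N) hex_infty A hA (pOp N ModularGroup.T)
    (zetaN N) N (Nat.pos_of_ne_zero (NeZero.ne N)) (zetaN_prim N) ?_ jF (jF_lead_infty N) ?_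
  · intro i
    funext x
    rw [pOp_apply, lead_infty_eigen N (hmax.1.mem i) (hA i) x]
    rfl
  · intro i0 c a _
    exact IsWH.comb hmax.1.mem c a

/-- a combination has order at least the minimum -/
theorem lead_comb {α : Type*} {l : Filter α} {u : α → ℂ} (hu0 : ∀ᶠ τ in l, u τ ≠ 0)
    (hu : Tendsto u l (𝓝 0)) {F : X0 N → α → X0 N → ℂ} {n : X0 N → ℤ} (A : X0 N → X0 N → ℂ)
    (hA : ∀ i, Lead l u (F i) (n i) (A i)) (c : X0 N → ℂ) (m : ℤ)
    (hm : ∀ i, c i ≠ 0 → m ≤ n i) : ∃ B, Lead l u (fun τ => ∑ i, c i • F i τ) m B := by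
  have hterm : ∀ i, ∃ B, Lead l u (fun τ => c i • F i τ) m B := by
    intro i
    by_cases hi : c i = 0
    · exact ⟨0, by simp only [hi, zero_smul]; exact Lead.zero⟩
    · rcases (hm i hi).lt_or_eq with h | h
      · exact ⟨c i • 0, ((hA i).of_lt hu0 hu h).const_smul (c i)⟩
      · exact ⟨c i • A i, h ▸ (hA i).const_smul (c i)⟩
  choose B hB using hterm
  refine ⟨∑ i, B i, ?_⟩
  have := Lead.sum Finset.univ (fun i _ => hB i)
  refine this.congr' (Eventually.of_forall fun τ => ?_)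
  simp [Finset.sum_apply]

theorem tdet_update_smul {α : Type*} (F : X0 N → α → X0 N → ℂ) (i0 : X0 N) (G : α → X0 N → ℂ)
    (a : α → ℂ) (τ : α) :
    tdet (Function.update F i0 (fun τ => a τ • G τ)) τ = a τ * tdet (Function.update F i0 G) τ := by
  unfold tdet
  have := Matrix.det_updateRow_smul (Matrix.of fun i x => F i τ x) i0 (a τ) (G τ)
  convert this using 2
  · ext i x
    by_cases hi : i = i0
    · subst hi; simp
    · simp [Matrix.updateRow_ne hi, Function.update_of_ne hi]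
  · congr 1
    ext i x
    by_cases hi : i = i0
    · subst hi; simp
    · simp [Matrix.updateRow_ne hi, Function.update_of_ne hi]

theorem jF_sub_lead (j0 : ℂ) : Lead atImInfty (qN N) (fun τ => jF τ - j0) (-(N : ℤ)) 1 := by
  have h1 : Lead atImInfty (qN N) (fun _ : ℍ => -j0) (-(N : ℤ)) 0 := by
    refine (Lead.const (-j0)).of_lt (qN_ev_ne_zero N) (qN_tendsto N) ?_
    have : 0 < N := Nat.pos_of_ne_zero (NeZero.ne N)
    omega
  have := (jF_lead_infty N).add h1
  simp only [add_zero] at this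
  refine this.congr' (Eventually.of_forall fun τ => ?_)
  simp [sub_eq_add_neg]

/-- no nonzero combination of a maximal tuple vanishes to order `e` at `τ0` -/
theorem no_high_order (hmax : IsMaxTup atImInfty (qN N) (WH N) F n)
    {τ0 : ℍ} {σ : SL(2, ℤ)} {e : ℕ} {ε : ℂ} (hE : EllData τ0 σ e ε) (c : X0 N → ℂ) (hc : c ≠ 0)
    (B : X0 N → ℂ) (hl : Lead (lAt τ0) (uAt τ0) (fun τ => ∑ i, c i • F i τ) e B) : False := by
  classical
  obtain ⟨G, hG, hGF⟩ := div_lemma N hE (IsWH.comb0 hmax.1.mem c) B hl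
  choose A _ hA using hmax.1.ord
  set S : Finset (X0 N) := Finset.univ.filter fun i => c i ≠ 0 with hS
  have hSne : S.Nonempty := by
    obtain ⟨i, hi⟩ := Function.ne_iff.mp hc
    exact ⟨i, by simpa [hS] using hi⟩
  obtain ⟨i0, hi0S, hi0min⟩ := Finset.exists_min_image S n hSne
  have hci0 : c i0 ≠ 0 := by simpa [hS] using hi0S
  obtain ⟨B', hB'⟩ := lead_comb (qN_ev_ne_zero N) (qN_tendsto N) A hA c (n i0)
    (fun i hi => hi0min i (by simp [hS, hi]))
  -- determinant
  have hdet : ∃ τ, tdet (Function.update F i0 G) τ ≠ 0 := by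
    obtain ⟨τ, hτ⟩ := hmax.1.det_ne
    refine ⟨τ, fun h0 => ?_⟩
    have h1 := tdet_update_smul F i0 G (fun τ => jF τ - jF τ0) τ
    rw [h0, mul_zero, tdet_update_comb F i0 _ τ c (hGF τ)] at h1
    exact (mul_ne_zero hci0 hτ) h1
  -- order of `G` at infinity
  have hinv := (jF_sub_lead (N := N) (jF τ0)).inv one_ne_zero
  have hGl : Lead atImInfty (qN N) G (- -(N : ℤ) + n i0) ((1 : ℂ)⁻¹ • B') := by
    refine (hinv.smul' (qN_ev_ne_zero N) hB').congr' ?_
    have hne : ∀ᶠ τ in atImInfty, jF τ - jF τ0 ≠ 0 := by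
      have h1 := jF_sub_lead (N := N) (jF τ0)
      unfold Lead at h1
      have h2 : ∀ᶠ τ in atImInfty, (qN N τ) ^ (- -(N : ℤ)) • (jF τ - jF τ0) ≠ 0 :=
        h1.eventually_ne one_ne_zero
      filter_upwards [h2] with τ hτ h0
      exact hτ (by simp [h0])
    filter_upwards [hne] with τ hτ
    rw [← hGF τ, smul_smul, inv_mul_cancel₀ hτ, one_smul]
  refine hmax.no_improve (qN_ev_ne_zero N) (qN_tendsto N) hex_infty i0 G hG hdet _ _ hGl ?_
  have : 0 < N := Nat.pos_of_ne_zero (NeZero.ne N)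
  omega

end max

end Fermat.Agent.S20Lib
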