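import Fermat.Agent.S20.LocalStruct
import Fermat.Agent.S20.JBasic

set_option autoImplicit false
open UpperHalfPlane hiding I
open ModularForm EisensteinSeries Complex Filter Topology CongruenceSubgroup
open scoped MatrixGroups Manifold

namespace Fermat.Agent.S20Lib

variable {N : ℕ} [NeZero N]
set_option linter.unusedSectionVars false

theorem det_ne_zero_of_indep (A : X0 N → X0 N → ℂ) (hLI : LinearIndependent ℂ A) :
    (Matrix.of A).det ≠ 0 := by
  have h1 : IsUnit (Matrix.of A) := Matrix.linearIndependent_rows_iff_isUnit.mp hLI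
  exact ((Matrix.isUnit_iff_isUnit_det _).mp h1).ne_zero

variable {F : X0 N → ℍ → X0 N → ℂ} {n : X0 N → ℤ}

/-- order of the determinant at a point with elliptic data -/
theorem tdet_lead_at (hmax : IsMaxTup atImInfty (qN N) (WH N) F n)
    {τ0 : ℍ} {σ : SL(2, ℤ)} {e : ℕ} {ε : ℂ} (hE : EllData τ0 σ e ε) :
    ∃ (s : ℤ) (d : ℂ), d ≠ 0 ∧ Lead (lAt τ0) (uAt τ0) (tdet F) s d ∧ 0 ≤ s ∧
      2 * s + (e : ℤ) * orbCount N σ = (e : ℤ) * Nat.card (X0 N) := by
  obtain ⟨F', n', A', C, hC, hF', hr, hA', hLI, hcount⟩ := local_struct hmax hE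
  have h1 := Lead.det (uAt_ne_zero τ0) hA'
  refine ⟨∑ i, n' i, C.det⁻¹ * (Matrix.of A').det,
    mul_ne_zero (inv_ne_zero hC) (det_ne_zero_of_indep A' hLI), ?_,
    Finset.sum_nonneg fun i _ => (hr i).1, hcount⟩
  have h2 := h1.const_smul (C.det⁻¹)
  refine h2.congr' (Eventually.of_forall fun τ => ?_)
  have := tdet_mul_matrix F F' C hF' τ
  unfold tdet at this
  simp only [Pi.smul_apply, smul_eq_mul, this]
  unfold tdet
  field_simp

theorem tdet_lead_infty (hmax : IsMaxTup atImInfty (qN N) (WH N) F n) :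
    ∃ d : ℂ, d ≠ 0 ∧ Lead atImInfty (qN N) (tdet F) (∑ i, n i) d := by
  choose A _ hA using hmax.1.ord
  exact ⟨_, det_ne_zero_of_indep A (max_lead_indep hmax A hA), Lead.det (qN_ev_ne_zero N) hA⟩

theorem lead_of_continuousAt (τ0 : ℍ) (g : ℍ → ℂ) (hg : ContinuousAt g τ0) :
    Lead (lAt τ0) (uAt τ0) g 0 (g τ0) :=
  Lead.of_tendsto (hg.tendsto.mono_left nhdsWithin_le_nhds)

theorem sum_n (hmax : IsMaxTup atImInfty (qN N) (WH N) F n) :
    2 * ∑ i, n i = -(N : ℤ) * (2 * Nat.card (X0 N) - orbCount N ModularGroup.S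
      - orbCount N (ModularGroup.S * ModularGroup.T)) := by
  obtain ⟨sI, dI, hdI, hlI, hsI, hcI⟩ := tdet_lead_at hmax ellData_I
  obtain ⟨ε, hρ⟩ := ellData_rho
  obtain ⟨sR, dR, hdR, hlR, hsR, hcR⟩ := tdet_lead_at hmax hρ
  obtain ⟨d, hd, hl⟩ := tdet_lead_infty hmax
  -- exponents
  obtain ⟨a, ha⟩ : ∃ a : ℕ, (a : ℤ) = sI := ⟨sI.toNat, Int.toNat_of_nonneg hsI⟩
  obtain ⟨b, hb⟩ : ∃ b : ℕ, 3 * (b : ℤ) = 2 * sR := by
    refine ⟨((Nat.card (X0 N) : ℤ) - orbCount N (ModularGroup.S * ModularGroup.T)).toNat, ?_⟩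
    rw [Int.toNat_of_nonneg (by push_cast at hcR; omega)]
    push_cast at hcR
    omega
  set g : ℍ → ℂ := fun τ => (jF τ - 1728) ^ a * jF τ ^ b with hg
  have hgcont : Continuous g := by
    rw [hg]
    exact ((jF_continuous.sub continuous_const).pow a).mul (jF_continuous.pow b)
  have key := valence_compare N (fun τ => tdet F τ ^ 2) g
    ((tdet_holo N (fun i x => (hmax.1.mem i).holo x)).pow 2)
    (((jF_holo.sub mdifferentiable_const).pow a).mul (jF_holo.pow b))
    (fun γ τ => tdet_sq_inv N hmax.1.mem γ τ)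
    (fun γ τ => by simp only [hg, jF_inv]) ?_ (2 * ∑ i, n i) (-(N : ℤ) * (a + b)) (d ^ 2) 1
    (pow_ne_zero 2 hd) one_ne_zero ?_ ?_
  · rw [key]
    push_cast at hcI hcR
    have h1 : (a : ℤ) = Nat.card (X0 N) - orbCount N ModularGroup.S := by omega
    have h2 : (b : ℤ) = Nat.card (X0 N) - orbCount N (ModularGroup.S * ModularGroup.T) := by
      omega
    rw [h1, h2]
    ring
  · intro τ0
    rcases orbit_cases τ0 with ⟨h4, h6⟩ | ⟨γ, hγ⟩ | ⟨γ, hγ⟩
    · obtain ⟨s, d0, hd0, hl0, hs0, hc0⟩ := tdet_lead_at hmax (ellData_generic τ0 h4 h6)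
      obtain ⟨F', n', A', C, hC, hF', hr, hA', hLI, hcount⟩ :=
        local_struct hmax (ellData_generic τ0 h4 h6)
      have hn' : ∑ i, n' i = 0 := Finset.sum_eq_zero fun i _ => by
        have := hr i
        push_cast at this
        omega
      have hs : s = 0 := by
        rw [hn'] at hcount
        omega
      subst hs
      refine ⟨1, 0, d0 ^ 2, g τ0, pow_ne_zero 2 hd0, ?_, ?_, ?_⟩
      · have hj0 : jF τ0 ≠ 0 := by
          unfold jF
          exact div_ne_zero (pow_ne_zero 3 h4) (discriminant_ne_zero τ0)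
        have hj1 : jF τ0 - 1728 ≠ 0 := by
          rw [jF_sub_eq]
          exact div_ne_zero (pow_ne_zero 2 h6) (discriminant_ne_zero τ0)
        exact mul_ne_zero (pow_ne_zero a hj1) (pow_ne_zero b hj0)
      · rw [one_smul]
        simpa using hl0.pow (uAt_ne_zero τ0) 2
      · rw [one_smul]
        exact lead_of_continuousAt τ0 g hgcont.continuousAt
    · obtain ⟨c, hc, hjl⟩ := ellData_I.jord
      rw [jF_I] at hjl
      refine ⟨γ, 2 * sI, dI ^ 2, c ^ a * (1728 : ℂ) ^ b, pow_ne_zero 2 hdI,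
        mul_ne_zero (pow_ne_zero a hc) (pow_ne_zero b (by norm_num)), ?_, ?_⟩
      · rw [hγ]
        simpa using hlI.pow (uAt_ne_zero _) 2
      · rw [hγ]
        have h1 := hjl.pow (uAt_ne_zero _) a
        have h2 := (lead_of_continuousAt UpperHalfPlane.I jF jF_continuous.continuousAt).pow
          (uAt_ne_zero _) b
        rw [jF_I] at h2
        have h3 := h1.mul (uAt_ne_zero _) h2
        convert h3 using 1
        rw [← ha]
        push_cast
        ring
    · obtain ⟨c, hc, hjl⟩ := hρ.jord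
      rw [jF_rho] at hjl
      simp only [sub_zero] at hjl
      refine ⟨γ, 2 * sR, dR ^ 2, (-1728 : ℂ) ^ a * c ^ b, pow_ne_zero 2 hdR,
        mul_ne_zero (pow_ne_zero a (by norm_num)) (pow_ne_zero b hc), ?_, ?_⟩
      · rw [hγ]
        simpa using hlR.pow (uAt_ne_zero _) 2
      · rw [hγ]
        have h1 := hjl.pow (uAt_ne_zero _) b
        have h2 := (lead_of_continuousAt ellRho (fun τ => jF τ - 1728)
          (jF_continuous.sub continuous_const).continuousAt).pow (uAt_ne_zero _) a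
        rw [jF_rho] at h2
        have h3 := h2.mul (uAt_ne_zero _) h1
        convert h3 using 1
        · rw [← hb]
          push_cast
          ring
        · norm_num
  · simpa using hl.pow (qN_ev_ne_zero N) 2
  · have h1 := (jF_sub_lead (N := N) 1728).pow (qN_ev_ne_zero N) a
    have h2 := (jF_lead_infty N).pow (qN_ev_ne_zero N) b
    have h3 := h1.mul (qN_ev_ne_zero N) h2
    convert h3 using 1
    · ring
    · simp

end Fermat.Agent.S20Lib
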